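import Fermat.Agent.Q.Transfer

/-!
# The Galois action on the toric part at all levels
-/

set_option autoImplicit false
set_option linter.style.haveILetI false
set_option linter.unusedSectionVars false
set_option maxSynthPendingDepth 3

noncomputable section

namespace Fermat.Agent.Q

open ModularCurve AlgebraicCurve Fermat.Agent.H11Q

local notation "kk" => IsLocalRing.ResidueField
local notation "Qb" => AlgebraicClosure ℚ

/-- level packages exist at the levels divisible by `2` or `3`. -/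
def HasPacks (A : ValuationSubring Qb) (r : ℕ) : Prop :=
  ∀ (M : ℕ) [NeZero M], Nat.Coprime r M → (2 ∣ M ∨ 3 ∣ M) →
    Nonempty (LevelPack A (modularFunctionFieldBar M) (modularFunctionFieldFullC (kk A) M) r)

theorem exists_aux_prime {r M : ℕ} (hr : r.Prime) (hrM : Nat.Coprime r M)
    (h : ¬ (2 ∣ M ∨ 3 ∣ M)) : ∃ ℓ : ℕ, ℓ.Prime ∧ ¬ ℓ ∣ M * r ∧ (2 ∣ M * ℓ ∨ 3 ∣ M * ℓ) ∧
      Nat.Coprime r (M * ℓ) ∧ ∀ m, Nat.Coprime m 6 → Nat.Coprime m (ℓ + 1) := by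
  push Not at h
  by_cases h2 : r = 2
  · subst h2
    refine ⟨3, Nat.prime_three, ?_, Or.inr (dvd_mul_left 3 M), ?_, fun m hm => ?_⟩
    · intro h3
      rcases (Nat.Prime.dvd_mul Nat.prime_three).mp h3 with h4 | h4
      · exact h.2 h4
      · omega
    · exact Nat.Coprime.mul_right hrM (by norm_num)
    · have h5 : Nat.Coprime m 2 := hm.coprime_dvd_right (by norm_num)
      exact Nat.Coprime.mul_right h5 h5
  · refine ⟨2, Nat.prime_two, ?_, Or.inl (dvd_mul_left 2 M), ?_, fun m hm => ?_⟩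
    · intro h3
      rcases (Nat.Prime.dvd_mul Nat.prime_two).mp h3 with h4 | h4
      · exact h.1 h4
      · exact h2 ((Nat.prime_dvd_prime_iff_eq Nat.prime_two hr).mp h4).symm
    · exact Nat.Coprime.mul_right hrM ((Nat.coprime_primes hr Nat.prime_two).mpr h2)
    · exact hm.coprime_dvd_right (by norm_num)

variable {M r : ℕ} [NeZero M] [hr : Fact r.Prime] (hrM : Nat.Coprime r M)
  {A : ValuationSubring Qb} (hA : A.LiesOverPrime r) (hP : HasPacks A r) {m : ℕ}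

include hA hP

/-- **(T1)**, all levels. -/
theorem toric_inertia (hm : ¬ r ∣ m) (hm6 : Nat.Coprime m 6) {x : JZero (M * r)}
    (hx : x ∈ TSub A M r m hrM) {σ : Qb ≃ₐ[ℚ] Qb} (hσ : σ ∈ A.inertiaSubgroupIn ℚ) :
    σ • x = x := by
  have hm0 : m ≠ 0 := by rintro rfl; exact hm (dvd_zero r)
  by_cases h : 2 ∣ M ∨ 3 ∣ M
  · obtain ⟨lp⟩ := hP M hrM h
    exact inertia_smul_of_mem_TSub hrM hA lp hm hx hσ
  · obtain ⟨ℓ, hℓ, h1, h2, h3, h4⟩ := exists_aux_prime hr.out hrM h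
    haveI : Fact ℓ.Prime := ⟨hℓ⟩
    haveI : NeZero (M * ℓ) := ⟨mul_ne_zero (NeZero.ne M) hℓ.ne_zero⟩
    obtain ⟨lp⟩ := hP (M * ℓ) h3 h2
    exact inertia_transfer hrM h3 rfl h1 hm0 (h4 m hm6) σ
      (fun y hy => inertia_smul_of_mem_TSub h3 hA lp hm hy hσ) hx

/-- **(T3)**, all levels. -/
theorem toric_frobenius_w (hm : ¬ r ∣ m) (hm6 : Nat.Coprime m 6) {x : JZero (M * r)}
    (hx : x ∈ TSub A M r m hrM) {φ : Qb ≃ₐ[ℚ] Qb} (hφ : A.IsFrobeniusAt φ r) :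
    φ • wS M r hrM • x = -(r • x) := by
  have hm0 : m ≠ 0 := by rintro rfl; exact hm (dvd_zero r)
  by_cases h : 2 ∣ M ∨ 3 ∣ M
  · obtain ⟨lp⟩ := hP M hrM h
    exact frobenius_smul_w_of_mem_TSub hrM hA lp hm hx hφ
  · obtain ⟨ℓ, hℓ, h1, h2, h3, h4⟩ := exists_aux_prime hr.out hrM h
    haveI : Fact ℓ.Prime := ⟨hℓ⟩
    haveI : NeZero (M * ℓ) := ⟨mul_ne_zero (NeZero.ne M) hℓ.ne_zero⟩
    obtain ⟨lp⟩ := hP (M * ℓ) h3 h2
    exact swap_transfer hrM h3 rfl h1 hm0 (h4 m hm6) φ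
      (fun y hy => frobenius_smul_w_of_mem_TSub h3 hA lp hm hy hφ) hx

/-- **(T2)**, all levels. -/
theorem toric_frobenius_sq (hm : ¬ r ∣ m) (hm6 : Nat.Coprime m 6) {x : JZero (M * r)}
    (hx : x ∈ TSub A M r m hrM) {φ : Qb ≃ₐ[ℚ] Qb} (hφ : A.IsFrobeniusAt φ r) :
    φ • φ • x = (r ^ 2) • x := by
  have hm0 : m ≠ 0 := by rintro rfl; exact hm (dvd_zero r)
  by_cases h : 2 ∣ M ∨ 3 ∣ M
  · obtain ⟨lp⟩ := hP M hrM h
    exact frobenius_sq_smul_of_mem_TSub hrM hA lp hm hx hφ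
  · obtain ⟨ℓ, hℓ, h1, h2, h3, h4⟩ := exists_aux_prime hr.out hrM h
    haveI : Fact ℓ.Prime := ⟨hℓ⟩
    haveI : NeZero (M * ℓ) := ⟨mul_ne_zero (NeZero.ne M) hℓ.ne_zero⟩
    obtain ⟨lp⟩ := hP (M * ℓ) h3 h2
    exact frobenius_sq_transfer hrM h3 rfl h1 hm0 (h4 m hm6) φ
      (fun y hy => frobenius_sq_smul_of_mem_TSub h3 hA lp hm hy hφ) hx

end Fermat.Agent.Q
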