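import Fermat.Agent.Q.AtkinLehner
import Fermat.Agent.H05.Kum

/-!
# Norms as products over explicit embeddings
-/

set_option autoImplicit false
set_option linter.style.haveILetI false

noncomputable section

namespace Fermat.Agent.Q

open ModularCurve HahnSeries Fermat.Agent.Igusa

section Generic

variable {E F Ω : Type*} [Field E] [Field F] [Field Ω]

theorem algebraMap_norm_eq_prod [Algebra E F] [FiniteDimensional E F] [Algebra.IsSeparable E F]
    {ι : Type*} [Fintype ι] (i₀ : ι) (τ : ι → (F →+* Ω)) (hτ : Function.Injective τ)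
    (hcomp : ∀ i, (τ i).comp (algebraMap E F) = (τ i₀).comp (algebraMap E F))
    (hcard : Fintype.card ι = Module.finrank E F) (z : F) :
    τ i₀ (algebraMap E F (Algebra.norm E z)) = ∏ i, τ i z := by
  classical
  letI : Algebra E Ω := ((τ i₀).comp (algebraMap E F)).toAlgebra
  have halg : ∀ e, algebraMap E Ω e = τ i₀ (algebraMap E F e) := fun e => rfl
  let Ω' := AlgebraicClosure Ω
  haveI : IsScalarTower E Ω Ω' := inferInstance
  let T : ι → (F →ₐ[E] Ω') := fun i =>
    { (algebraMap Ω Ω').comp (τ i) with
      commutes' := fun e => by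
        change algebraMap Ω Ω' (τ i (algebraMap E F e)) = algebraMap E Ω' e
        rw [IsScalarTower.algebraMap_apply E Ω Ω', halg]
        exact congrArg _ (congrArg (fun f : E →+* Ω => f e) (hcomp i)) }
  have hT : ∀ i x, T i x = algebraMap Ω Ω' (τ i x) := fun i x => rfl
  have hTinj : Function.Injective T := by
    intro i j hij
    apply hτ
    ext x
    apply (algebraMap Ω Ω').injective
    rw [← hT, ← hT, hij]
  have hbij : Function.Bijective T := by
    rw [Fintype.bijective_iff_injective_and_card]
    refine ⟨hTinj, ?_⟩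
    rw [hcard, AlgHom.card]
  apply (algebraMap Ω Ω').injective
  rw [map_prod]
  have h1 := Algebra.norm_eq_prod_embeddings E Ω' z
  rw [IsScalarTower.algebraMap_apply E Ω Ω', halg] at h1
  rw [h1]
  exact (Fintype.prod_bijective T hbij _ _ (fun i => (hT i z).symm)).symm

open AlgebraicCurve

theorem rank_along_inclusion {K L : Type*} [Field K] [Field L] [Algebra K L]
    (A B : IntermediateField K L) (h : A ≤ B) :
    letI := algebraAlong (IntermediateField.inclusion h)
    Module.rank A B = A.relrank B := by
  letI := algebraAlong (IntermediateField.inclusion h)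
  rw [IntermediateField.relrank_eq_rank_of_le h]
  let e : IntermediateField.extendScalars h ≃ₗ[A] B :=
    { toFun := fun x => ⟨x, x.2⟩
      invFun := fun x => ⟨x, x.2⟩
      left_inv := fun _ => rfl
      right_inv := fun _ => rfl
      map_add' := fun _ _ => rfl
      map_smul' := fun a x => by
        apply Subtype.ext
        rw [Algebra.smul_def, RingHom.id_apply, Algebra.smul_def]
        rfl }
  exact e.rank_eq.symm

theorem normAlong_inclusion_eq_prod {K L : Type*} [Field K] [Field L] [Algebra K L] [CharZero K]
    (A B : IntermediateField K L) (h : A ≤ B) {Ω : Type*} [Field Ω]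
    {ι : Type*} [Fintype ι] (i₀ : ι) (τ : ι → (B →+* Ω)) (hτ : Function.Injective τ)
    (hcomp : ∀ i (x : A), τ i (IntermediateField.inclusion h x) =
      τ i₀ (IntermediateField.inclusion h x))
    (hcard : A.relrank B = (Fintype.card ι : Cardinal)) (z : B) :
    τ i₀ (IntermediateField.inclusion h (H05.normAlong (IntermediateField.inclusion h) z)) =
      ∏ i, τ i z := by
  letI := algebraAlong (IntermediateField.inclusion h)
  have hfin : Module.finrank A B = Fintype.card ι := by
    apply Module.finrank_eq_of_rank_eq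
    rw [rank_along_inclusion A B h, hcard]
  haveI : Nonempty ι := ⟨i₀⟩
  haveI : FiniteDimensional A B :=
    FiniteDimensional.of_finrank_pos (by rw [hfin]; exact Fintype.card_pos)
  haveI : CharZero A := charZero_of_injective_algebraMap (algebraMap K A).injective
  exact algebraMap_norm_eq_prod (E := A) i₀ τ hτ
    (fun i => RingHom.ext fun x => hcomp i x) hfin.symm z

end Generic

section Level

open AlgebraicCurve

variable (K : Type*) [Field K] (M r : ℕ) [NeZero M] [hr : Fact r.Prime]

instance : NeZero r := ⟨hr.out.ne_zero⟩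

/-- the inclusion of the level `M` function field in the level `M r` function field. -/
def incl : modularFunctionFieldFullC K M →ₐ[K] modularFunctionFieldFullC K (M * r) :=
  IntermediateField.inclusion (full_degeneracyC_le K (dvd_mul_right M r))

@[simp] theorem coe_incl (x : modularFunctionFieldFullC K M) :
    (incl K M r x : LaurentSeries K) = x := IntermediateField.coe_inclusion _ x

variable [CharZero K]

theorem relrank_incl (hrM : ¬ r ∣ M) :
    (modularFunctionFieldFullC K M).relrank (modularFunctionFieldFullC K (M * r)) =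
      ((r + 1 : ℕ) : Cardinal) := by
  have hM : (M : K) ≠ 0 := by exact_mod_cast NeZero.ne M
  have hMr : ((M * r : ℕ) : K) ≠ 0 := by exact_mod_cast mul_ne_zero (NeZero.ne M) hr.out.ne_zero
  have h1 := relrank_prime_step r M hMr (relrank_full M hM)
  rwa [if_neg hrM] at h1

variable [Algebra ℚ K] [Algebra.IsAlgebraic ℚ K]

variable {r}

/-- The `r + 1` embeddings of the level `M r` function field in `K((t))`, `t^r = q`, agreeing on
the level `M` function field. -/
def tau (hQM : Nat.Coprime r M) (ζ : Kˣ) :
    Option (ZMod r) → (modularFunctionFieldFullC K (M * r) →+* LaurentSeries K)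
  | none => (qExpand K r).comp (modularFunctionFieldFullC K (M * r)).val.toRingHom
  | some b => (twist (ζ ^ b.val)).comp
      ((modularFunctionFieldFullC K (M * r)).val.toRingHom.comp (wQ K hQM).toAlgHom.toRingHom)

theorem tau_none (hQM : Nat.Coprime r M) (ζ : Kˣ) (x : modularFunctionFieldFullC K (M * r)) :
    tau K M hQM ζ none x = qExpand K r x := rfl

theorem tau_some (hQM : Nat.Coprime r M) (ζ : Kˣ) (b : ZMod r)
    (x : modularFunctionFieldFullC K (M * r)) :
    tau K M hQM ζ (some b) x = twist (ζ ^ b.val) (wQ K hQM x) := rfl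

theorem tau_incl (hQM : Nat.Coprime r M) {ζ : Kˣ} (hζ : ζ ^ r = 1) (i : Option (ZMod r))
    (x : modularFunctionFieldFullC K M) :
    tau K M hQM ζ i (incl K M r x) = qExpand K r x := by
  rcases i with _ | b
  · rw [tau_none, coe_incl]
  · rw [tau_some]
    have h0 : incl K M r x = ⟨x, mem_of_mem K x x.2⟩ := Subtype.ext (coe_incl K M r x)
    have h1 : (wQ K hQM (incl K M r x) : LaurentSeries K) = qExpand K r x := by
      rw [h0]
      exact coe_wQ_of_mem K hQM x x.2
    rw [h1, twist_qExpand]
    rw [← pow_mul, mul_comm, pow_mul, hζ, one_pow]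

theorem tau_injective (hQM : Nat.Coprime r M) {ζ : Kˣ} (hζ : IsPrimitiveRoot ζ r) :
    Function.Injective (tau K M hQM ζ) := by
  have hmem : jd K r ∈ modularFunctionFieldFullC K (M * r) := jd_mem_full (dvd_mul_left r M)
  have h0 : ∀ b : ZMod r, tau K M hQM ζ (some b) ⟨jd K r, hmem⟩ =
      twist (ζ ^ b.val) (jqModC K) := by
    intro b
    rw [tau_some]
    have := coe_wQ_jd' K hQM (d := r) (e := 1) dvd_rfl (one_dvd M) (mul_one r)
      (by rw [Nat.div_self hr.out.pos, mul_one]) hmem
    rw [this, jd_one]
  have h1 : tau K M hQM ζ none ⟨jd K r, hmem⟩ = qExpand K r (jd K r) := rfl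
  have hc : ∀ b : ZMod r, (twist (ζ ^ b.val) (jqModC K)).coeff (-1) =
      (((ζ ^ b.val)⁻¹ : Kˣ) : K) := by
    intro b
    rw [twist_coeff, coeff_jqModC_neg_one, one_mul, zpow_neg_one]
  have hc' : (qExpand K r (jd K r)).coeff (-1) = 0 := by
    apply qExpand_coeff_of_not_dvd
    rw [dvd_neg]
    intro h
    have : (r : ℤ) ≤ 1 := Int.le_of_dvd one_pos h
    have := hr.out.two_le
    omega
  intro i j hij
  have hij' := congrArg (fun f : modularFunctionFieldFullC K (M * r) →+* LaurentSeries K =>
    (f ⟨jd K r, hmem⟩).coeff (-1)) hij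
  rcases i with _ | b <;> rcases j with _ | c
  · rfl
  · simp only [h1, h0, hc, hc'] at hij'
    exact absurd hij'.symm (Units.ne_zero _)
  · simp only [h1, h0, hc, hc'] at hij'
    exact absurd hij' (Units.ne_zero _)
  · simp only [h0, hc] at hij'
    have h2 : ζ ^ b.val = ζ ^ c.val := inv_injective (Units.ext hij')
    have h3 := hζ.pow_inj (ZMod.val_lt b) (ZMod.val_lt c) h2
    rw [ZMod.val_injective r h3]

/-- **The norm formula**: `N(z)(t^r) = z(t^r) ∏_b (w z)(ζ^b t)`. -/
theorem norm_formula (hQM : Nat.Coprime r M) {ζ : Kˣ} (hζ : IsPrimitiveRoot ζ r)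
    (z : modularFunctionFieldFullC K (M * r)) :
    qExpand K r ((H05.normAlong (incl K M r) z : modularFunctionFieldFullC K M) :
      LaurentSeries K) =
      qExpand K r z * ∏ b : ZMod r, twist (ζ ^ b.val) (wQ K hQM z : LaurentSeries K) := by
  have hrM : ¬ r ∣ M := by
    rw [← hr.out.coprime_iff_not_dvd]; exact hQM
  have h := normAlong_inclusion_eq_prod (modularFunctionFieldFullC K M)
    (modularFunctionFieldFullC K (M * r)) (full_degeneracyC_le K (dvd_mul_right M r))
    (none : Option (ZMod r)) (tau K M hQM ζ) (tau_injective K M hQM hζ) (fun i x => by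
      rw [← incl, tau_incl K M hQM hζ.pow_eq_one, tau_incl K M hQM hζ.pow_eq_one])
    (by rw [relrank_incl K M r hrM, Fintype.card_option, ZMod.card]) z
  rw [Fintype.prod_option, ← incl, tau_incl K M hQM hζ.pow_eq_one, tau_none] at h
  rw [h]
  rfl

end Level

end Fermat.Agent.Q
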