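import Fermat.Agent.Q.Val
import Fermat.Agent.Q.NormFormula

/-!
# The residue field of the Gauss valuation on modular function fields
-/

set_option autoImplicit false
set_option linter.style.haveILetI false

noncomputable section

namespace Fermat.Agent.Q

open ModularCurve HahnSeries Fermat.Agent.Igusa

local notation "kk" => IsLocalRing.ResidueField

variable {K : Type*} [Field K] {A : ValuationSubring K}

/-- scaling lemma. -/
theorem Red.scale {z : LaurentSeries K} {e : K} {u u' : LaurentSeries (kk A)}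
    (h : Red A (HahnSeries.C e * z) u) (h' : Red A z u') (hu' : u' ≠ 0) :
    ∃ he : e ∈ A, u = HahnSeries.C (IsLocalRing.residue A ⟨e, he⟩) * u' := by
  by_cases he : e ∈ A
  · exact ⟨he, h.unique ((Red.C he).mul h')⟩
  · exfalso
    have he0 : e ≠ 0 := by
      rintro rfl
      exact he (zero_mem A)
    have hinv : e⁻¹ ∈ A := (A.mem_or_inv_mem e).resolve_left he
    have h2 : IsLocalRing.residue A ⟨e⁻¹, hinv⟩ = 0 := by
      rw [IsLocalRing.residue_eq_zero_iff, ← ValuationSubring.coe_mem_nonunits_iff]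
      by_contra hcon
      have := ((H05.not_mem_nonunits_iff A hinv).mp hcon).1
      rw [inv_inv] at this
      exact he this
    have h1 := (Red.C hinv).mul h
    rw [h2, map_zero, zero_mul, ← mul_assoc, ← map_mul, inv_mul_cancel₀ he0, map_one,
      one_mul] at h1
    exact hu' (h'.unique h1)

theorem algebraMap_eq_C (c : K) : algebraMap K (LaurentSeries K) c = HahnSeries.C c := by
  rw [algebraMap_laurentSeries_eq_single]; rfl

variable [CharZero K] [Algebra ℚ K] [Algebra.IsAlgebraic ℚ K]

omit [CharZero K] [Algebra ℚ K] [Algebra.IsAlgebraic ℚ K] in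
theorem jd_mem_intL (d : ℕ) [NeZero d] : jd K d ∈ intL A := by
  rw [mem_intL]
  intro n
  by_cases hn : (d : ℤ) ∣ n
  · obtain ⟨m, rfl⟩ := hn
    rw [jd, qExpand_coeff_mul, coeff_jqModC_eq_intCast]
    exact intCast_mem A _
  · rw [jd, qExpand_coeff_of_not_dvd d _ hn]
    exact zero_mem A

omit [CharZero K] [Algebra ℚ K] [Algebra.IsAlgebraic ℚ K] in
theorem redL_jd (d : ℕ) [NeZero d] : redL A ⟨jd K d, jd_mem_intL d⟩ = jd (kk A) d := by
  have h1 : coeffMap A.subtype (jd A d) = jd K d := coeffMap_jd _ d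
  have h2 := redL_coeffMap (jd A d) (by rw [h1]; exact jd_mem_intL d)
  have h3 : (⟨coeffMap A.subtype (jd A d), by rw [h1]; exact jd_mem_intL d⟩ : intL A) =
      ⟨jd K d, jd_mem_intL d⟩ := Subtype.ext h1
  rw [h3] at h2
  rw [h2, coeffMap_jd]

omit [CharZero K] [Algebra ℚ K] [Algebra.IsAlgebraic ℚ K] in
theorem red_jd (d : ℕ) [NeZero d] : Red A (jd K d) (jd (kk A) d) := by
  have := Red.of_intL (⟨jd K d, jd_mem_intL d⟩ : intL A)
  rwa [redL_jd] at this

omit [CharZero K] [Algebra.IsAlgebraic ℚ K] in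
theorem jd_mem_DD (d : ℕ) [NeZero d] : jd K d ∈ DD A := by
  refine ⟨intL_le_bddL (jd_mem_intL d), ⟨⊥, inferInstance, fun n => ?_⟩⟩
  by_cases hn : (d : ℤ) ∣ n
  · obtain ⟨m, rfl⟩ := hn
    rw [jd, qExpand_coeff_mul, coeff_jqModC_eq_intCast]
    exact intCast_mem _ _
  · rw [jd, qExpand_coeff_of_not_dvd d _ hn]
    exact zero_mem _

omit [CharZero K] in
theorem full_le_FL (N : ℕ) {x : LaurentSeries K} (hx : x ∈ modularFunctionFieldFullC K N) :
    x ∈ FL A := by
  have hle : modularFunctionFieldFullC K N ≤ (FL A).toIntermediateField (fun c => by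
      rw [algebraMap_eq_C]; exact C_mem_FL c) := by
    rw [modularFunctionFieldFullC, IntermediateField.adjoin_le_iff]
    rintro y ⟨d, hd, hdvd, rfl⟩
    exact DD_le_FL (jd_mem_DD d)
  exact hle hx

/-- **Fundamental inequality.** -/
theorem card_le_relrank_of_red {ℓ : ℕ} (hℓ : ℓ.Prime) (hA : A.LiesOverPrime ℓ)
    {E F : IntermediateField K (LaurentSeries K)} (hEF : E ≤ F)
    (Θ : F →ₐ[K] LaurentSeries K) (hFL : ∀ x, Θ x ∈ FL A) {κ : Set (LaurentSeries (kk A))}
    (hκ : ∀ c : F, (c : LaurentSeries K) ∈ E → ∀ u, Red A (Θ c) u → u ∈ κ)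
    {n : ℕ} (x : Fin n → F) (u : Fin n → LaurentSeries (kk A)) (hx : ∀ i, Red A (Θ (x i)) (u i))
    (hind : ∀ v : Fin n → LaurentSeries (kk A), (∀ i, v i ∈ κ) → ∑ i, v i * u i = 0 →
      ∀ i, v i = 0) : (n : Cardinal) ≤ E.relrank F := by
  classical
  refine card_le_relrank hEF (fun i => (x i : LaurentSeries K)) (fun i => (x i).2) ?_
  intro c hc hsum
  by_contra hne
  push Not at hne
  -- elements of `F`
  let c' : Fin n → F := fun i => ⟨c i, hEF (hc i)⟩
  have hsum' : ∑ i, c' i * x i = 0 := by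
    apply Subtype.ext
    push_cast
    exact hsum
  have hc'0 : ∀ i, c i ≠ 0 → Θ (c' i) ≠ 0 := by
    intro i hi h0
    apply hi
    have := (map_eq_zero_iff Θ Θ.injective).mp h0
    exact congrArg Subtype.val this
  have hex : ∀ i, ∃ d : K, d ≠ 0 ∧ (c i ≠ 0 → ∃ v, v ≠ 0 ∧
      Red A (HahnSeries.C d * Θ (c' i)) v) := by
    intro i
    by_cases hi : c i = 0
    · exact ⟨1, one_ne_zero, fun h => absurd hi h⟩
    · obtain ⟨d, hd, v, hv, hr⟩ := exists_red hℓ hA (hFL (c' i)) (hc'0 i hi)
      exact ⟨d, hd, fun _ => ⟨v, hv, hr⟩⟩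
  choose d hd hdv using hex
  set s : Finset (Fin n) := Finset.univ.filter fun i => c i ≠ 0 with hs
  have hsne : s.Nonempty := by
    obtain ⟨i, hi⟩ := hne
    exact ⟨i, by simp [hs, hi]⟩
  obtain ⟨i₀, hi₀, hmin⟩ := Finset.exists_min_image s (fun i => A.valuation (d i)) hsne
  have hi₀' : c i₀ ≠ 0 := (Finset.mem_filter.mp hi₀).2
  have hred : ∀ i, ∃ v, Red A (HahnSeries.C (d i₀) * Θ (c' i)) v := by
    intro i
    by_cases hi : c i = 0
    · refine ⟨0, ?_⟩
      have : c' i = 0 := Subtype.ext hi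
      rw [this, map_zero, mul_zero]
      exact Red.zero
    · obtain ⟨v, hv, hr⟩ := hdv i hi
      have hmem : d i₀ / d i ∈ A := by
        rw [← A.valuation_le_one_iff, map_div₀]
        have h1 := hmin i (by simp [hs, hi])
        have h2 : A.valuation (d i) ≠ 0 := by simpa using hd i
        exact div_le_one_of_le₀ h1 zero_le
      have h3 := (Red.C hmem).mul hr
      rw [← mul_assoc, ← map_mul, div_mul_cancel₀ _ (hd i)] at h3
      exact ⟨_, h3⟩
  choose v hv using hred
  have hv₀ : v i₀ ≠ 0 := by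
    obtain ⟨v', hv', hr⟩ := hdv i₀ hi₀'
    rw [(hv i₀).unique hr]
    exact hv'
  have hΘ : ∀ i, HahnSeries.C (d i₀) * Θ (c' i) = Θ (algebraMap K F (d i₀) * c' i) := by
    intro i
    rw [map_mul, AlgHom.commutes, algebraMap_eq_C]
  apply hv₀
  refine hind v (fun i => ?_) ?_ i₀
  · refine hκ (algebraMap K F (d i₀) * c' i) ?_ (v i) (by rw [← hΘ]; exact hv i)
    exact mul_mem (E.algebraMap_mem _) (hc i)
  · have h1 : Red A (∑ i, (HahnSeries.C (d i₀) * Θ (c' i)) * Θ (x i)) (∑ i, v i * u i) :=
      Red.sum _ fun i _ => (hv i).mul (hx i)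
    have h2 : ∑ i, (HahnSeries.C (d i₀) * Θ (c' i)) * Θ (x i) = 0 := by
      have : ∀ i, (HahnSeries.C (d i₀) * Θ (c' i)) * Θ (x i) =
          HahnSeries.C (d i₀) * Θ (c' i * x i) := by
        intro i
        rw [map_mul, mul_assoc]
      simp only [this]
      rw [← Finset.mul_sum, ← map_sum, hsum', map_zero, mul_zero]
    rw [h2] at h1
    exact h1.unique Red.zero

omit [CharZero K] [Algebra ℚ K] [Algebra.IsAlgebraic ℚ K] in
/-- polynomials in `j` have a reduction after scaling -/
theorem exists_red_poly (P : Polynomial K)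
    (hP : P ≠ 0) : ∃ c : K, c ≠ 0 ∧ ∃ u ∈ modularFunctionFieldFullC (kk A) 1, u ≠ 0 ∧
      Red A (HahnSeries.C c * Polynomial.aeval (jqModC K) P) u := by
  classical
  obtain ⟨i₀, hi₀, hmax⟩ := Finset.exists_max_image P.support (fun i => A.valuation (P.coeff i))
    (Polynomial.support_nonempty.mpr hP)
  have hc0 : P.coeff i₀ ≠ 0 := Polynomial.mem_support_iff.mp hi₀
  have hmem : ∀ i, (P.coeff i₀)⁻¹ * P.coeff i ∈ A := by
    intro i
    by_cases hi : P.coeff i = 0
    · rw [hi, mul_zero]; exact zero_mem A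
    rw [← A.valuation_le_one_iff, map_mul, map_inv₀, inv_mul_eq_div]
    have h1 := hmax i (Polynomial.mem_support_iff.mpr hi)
    exact div_le_one_of_le₀ h1 zero_le
  let a : ℕ → A := fun i => ⟨_, hmem i⟩
  have hsum : HahnSeries.C (P.coeff i₀)⁻¹ * Polynomial.aeval (jqModC K) P =
      ∑ i ∈ P.support, HahnSeries.C (a i : K) * jqModC K ^ i := by
    rw [Polynomial.aeval_def, Polynomial.eval₂_eq_sum, Polynomial.sum, Finset.mul_sum]
    refine Finset.sum_congr rfl fun i _ => ?_
    rw [algebraMap_eq_C, ← mul_assoc, ← map_mul]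
  have hj : Red A (jqModC K) (jqModC (kk A)) := by
    have := red_jd (A := A) 1
    rwa [jd_one, jd_one] at this
  have hjmem : jqModC (kk A) ∈ modularFunctionFieldFullC (kk A) 1 := jqModC_mem_full (kk A) 1
  refine ⟨(P.coeff i₀)⁻¹, inv_ne_zero hc0,
    ∑ i ∈ P.support, HahnSeries.C (IsLocalRing.residue A (a i)) * jqModC (kk A) ^ i, ?_, ?_, ?_⟩
  · refine sum_mem fun i _ => mul_mem ?_ (pow_mem hjmem i)
    rw [← algebraMap_eq_C]
    exact (modularFunctionFieldFullC (kk A) 1).algebraMap_mem _
  · -- nonzero since `j` is transcendental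
    have htr : Transcendental (kk A) (jqModC (kk A)) := H05.transcendental_j (kk A)
    let Q : Polynomial (kk A) := ∑ i ∈ P.support,
      Polynomial.C (IsLocalRing.residue A (a i)) * Polynomial.X ^ i
    have hQ : Polynomial.aeval (jqModC (kk A)) Q = ∑ i ∈ P.support,
        HahnSeries.C (IsLocalRing.residue A (a i)) * jqModC (kk A) ^ i := by
      simp only [Q, map_sum, map_mul, map_pow, Polynomial.aeval_C, Polynomial.aeval_X,
        algebraMap_eq_C]
    rw [← hQ]
    intro h0
    have hQ0 : Q = 0 := by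
      by_contra hne
      exact htr ⟨Q, hne, h0⟩
    have h1 := congrArg (fun R : Polynomial (kk A) => R.coeff i₀) hQ0
    simp only [Q, Polynomial.finsetSum_coeff, Polynomial.coeff_C_mul, Polynomial.coeff_X_pow,
      mul_ite, mul_one, mul_zero, Polynomial.coeff_zero] at h1
    rw [Finset.sum_ite_eq, if_pos hi₀] at h1
    have h2 : a i₀ = 1 := Subtype.ext (inv_mul_cancel₀ hc0)
    rw [h2, map_one] at h1
    exact one_ne_zero h1
  · rw [hsum]
    exact Red.sum _ fun i _ => (Red.C (a i).2).mul (hj.pow i)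

omit [CharZero K] [Algebra ℚ K] [Algebra.IsAlgebraic ℚ K] in
theorem red_mem_one {z : LaurentSeries K}
    (hz : z ∈ modularFunctionFieldFullC K 1) {u : LaurentSeries (kk A)} (hu : Red A z u) :
    u ∈ modularFunctionFieldFullC (kk A) 1 := by
  rw [full_one_eq, IntermediateField.mem_adjoin_simple_iff] at hz
  obtain ⟨P, Q, rfl⟩ := hz
  by_cases hP : Polynomial.aeval (jqModC K) P = 0
  · rw [hP, zero_div] at hu
    rw [hu.unique Red.zero]
    exact zero_mem _
  by_cases hQ : Polynomial.aeval (jqModC K) Q = 0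
  · rw [hQ, div_zero] at hu
    rw [hu.unique Red.zero]
    exact zero_mem _
  have hP' : P ≠ 0 := by rintro rfl; exact hP (map_zero _)
  have hQ' : Q ≠ 0 := by rintro rfl; exact hQ (map_zero _)
  obtain ⟨c, hc, v, hv, hv0, hrv⟩ := exists_red_poly (A := A) P hP'
  obtain ⟨d, hd, w, hw, hw0, hrw⟩ := exists_red_poly (A := A) Q hQ'
  have hC : ∀ {e : K}, e ≠ 0 → (HahnSeries.C e : LaurentSeries K) ≠ 0 := by
    intro e he
    rw [ne_eq, map_eq_zero]; exact he
  have h1 := hrv.div hrw hw0
  have h2 : Polynomial.aeval (jqModC K) P / Polynomial.aeval (jqModC K) Q =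
      HahnSeries.C (d / c) * (HahnSeries.C c * Polynomial.aeval (jqModC K) P /
        (HahnSeries.C d * Polynomial.aeval (jqModC K) Q)) := by
    rw [map_div₀]
    have := hC hc
    have := hC hd
    field_simp
  rw [h2] at hu
  obtain ⟨he, rfl⟩ := hu.scale h1 (div_ne_zero hv0 hw0)
  refine mul_mem ?_ (div_mem hv hw)
  rw [← algebraMap_eq_C]
  exact (modularFunctionFieldFullC (kk A) 1).algebraMap_mem _

omit [CharZero K] [Algebra ℚ K] [Algebra.IsAlgebraic ℚ K] in
/-- every element of the reduced modular function field is the reduction of an element. -/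
theorem exists_lift (N : ℕ) {v : LaurentSeries (kk A)}
    (hv : v ∈ modularFunctionFieldFullC (kk A) N) :
    ∃ z ∈ modularFunctionFieldFullC K N, Red A z v := by
  let S : Subfield (LaurentSeries (kk A)) :=
    { carrier := {v | ∃ z ∈ modularFunctionFieldFullC K N, Red A z v}
      mul_mem' := by
        rintro x y ⟨z, hz, hx⟩ ⟨w, hw, hy⟩
        exact ⟨z * w, mul_mem hz hw, hx.mul hy⟩
      add_mem' := by
        rintro x y ⟨z, hz, hx⟩ ⟨w, hw, hy⟩
        exact ⟨z + w, add_mem hz hw, hx.add hy⟩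
      one_mem' := ⟨1, one_mem _, Red.one⟩
      zero_mem' := ⟨0, zero_mem _, Red.zero⟩
      neg_mem' := by
        rintro x ⟨z, hz, hx⟩
        exact ⟨-z, neg_mem hz, hx.neg⟩
      inv_mem' := by
        rintro x ⟨z, hz, hx⟩
        by_cases h0 : x = 0
        · rw [h0, inv_zero]
          exact ⟨0, zero_mem _, Red.zero⟩
        · exact ⟨z⁻¹, inv_mem hz, hx.inv h0⟩ }
  have hle : modularFunctionFieldFullC (kk A) N ≤ S.toIntermediateField (fun c => by
      obtain ⟨a, rfl⟩ := IsLocalRing.residue_surjective c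
      rw [algebraMap_eq_C]
      exact ⟨algebraMap K _ (a : K), (modularFunctionFieldFullC K N).algebraMap_mem _, by
        rw [algebraMap_eq_C]; exact Red.C a.2⟩) := by
    rw [modularFunctionFieldFullC, IntermediateField.adjoin_le_iff]
    rintro y ⟨d, hd, hdvd, rfl⟩
    exact ⟨jd K d, jd_mem_full hdvd, red_jd d⟩
  exact hle hv

/-- an auxiliary independence statement -/
theorem exists_indep {k L : Type*} [Field k] [Field L] [Algebra k L] {E B : IntermediateField k L}
    (hEB : E ≤ B) {n : ℕ} (hn : 0 < n) (hr : E.relrank B = n) :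
    ∃ b : Fin n → L, (∀ i, b i ∈ B) ∧
      ∀ (u : L), u ∉ B → ∀ v : Fin (n + 1) → L, (∀ i, v i ∈ E) →
        ∑ i, v i * (Fin.snoc b u : Fin (n + 1) → L) i = 0 → ∀ i, v i = 0 := by
  rw [IntermediateField.relrank_eq_rank_of_le hEB] at hr
  have hfr : Module.finrank E (IntermediateField.extendScalars hEB) = n :=
    Module.finrank_eq_of_rank_eq hr
  haveI : FiniteDimensional E (IntermediateField.extendScalars hEB) :=
    FiniteDimensional.of_finrank_pos (by rw [hfr]; exact hn)
  haveI : Module.Free E (IntermediateField.extendScalars hEB) := Module.Free.of_divisionRing _ _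
  let b := Module.finBasisOfFinrankEq E (IntermediateField.extendScalars hEB) hfr
  refine ⟨fun i => b i, fun i => (b i).2, fun u hu v hv hsum => ?_⟩
  rw [Fin.sum_univ_castSucc] at hsum
  simp only [Fin.snoc_last, Fin.snoc_castSucc] at hsum
  have hvlast : v (Fin.last n) = 0 := by
    by_contra hne
    apply hu
    have : u = -(∑ i : Fin n, v i.castSucc *
        ((b i : IntermediateField.extendScalars hEB) : L)) / v (Fin.last n) := by
      rw [eq_div_iff hne]
      linear_combination hsum
    rw [this]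
    exact div_mem (neg_mem (sum_mem fun i _ => mul_mem (hEB (hv _)) (b i).2)) (hEB (hv _))
  rw [hvlast, zero_mul, add_zero] at hsum
  have hli := b.linearIndependent
  rw [Fintype.linearIndependent_iff] at hli
  have h3 := hli (fun i => ⟨v i.castSucc, hv _⟩) (by
    apply Subtype.ext
    push_cast
    simpa [IntermediateField.smul_def, Algebra.smul_def] using hsum)
  intro i
  refine Fin.lastCases hvlast (fun i => ?_) i
  exact congrArg Subtype.val (h3 i)

/-- **Residue field, level prime to the residue characteristic.** -/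
theorem red_mem_full {ℓ : ℕ} (hℓ : ℓ.Prime) (hA : A.LiesOverPrime ℓ) {M : ℕ} [NeZero M]
    (hM : (M : kk A) ≠ 0) {z : LaurentSeries K}
    (hz : z ∈ modularFunctionFieldFullC K M) {u : LaurentSeries (kk A)} (hu : Red A z u) :
    u ∈ modularFunctionFieldFullC (kk A) M := by
  classical
  by_contra hcon
  have hMK : (M : K) ≠ 0 := by exact_mod_cast NeZero.ne M
  have h1K := relrank_full (k := K) M hMK
  have h1k := relrank_full (k := kk A) M hM
  have hle := full_degeneracyC_le (kk A) (one_dvd M)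
  have hleK := full_degeneracyC_le K (one_dvd M)
  have hnpos : 0 < dedekindPsi M := dedekindPsi_pos (NeZero.ne M)
  obtain ⟨b, hb, hind⟩ := exists_indep hle hnpos h1k
  have hlift : ∀ i, ∃ y ∈ modularFunctionFieldFullC K M, Red A y (b i) :=
    fun i => exists_lift M (hb i)
  choose y hy hyred using hlift
  have hcard := card_le_relrank_of_red hℓ hA hleK (modularFunctionFieldFullC K M).val
    (fun c => full_le_FL M c.2) (κ := (modularFunctionFieldFullC (kk A) 1 : Set _))
    (fun c hc v hv => red_mem_one hc hv)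
    (Fin.snoc (fun i => ⟨y i, hy i⟩) ⟨z, hz⟩ : Fin (dedekindPsi M + 1) → _)
    (Fin.snoc b u : Fin (dedekindPsi M + 1) → _) (by
      intro i
      refine Fin.lastCases ?_ (fun i => ?_) i
      · simp only [Fin.snoc_last]
        exact hu
      · simp only [Fin.snoc_castSucc]
        exact hyred i)
    (fun v hv hsum => hind u hcon v hv hsum)
  rw [h1K] at hcard
  have : dedekindPsi M + 1 ≤ dedekindPsi M := by exact_mod_cast hcard
  omega

end Fermat.Agent.Q
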