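import Fermat.Agent.Q.Attain
import Fermat.Agent.Igusa.LaurentExp

/-!
# The Gauss valuation ring of fractions of Laurent series and its reduction
-/

set_option autoImplicit false

noncomputable section

namespace Fermat.Agent.Q

open ModularCurve HahnSeries

variable {K : Type*} [Field K] {A : ValuationSubring K}

local notation "kk" => IsLocalRing.ResidueField

variable (A) in
/-- `z` is a fraction `P/Q` of `A`-integral series with `Q` of nonzero reduction, and
`u` is the quotient of the reductions. -/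
def Red (z : LaurentSeries K) (u : LaurentSeries (kk A)) : Prop :=
  ∃ P Q : intL A, redL A Q ≠ 0 ∧ z * Q = P ∧ u * redL A Q = redL A P

theorem coe_ne_zero_of_redL {Q : intL A} (h : redL A Q ≠ 0) : (Q : LaurentSeries K) ≠ 0 := by
  intro h0
  apply h
  have : Q = 0 := Subtype.ext h0
  rw [this, map_zero]

theorem Red.unique {z : LaurentSeries K} {u v : LaurentSeries (kk A)} (hu : Red A z u)
    (hv : Red A z v) : u = v := by
  obtain ⟨P, Q, hQ, h1, h2⟩ := hu
  obtain ⟨P', Q', hQ', h1', h2'⟩ := hv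
  have h3 : P * Q' = P' * Q := by
    apply Subtype.ext
    change (P : LaurentSeries K) * Q' = P' * Q
    rw [← h1, ← h1']
    ring
  have h4 := congrArg (redL A) h3
  rw [map_mul, map_mul, ← h2, ← h2'] at h4
  have h5 : (u - v) * (redL A Q * redL A Q') = 0 := by linear_combination h4
  rcases mul_eq_zero.mp h5 with h | h
  · exact sub_eq_zero.mp h
  · exact absurd h (mul_ne_zero hQ hQ')

theorem Red.mul {z w : LaurentSeries K} {u v : LaurentSeries (kk A)} (hu : Red A z u)
    (hv : Red A w v) : Red A (z * w) (u * v) := by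
  obtain ⟨P, Q, hQ, h1, h2⟩ := hu
  obtain ⟨P', Q', hQ', h1', h2'⟩ := hv
  refine ⟨P * P', Q * Q', ?_, ?_, ?_⟩
  · rw [map_mul]; exact mul_ne_zero hQ hQ'
  · change z * w * ((Q : LaurentSeries K) * Q') = P * P'
    rw [← h1, ← h1']; ring
  · rw [map_mul, map_mul, ← h2, ← h2']; ring

theorem Red.add {z w : LaurentSeries K} {u v : LaurentSeries (kk A)} (hu : Red A z u)
    (hv : Red A w v) : Red A (z + w) (u + v) := by
  obtain ⟨P, Q, hQ, h1, h2⟩ := hu
  obtain ⟨P', Q', hQ', h1', h2'⟩ := hv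
  refine ⟨P * Q' + P' * Q, Q * Q', ?_, ?_, ?_⟩
  · rw [map_mul]; exact mul_ne_zero hQ hQ'
  · change (z + w) * ((Q : LaurentSeries K) * Q') = P * Q' + P' * Q
    rw [← h1, ← h1']; ring
  · rw [map_mul, map_add, map_mul, map_mul, ← h2, ← h2']; ring

theorem Red.of_intL (x : intL A) : Red A (x : LaurentSeries K) (redL A x) :=
  ⟨x, 1, by rw [map_one]; exact one_ne_zero, by simp, by simp⟩

theorem Red.zero : Red A (0 : LaurentSeries K) 0 := by
  have := Red.of_intL (0 : intL A)
  rwa [map_zero] at this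

theorem Red.one : Red A (1 : LaurentSeries K) 1 := by
  have := Red.of_intL (1 : intL A)
  rwa [map_one] at this

theorem Red.neg {z : LaurentSeries K} {u : LaurentSeries (kk A)} (hu : Red A z u) :
    Red A (-z) (-u) := by
  obtain ⟨P, Q, hQ, h1, h2⟩ := hu
  refine ⟨-P, Q, hQ, ?_, ?_⟩
  · change -z * (Q : LaurentSeries K) = -P
    rw [← h1]; ring
  · rw [map_neg, ← h2]; ring

theorem Red.sub {z w : LaurentSeries K} {u v : LaurentSeries (kk A)} (hu : Red A z u)
    (hv : Red A w v) : Red A (z - w) (u - v) := by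
  rw [sub_eq_add_neg, sub_eq_add_neg]
  exact hu.add hv.neg

theorem Red.C {c : K} (hc : c ∈ A) :
    Red A (HahnSeries.C c) (HahnSeries.C (IsLocalRing.residue A ⟨c, hc⟩)) := by
  have := Red.of_intL (⟨HahnSeries.C c, C_mem_intL hc⟩ : intL A)
  rwa [redL_C hc] at this

theorem Red.inv {z : LaurentSeries K} {u : LaurentSeries (kk A)} (hu : Red A z u) (hu0 : u ≠ 0) :
    Red A z⁻¹ u⁻¹ := by
  obtain ⟨P, Q, hQ, h1, h2⟩ := hu
  have hP : redL A P ≠ 0 := by
    rw [← h2]; exact mul_ne_zero hu0 hQ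
  have hP0 := coe_ne_zero_of_redL hP
  have hz0 : z ≠ 0 := by
    rintro rfl
    rw [zero_mul] at h1
    exact hP0 h1.symm
  refine ⟨Q, P, hP, ?_, ?_⟩
  · rw [← h1, inv_mul_cancel_left₀ hz0]
  · rw [← h2, inv_mul_cancel_left₀ hu0]

theorem Red.div {z w : LaurentSeries K} {u v : LaurentSeries (kk A)} (hu : Red A z u)
    (hv : Red A w v) (hv0 : v ≠ 0) : Red A (z / w) (u / v) := by
  rw [div_eq_mul_inv, div_eq_mul_inv]
  exact hu.mul (hv.inv hv0)

theorem Red.pow {z : LaurentSeries K} {u : LaurentSeries (kk A)} (hu : Red A z u) (n : ℕ) :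
    Red A (z ^ n) (u ^ n) := by
  induction n with
  | zero => rw [pow_zero, pow_zero]; exact Red.one
  | succ n ih => rw [pow_succ, pow_succ]; exact ih.mul hu

theorem Red.sum {ι : Type*} (s : Finset ι) {z : ι → LaurentSeries K}
    {u : ι → LaurentSeries (kk A)} (h : ∀ i ∈ s, Red A (z i) (u i)) :
    Red A (∑ i ∈ s, z i) (∑ i ∈ s, u i) := by
  classical
  induction s using Finset.induction_on with
  | empty => rw [Finset.sum_empty, Finset.sum_empty]; exact Red.zero
  | insert a s ha ih =>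
    rw [Finset.sum_insert ha, Finset.sum_insert ha]
    exact (h a (Finset.mem_insert_self a s)).add
      (ih fun i hi => h i (Finset.mem_insert_of_mem hi))

theorem Red.prod {ι : Type*} (s : Finset ι) {z : ι → LaurentSeries K}
    {u : ι → LaurentSeries (kk A)} (h : ∀ i ∈ s, Red A (z i) (u i)) :
    Red A (∏ i ∈ s, z i) (∏ i ∈ s, u i) := by
  classical
  induction s using Finset.induction_on with
  | empty => rw [Finset.prod_empty, Finset.prod_empty]; exact Red.one
  | insert a s ha ih =>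
    rw [Finset.prod_insert ha, Finset.prod_insert ha]
    exact (h a (Finset.mem_insert_self a s)).mul
      (ih fun i hi => h i (Finset.mem_insert_of_mem hi))

theorem Red.ne_zero {z : LaurentSeries K} {u : LaurentSeries (kk A)} (hu : Red A z u)
    (hu0 : u ≠ 0) : z ≠ 0 := by
  rintro rfl
  exact hu0 (hu.unique Red.zero)

/-- Transport of reductions along compatible ring homomorphisms. -/
theorem Red.map {K' : Type*} [Field K'] {A' : ValuationSubring K'}
    (Θ : LaurentSeries K →+* LaurentSeries K') (θ : LaurentSeries (kk A) →+* LaurentSeries (kk A'))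
    (h : ∀ x : intL A, ∃ hx : Θ x ∈ intL A', redL A' ⟨Θ x, hx⟩ = θ (redL A x))
    {z : LaurentSeries K} {u : LaurentSeries (kk A)} (hu : Red A z u) :
    Red A' (Θ z) (θ u) := by
  obtain ⟨P, Q, hQ, h1, h2⟩ := hu
  obtain ⟨hP', hP⟩ := h P
  obtain ⟨hQ', hQ''⟩ := h Q
  refine ⟨⟨Θ P, hP'⟩, ⟨Θ Q, hQ'⟩, ?_, ?_, ?_⟩
  · rw [hQ'']
    exact (map_ne_zero θ).mpr hQ
  · change Θ z * Θ Q = Θ P
    rw [← map_mul, h1]
  · rw [hQ'', hP, ← map_mul, h2]

variable (A) in
/-- The valuation ring of fractions of Laurent series with Gauss norm at most one. -/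
def VL : Subring (LaurentSeries K) where
  carrier := {z | ∃ u, Red A z u}
  one_mem' := ⟨1, Red.one⟩
  zero_mem' := ⟨0, Red.zero⟩
  neg_mem' := by rintro x ⟨u, hu⟩; exact ⟨_, hu.neg⟩
  add_mem' := by rintro x y ⟨u, hu⟩ ⟨v, hv⟩; exact ⟨_, hu.add hv⟩
  mul_mem' := by rintro x y ⟨u, hu⟩ ⟨v, hv⟩; exact ⟨_, hu.mul hv⟩

theorem mem_VL {z : LaurentSeries K} : z ∈ VL A ↔ ∃ u, Red A z u := Iff.rfl

variable (A) in
/-- The reduction on the valuation ring. -/
def rho : VL A →+* LaurentSeries (kk A) where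
  toFun z := z.2.choose
  map_one' := ((1 : VL A).2.choose_spec).unique Red.one
  map_zero' := ((0 : VL A).2.choose_spec).unique Red.zero
  map_add' x y := ((x + y : VL A).2.choose_spec).unique (x.2.choose_spec.add y.2.choose_spec)
  map_mul' x y := ((x * y : VL A).2.choose_spec).unique (x.2.choose_spec.mul y.2.choose_spec)

theorem red_rho (z : VL A) : Red A (z : LaurentSeries K) (rho A z) := z.2.choose_spec

theorem rho_eq {z : VL A} {u : LaurentSeries (kk A)} (h : Red A (z : LaurentSeries K) u) :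
    rho A z = u := (red_rho z).unique h

theorem intL_le_VL : intL A ≤ VL A := fun x hx => ⟨_, Red.of_intL ⟨x, hx⟩⟩

/-! ### The field of fractions of bounded algebraic series -/

section FieldL

variable [Algebra ℚ K]

variable (A) in
/-- The field of fractions of bounded algebraic Laurent series. -/
def FL : Subfield (LaurentSeries K) := Subfield.closure (DD A : Set (LaurentSeries K))

theorem DD_le_FL {z : LaurentSeries K} (hz : z ∈ DD A) : z ∈ FL A := Subfield.subset_closure hz

theorem mem_FL {z : LaurentSeries K} : z ∈ FL A ↔ ∃ P ∈ DD A, ∃ Q ∈ DD A, P / Q = z := by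
  rw [FL, Subfield.mem_closure_iff, Subring.closure_eq]

theorem C_mem_FL [Algebra.IsAlgebraic ℚ K] (c : K) : (HahnSeries.C c : LaurentSeries K) ∈ FL A :=
  DD_le_FL (C_mem_DD c)

/-- Every nonzero element of `FL A` has, after scaling by a constant, a nonzero reduction. -/
theorem exists_red [CharZero K] [Algebra.IsAlgebraic ℚ K] {ℓ : ℕ} (hℓ : ℓ.Prime)
    (hA : A.LiesOverPrime ℓ) {z : LaurentSeries K} (hz : z ∈ FL A) (hz0 : z ≠ 0) :
    ∃ c : K, c ≠ 0 ∧ ∃ u, u ≠ 0 ∧ Red A (HahnSeries.C c * z) u := by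
  rw [mem_FL] at hz
  obtain ⟨P, hP, Q, hQ, rfl⟩ := hz
  have hP0 : P ≠ 0 := by
    rintro rfl
    rw [zero_div] at hz0
    exact hz0 rfl
  have hQ0 : Q ≠ 0 := by
    rintro rfl
    rw [div_zero] at hz0
    exact hz0 rfl
  obtain ⟨c, hc, hcP, hcP'⟩ := exists_redL_ne_zero hℓ hA hP hP0
  obtain ⟨d, hd, hdQ, hdQ'⟩ := exists_redL_ne_zero hℓ hA hQ hQ0
  refine ⟨c / d, div_ne_zero hc hd, redL A ⟨_, hcP⟩ / redL A ⟨_, hdQ⟩,
    div_ne_zero hcP' hdQ', ?_⟩
  have : HahnSeries.C (c / d) * (P / Q) = (HahnSeries.C c * P) / (HahnSeries.C d * Q) := by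
    rw [map_div₀]
    have : (HahnSeries.C d : LaurentSeries K) ≠ 0 := by
      rw [ne_eq, map_eq_zero]; exact hd
    field_simp
  rw [this]
  exact (Red.of_intL ⟨_, hcP⟩).div (Red.of_intL ⟨_, hdQ⟩) hdQ'

theorem finL_inv {x : LaurentSeries K} (hx : x ∈ finL K) : x⁻¹ ∈ finL K := by
  obtain ⟨E, hE, h⟩ := hx
  refine ⟨E, hE, ?_⟩
  obtain ⟨y, rfl⟩ : ∃ y : LaurentSeries E, coeffMap (algebraMap E K) y = x := by
    refine ⟨⟨fun n => ⟨x.coeff n, h n⟩, ?_⟩, ?_⟩
    · have : (Function.support fun n => (⟨x.coeff n, h n⟩ : E)) = x.support := by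
        ext n
        simp only [Function.mem_support, mem_support, ne_eq]
        rw [not_iff_not, ← Subtype.coe_inj]
        rfl
      rw [this]
      exact x.isPWO_support
    · ext n
      rfl
  intro n
  rw [← map_inv₀, coeffMap_coeff]
  exact (y⁻¹.coeff n).2

theorem FL_le_finL {z : LaurentSeries K} (hz : z ∈ FL A) : z ∈ finL K := by
  rw [mem_FL] at hz
  obtain ⟨P, hP, Q, hQ, rfl⟩ := hz
  rw [div_eq_mul_inv]
  exact mul_mem hP.2 (finL_inv hQ.2)

theorem mem_DD_of_FL {z : LaurentSeries K} (hz : z ∈ FL A) (hb : z ∈ bddL A) : z ∈ DD A :=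
  ⟨hb, FL_le_finL hz⟩

/-- On bounded algebraic series, the Gauss valuation ring is given by integrality of the
coefficients. -/
theorem mem_intL_of_red [CharZero K] [Algebra.IsAlgebraic ℚ K] {ℓ : ℕ} (hℓ : ℓ.Prime)
    (hA : A.LiesOverPrime ℓ) {z : LaurentSeries K} (hz : z ∈ DD A)
    {u : LaurentSeries (kk A)} (hu : Red A z u) :
    ∃ h : z ∈ intL A, redL A ⟨z, h⟩ = u := by
  suffices h : z ∈ intL A from ⟨h, (Red.of_intL ⟨z, h⟩).unique hu⟩
  by_cases hz0 : z = 0
  · rw [hz0]; exact zero_mem _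
  obtain ⟨c, hc, hcz, hcz'⟩ := exists_redL_ne_zero hℓ hA hz hz0
  by_cases hcA : c⁻¹ ∈ A
  · have : z = HahnSeries.C c⁻¹ * (HahnSeries.C c * z) := by
      rw [← mul_assoc, ← map_mul, inv_mul_cancel₀ hc, map_one, one_mul]
    rw [this]
    exact mul_mem (C_mem_intL hcA) hcz
  · exfalso
    have hcA' : c ∈ A := (A.mem_or_inv_mem c).resolve_right hcA
    have h1 := (Red.C hcA').mul hu
    have h2 : IsLocalRing.residue A ⟨c, hcA'⟩ = 0 := by
      rw [IsLocalRing.residue_eq_zero_iff, ← ValuationSubring.coe_mem_nonunits_iff]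
      by_contra hcon
      exact hcA ((H05.not_mem_nonunits_iff A hcA').mp hcon).1
    rw [h2, map_zero, zero_mul] at h1
    exact hcz' ((Red.of_intL ⟨_, hcz⟩).unique h1)

theorem exists_intL_mul {z : LaurentSeries K} (hz : z ∈ FL A) :
    ∃ Q : LaurentSeries K, Q ≠ 0 ∧ Q ∈ intL A ∧ Q * z ∈ intL A := by
  rw [mem_FL] at hz
  obtain ⟨P, hP, Q, hQ, rfl⟩ := hz
  by_cases hQ0 : Q = 0
  · refine ⟨1, one_ne_zero, one_mem _, ?_⟩
    rw [hQ0, div_zero, mul_zero]; exact zero_mem _
  obtain ⟨c, hc, hc0, hcP⟩ := hP.1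
  obtain ⟨d, hd, hd0, hdQ⟩ := hQ.1
  have hC : ∀ {e : K}, e ≠ 0 → (HahnSeries.C e : LaurentSeries K) ≠ 0 := by
    intro e he
    rw [ne_eq, map_eq_zero]; exact he
  refine ⟨HahnSeries.C c * (HahnSeries.C d * Q), mul_ne_zero (hC hc0) (mul_ne_zero (hC hd0) hQ0),
    mul_mem (C_mem_intL hc) hdQ, ?_⟩
  have : HahnSeries.C c * (HahnSeries.C d * Q) * (P / Q) =
      HahnSeries.C d * (HahnSeries.C c * P) := by
    field_simp
  rw [this]
  exact mul_mem (C_mem_intL hd) hcP

/-- **Integral closedness**, integral version. -/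
theorem mem_intL_of_isIntegral [MulArchimedean A.ValueGroup] {z : LaurentSeries K}
    (hz : z ∈ FL A) (hint : IsIntegral (intL A) z) : z ∈ intL A := by
  obtain ⟨Q, hQ0, hQ, hQz⟩ := exists_intL_mul hz
  exact mem_intL_of_integral hQ0 hQ hQz hint

/-- **Integral closedness**, bounded version. -/
theorem mem_bddL_of_isIntegral [MulArchimedean A.ValueGroup] [Algebra.IsAlgebraic ℚ K]
    {z : LaurentSeries K}
    (hz : z ∈ FL A) (hint : IsIntegral (bddL A) z) : z ∈ bddL A := by
  classical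
  obtain ⟨p, hp, hpz⟩ := hint
  -- common denominator
  have hden : ∀ s : Finset ℕ, ∃ c : K, c ∈ A ∧ c ≠ 0 ∧ ∀ i ∈ s,
      HahnSeries.C c * (p.coeff i : LaurentSeries K) ∈ intL A := by
    intro s
    induction s using Finset.induction_on with
    | empty => exact ⟨1, one_mem A, one_ne_zero, by simp⟩
    | insert a s ha ih =>
      obtain ⟨c, hc, hc0, h⟩ := ih
      obtain ⟨d, hd, hd0, h'⟩ := (p.coeff a).2
      refine ⟨c * d, mul_mem hc hd, mul_ne_zero hc0 hd0, fun i hi => ?_⟩
      rw [Finset.mem_insert] at hi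
      rcases hi with rfl | hi
      · rw [map_mul, mul_assoc]
        exact mul_mem (C_mem_intL hc) h'
      · rw [mul_comm c d, map_mul, mul_assoc]
        exact mul_mem (C_mem_intL hd) (h i hi)
  obtain ⟨c, hc, hc0, h⟩ := hden (Finset.range (p.natDegree + 1))
  -- `c z` is integral over `intL A`
  set n := p.natDegree with hn
  have hcz : IsIntegral (intL A) (HahnSeries.C c * z) := by
    have hco : ∀ i ∈ Finset.range n, HahnSeries.C (c ^ (n - i)) * (p.coeff i : LaurentSeries K)
        ∈ intL A := by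
      intro i hi
      rw [Finset.mem_range] at hi
      have hs : n - i = (n - i - 1) + 1 := by omega
      rw [hs, pow_succ, map_mul, mul_assoc]
      exact mul_mem (C_mem_intL (pow_mem hc _)) (h i (by rw [Finset.mem_range]; omega))
    let a : ℕ → intL A := fun i => if hi : i ∈ Finset.range n then ⟨_, hco i hi⟩ else 0
    refine ⟨Polynomial.X ^ n + ∑ i ∈ Finset.range n, Polynomial.C (a i) * Polynomial.X ^ i, ?_, ?_⟩
    · apply Polynomial.monic_X_pow_add
      refine (Polynomial.degree_sum_le _ _).trans_lt ?_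
      refine (Finset.sup_lt_iff (WithBot.bot_lt_coe n)).mpr ?_
      intro i hi
      exact (Polynomial.degree_C_mul_X_pow_le i (a i)).trans_lt
        (WithBot.coe_lt_coe.mpr (Finset.mem_range.mp hi))
    · rw [Polynomial.eval₂_add, Polynomial.eval₂_pow, Polynomial.eval₂_X,
        Polynomial.eval₂_finsetSum]
      have h1 : Polynomial.eval₂ (algebraMap (bddL A) (LaurentSeries K)) z p = 0 := hpz
      rw [Polynomial.eval₂_eq_sum_range, ← hn, Finset.sum_range_succ, hn, hp.coeff_natDegree,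
        ← hn, map_one, one_mul] at h1
      have h2 : (HahnSeries.C c * z) ^ n = HahnSeries.C (c ^ n) * z ^ n := by
        rw [mul_pow, map_pow]
      have h3 : ∑ i ∈ Finset.range n, Polynomial.eval₂ (algebraMap (intL A) (LaurentSeries K))
          (HahnSeries.C c * z) (Polynomial.C (a i) * Polynomial.X ^ i) =
          HahnSeries.C (c ^ n) *
            ∑ i ∈ Finset.range n, (algebraMap (bddL A) (LaurentSeries K)) (p.coeff i) * z ^ i := by
        rw [Finset.mul_sum]
        refine Finset.sum_congr rfl fun i hi => ?_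
        rw [Polynomial.eval₂_mul, Polynomial.eval₂_C, Polynomial.eval₂_pow, Polynomial.eval₂_X]
        have h4 : algebraMap (intL A) (LaurentSeries K) (a i) =
            HahnSeries.C (c ^ (n - i)) * (p.coeff i : LaurentSeries K) := by
          simp only [a, dif_pos hi]
          rfl
        have h5 : algebraMap (bddL A) (LaurentSeries K) (p.coeff i) = (p.coeff i : LaurentSeries K) :=
          rfl
        have h6 : c ^ n = c ^ (n - i) * c ^ i := by
          rw [← _root_.pow_add, Nat.sub_add_cancel (Finset.mem_range.mp hi).le]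
        rw [h4, h5, mul_pow, ← map_pow, h6, map_mul]
        ring
      rw [h2, h3, ← mul_add, add_comm, h1, mul_zero]
  have hczFL : HahnSeries.C c * z ∈ FL A := mul_mem (C_mem_FL c) hz
  exact mem_bddL_of_C_mul hc0 (mem_intL_of_isIntegral hczFL hcz)

end FieldL

/-! ### Compatible homomorphisms -/

section Maps

theorem qExpand_mem_intL (n : ℕ) [NeZero n] (x : intL A) : qExpand K n x ∈ intL A := by
  rw [mem_intL]
  intro m
  by_cases hm : (n : ℤ) ∣ m
  · obtain ⟨k, rfl⟩ := hm
    rw [qExpand_coeff_mul]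
    exact mem_intL.mp x.2 k
  · rw [qExpand_coeff_of_not_dvd n _ hm]
    exact zero_mem A

theorem redL_coeff_eq {x : intL A} {n : ℤ} {a : A} (h : (x : LaurentSeries K).coeff n = a) :
    (redL A x).coeff n = IsLocalRing.residue A a := by
  rw [redL_coeff]
  congr 1
  exact Subtype.ext h

theorem redL_qExpand (n : ℕ) [NeZero n] (x : intL A) :
    redL A ⟨qExpand K n x, qExpand_mem_intL n x⟩ = qExpand (kk A) n (redL A x) := by
  ext m
  by_cases hm : (n : ℤ) ∣ m
  · obtain ⟨k, rfl⟩ := hm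
    rw [qExpand_coeff_mul]
    conv_rhs => rw [redL_coeff]
    exact redL_coeff_eq (x := ⟨qExpand K n x, qExpand_mem_intL n x⟩)
      (a := ⟨(x : LaurentSeries K).coeff k, mem_intL.mp x.2 k⟩)
      (qExpand_coeff_mul n (x : LaurentSeries K) k)
  · rw [qExpand_coeff_of_not_dvd n _ hm, ← map_zero (IsLocalRing.residue A)]
    exact redL_coeff_eq (qExpand_coeff_of_not_dvd n _ hm)

theorem Red.qExpand (n : ℕ) [NeZero n] {z : LaurentSeries K} {u : LaurentSeries (kk A)}
    (hu : Red A z u) : Red A (ModularCurve.qExpand K n z) (ModularCurve.qExpand (kk A) n u) :=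
  hu.map _ _ fun x => ⟨qExpand_mem_intL n x, redL_qExpand n x⟩

/-- twisting by a unit of `A` congruent to one. -/
theorem Red.twist {a : Kˣ} (ha : (a : K) ∈ A) (ha' : ((a⁻¹ : Kˣ) : K) ∈ A)
    (h1 : IsLocalRing.residue A ⟨a, ha⟩ = 1) {z : LaurentSeries K} {u : LaurentSeries (kk A)}
    (hu : Red A z u) : Red A (Igusa.twist a z) u := by
  have h1' : IsLocalRing.residue A ⟨_, ha'⟩ = 1 := by
    have h2 : (⟨a, ha⟩ : A) * ⟨_, ha'⟩ = 1 := Subtype.ext (by
      change (a : K) * ((a⁻¹ : Kˣ) : K) = 1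
      rw [← Units.val_mul, mul_inv_cancel, Units.val_one])
    have h3 := congrArg (IsLocalRing.residue A) h2
    rwa [map_mul, h1, one_mul, map_one] at h3
  have hz : ∀ n : ℤ, ∃ h : ((a ^ n : Kˣ) : K) ∈ A, IsLocalRing.residue A ⟨_, h⟩ = 1 := by
    intro n
    obtain ⟨m, rfl | rfl⟩ := n.eq_nat_or_neg
    · refine ⟨by rw [zpow_natCast, Units.val_pow_eq_pow_val]; exact pow_mem ha m, ?_⟩
      have : (⟨((a ^ (m : ℤ) : Kˣ) : K), by
          rw [zpow_natCast, Units.val_pow_eq_pow_val]; exact pow_mem ha m⟩ : A) =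
          ⟨a, ha⟩ ^ m := Subtype.ext (by
        rw [SubmonoidClass.coe_pow]
        simp only [zpow_natCast, Units.val_pow_eq_pow_val])
      rw [this, map_pow, h1, one_pow]
    · refine ⟨by rw [zpow_neg, zpow_natCast, ← inv_pow, Units.val_pow_eq_pow_val]
                 exact pow_mem ha' m, ?_⟩
      have : (⟨((a ^ (-(m : ℤ)) : Kˣ) : K), by
          rw [zpow_neg, zpow_natCast, ← inv_pow, Units.val_pow_eq_pow_val]
          exact pow_mem ha' m⟩ : A) =
          ⟨_, ha'⟩ ^ m := Subtype.ext (by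
        rw [SubmonoidClass.coe_pow]
        simp only [zpow_neg, zpow_natCast, ← inv_pow, Units.val_pow_eq_pow_val])
      rw [this, map_pow, h1', one_pow]
  refine hu.map (Igusa.twist a) (RingHom.id _) fun x => ?_
  have hx : Igusa.twist a (x : LaurentSeries K) ∈ intL A := by
    rw [mem_intL]
    intro n
    rw [Igusa.twist_coeff]
    exact mul_mem (mem_intL.mp x.2 n) (hz n).choose
  refine ⟨hx, ?_⟩
  ext n
  have h2 : (redL A ⟨Igusa.twist a (x : LaurentSeries K), hx⟩).coeff n =
      IsLocalRing.residue A (⟨(x : LaurentSeries K).coeff n, mem_intL.mp x.2 n⟩ *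
        ⟨((a ^ n : Kˣ) : K), (hz n).choose⟩) := redL_coeff_eq (Igusa.twist_coeff _ _ _)
  rw [h2, map_mul, (hz n).choose_spec, mul_one, RingHom.id_apply, redL_coeff]

/-- coefficientwise action of a ring homomorphism respecting `A`, with given residue action. -/
theorem Red.coeffMap {σ : K →+* K} {σ' : kk A →+* kk A}
    (h : ∀ x : A, ∃ hx : σ x ∈ A, IsLocalRing.residue A ⟨σ x, hx⟩ = σ' (IsLocalRing.residue A x))
    {z : LaurentSeries K} {u : LaurentSeries (kk A)} (hu : Red A z u) :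
    Red A (ModularCurve.coeffMap σ z) (ModularCurve.coeffMap σ' u) := by
  refine hu.map (ModularCurve.coeffMap σ) (ModularCurve.coeffMap σ') fun x => ?_
  have hx : ModularCurve.coeffMap σ (x : LaurentSeries K) ∈ intL A := by
    rw [mem_intL]
    intro n
    rw [coeffMap_coeff]
    exact (h ⟨_, mem_intL.mp x.2 n⟩).choose
  refine ⟨hx, ?_⟩
  ext n
  have h2 : (redL A ⟨ModularCurve.coeffMap σ (x : LaurentSeries K), hx⟩).coeff n =
      IsLocalRing.residue A ⟨_, (h ⟨_, mem_intL.mp x.2 n⟩).choose⟩ :=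
    redL_coeff_eq (coeffMap_coeff _ _ _)
  rw [h2, coeffMap_coeff, redL_coeff]
  exact (h ⟨_, mem_intL.mp x.2 n⟩).choose_spec

end Maps

end Fermat.Agent.Q
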