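import Fermat.Agent.Q.Residue

/-!
# Frobenius on Laurent series in characteristic `p`
-/

set_option autoImplicit false
set_option linter.style.haveILetI false

noncomputable section

namespace Fermat.Agent.Q

open ModularCurve HahnSeries Fermat.Agent.Igusa

section CharP

variable {k : Type*} [Field k] (p : ℕ) [hp : Fact p.Prime] [CharP k p]

theorem powerSeries_pow_char (f : PowerSeries k) :
    f ^ p = (f.expand p hp.out.ne_zero).map (frobenius k p) :=
  (MvPowerSeries.map_frobenius_expand p hp.out.ne_zero (f := f)).symm

theorem qExpand_ofPowerSeries (n : ℕ) [NeZero n] (f : PowerSeries k) :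
    qExpand k n (HahnSeries.ofPowerSeries ℤ k f) =
      HahnSeries.ofPowerSeries ℤ k (f.expand n (NeZero.ne n)) := by
  ext m
  rcases lt_or_ge m 0 with hm | hm
  · rw [ofPowerSeries_coeff_of_neg _ hm]
    by_cases hn : (n : ℤ) ∣ m
    · obtain ⟨l, rfl⟩ := hn
      rw [qExpand_coeff_mul]
      apply ofPowerSeries_coeff_of_neg
      by_contra hl
      push Not at hl
      exact absurd hm (not_lt.mpr (mul_nonneg (Int.natCast_nonneg n) hl))
    · exact qExpand_coeff_of_not_dvd n _ hn
  · lift m to ℕ using hm
    rw [HahnSeries.ofPowerSeries_apply_coeff, PowerSeries.coeff_expand]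
    split_ifs with h
    · obtain ⟨l, rfl⟩ := h
      rw [Nat.mul_div_cancel_left _ (Nat.pos_of_ne_zero (NeZero.ne n))]
      push_cast
      rw [qExpand_coeff_mul, HahnSeries.ofPowerSeries_apply_coeff]
    · exact qExpand_coeff_of_not_dvd n _ (by
        intro h2
        exact h (by exact_mod_cast h2))

instance : NeZero p := ⟨hp.out.ne_zero⟩

/-- **Frobenius**: `x(q)^p = x^{(p)}(q^p)`. -/
theorem pow_char (x : LaurentSeries k) :
    x ^ p = qExpand k p (coeffMap (frobenius k p) x) := by
  have h1 := LaurentSeries.single_order_mul_powerSeriesPart x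
  have h2 : (HahnSeries.single x.order (1 : k)) ^ p =
      qExpand k p (coeffMap (frobenius k p) (HahnSeries.single x.order (1 : k))) := by
    rw [coeffMap_single, (frobenius k p).map_one, qExpand_single, HahnSeries.single_pow, one_pow,
      nsmul_eq_mul]
  have h3 : (HahnSeries.ofPowerSeries ℤ k x.powerSeriesPart) ^ p =
      qExpand k p (coeffMap (frobenius k p) (HahnSeries.ofPowerSeries ℤ k x.powerSeriesPart)) := by
    rw [coeffMap_ofPowerSeries, qExpand_ofPowerSeries, ← map_pow, powerSeries_pow_char p]
    congr 1
    ext m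
    simp only [PowerSeries.coeff_map, PowerSeries.coeff_expand]
    split_ifs <;> simp
  rw [← h1, mul_pow, map_mul, map_mul, h2, h3]

theorem jd_pow_char (d : ℕ) [NeZero d] : jd k d ^ p = qExpand k p (jd k d) := by
  rw [pow_char p, coeffMap_jd]

theorem qExpand_char_mem (M : ℕ) {x : LaurentSeries k} (hx : x ∈ modularFunctionFieldFullC k M) :
    qExpand k p x ∈ modularFunctionFieldFullC k M := by
  have hle : modularFunctionFieldFullC k M ≤
      (modularFunctionFieldFullC k M).comap (qExpandAlgHomC k p) := by
    conv_lhs => rw [modularFunctionFieldFullC]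
    rw [IntermediateField.adjoin_le_iff]
    rintro y ⟨d, hd, hdvd, rfl⟩
    change qExpand k p (jd k d) ∈ modularFunctionFieldFullC k M
    rw [← jd_pow_char p d]
    exact pow_mem (jd_mem_full hdvd) p
  exact hle hx

/-- the modular function field is stable under the coefficientwise Frobenius. -/
theorem coeffMap_frobenius_mem (M : ℕ) {x : LaurentSeries k}
    (hx : x ∈ modularFunctionFieldFullC k M) :
    coeffMap (frobenius k p) x ∈ modularFunctionFieldFullC k M := by
  change x ∈ Subfield.closure (Set.range (algebraMap k (LaurentSeries k)) ∪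
    divisorExpansionsC k M) at hx
  induction hx using Subfield.closure_induction with
  | mem y hy =>
    rcases hy with ⟨a, rfl⟩ | ⟨d, hd, hdvd, rfl⟩
    · rw [coeffMap_algebraMap]
      exact (modularFunctionFieldFullC k M).algebraMap_mem _
    · rw [show qExpand k d (jqModC k) = jd k d from rfl, coeffMap_jd]
      exact jd_mem_full hdvd
  | one => rw [map_one]; exact one_mem _
  | add x y _ _ hx hy =>
    rw [map_add]
    exact add_mem hx hy
  | neg x _ hx => rw [map_neg]; exact neg_mem hx
  | inv x _ hx => rw [map_inv₀]; exact inv_mem hx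
  | mul x y _ _ hx hy =>
    rw [map_mul]
    exact mul_mem hx hy

end CharP

end Fermat.Agent.Q
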