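import Fermat.Agent.Q.Toric

/-!
# Transfer of statements on the toric part from level `M ℓ r` to level `M r`
-/

set_option autoImplicit false
set_option linter.style.haveILetI false
set_option linter.unusedSectionVars false
set_option maxSynthPendingDepth 3

noncomputable section

namespace Fermat.Agent.Q

open ModularCurve HahnSeries Fermat.Agent.Igusa AlgebraicCurve Fermat.Agent.FF

local notation "kk" => IsLocalRing.ResidueField
local notation "Qb" => AlgebraicClosure ℚ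

section Pull

variable {K F F' : Type*} [Field K] [Field F] [Field F'] [Algebra K F] [Algebra K F']

/-- The pull-back of classes along an embedding. -/
def pullHom [HasPrincipalDivisors K F'] (φ : F →ₐ[K] F') (hφ : φ.toRingHom.IsIntegral)
    (hFI : FundamentalIdentityAlong K φ hφ) : Pic0 K F →+ Pic0 K F' :=
  letI := algebraAlong φ
  haveI := isScalarTower_along φ
  haveI := isIntegral_along φ hφ
  haveI : FundamentalIdentity K F F' := hFI
  Pic0.pullbackHom F'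

theorem kum_pullHom [HasPrincipalDivisors K F'] (φ : F →ₐ[K] F') (hφ : φ.toRingHom.IsIntegral)
    (hFI : FundamentalIdentityAlong K φ hφ) {m : ℕ} {x : Pic0 K F} {f : F} (h : H05.Kum m x f) :
    H05.Kum m (pullHom φ hφ hFI x) (φ f) := by
  letI := algebraAlong φ
  haveI := isScalarTower_along φ
  haveI := isIntegral_along φ hφ
  haveI : FundamentalIdentity K F F' := hFI
  exact h.pullback

theorem normAlong_self (φ : F →ₐ[K] F') (f : F) :
    H05.normAlong φ (φ f) = f ^ finrankAlong K φ := by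
  letI := algebraAlong φ
  exact Algebra.norm_algebraMap (S := F') f

theorem normAlong_pow (φ : F →ₐ[K] F') (g : F') (m : ℕ) :
    H05.normAlong φ (g ^ m) = H05.normAlong φ g ^ m := by
  letI := algebraAlong φ
  exact map_pow (Algebra.norm F) g m

theorem normAlong_ne_zero (φ : F →ₐ[K] F') (hfin : FiniteAlong K φ) {g : F'} (hg : g ≠ 0) :
    H05.normAlong φ g ≠ 0 := by
  letI := algebraAlong φ
  haveI : Module.Finite F F' := hfin
  exact Algebra.norm_ne_zero_iff.mpr hg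

theorem eq_zero_of_pullHom_eq_zero [HasPrincipalDivisors K F] [HasPrincipalDivisors K F']
    [IsAlgClosed K] (φ : F →ₐ[K] F')
    (hφ : φ.toRingHom.IsIntegral) (hFI : FundamentalIdentityAlong K φ hφ)
    (hfin : FiniteAlong K φ) {v₀ : Place K F'} (hv₀ : v₀.deg = 1) {m : ℕ} (hm : m ≠ 0)
    (hcop : Nat.Coprime m (finrankAlong K φ)) {x : Pic0 K F} (hx : m • x = 0)
    (h : pullHom φ hφ hFI x = 0) : x = 0 := by
  obtain ⟨f, hf⟩ := H05.exists_kum hx
  have h1 := kum_pullHom φ hφ hFI hf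
  rw [h] at h1
  obtain ⟨g, hg, hfg⟩ := h1.exists_pow_of_zero hv₀ hm
  have h2 : f ^ finrankAlong K φ = H05.normAlong φ g ^ m := by
    rw [← normAlong_self, hfg, normAlong_pow]
  have h3 := kum_nsmul hf (finrankAlong K φ)
  rw [h2] at h3
  have h4 : finrankAlong K φ • x = 0 :=
    h3.unique_left hm (H05.kum_zero_pow m (normAlong_ne_zero φ hfin hg))
  have h5 : addOrderOf x ∣ Nat.gcd m (finrankAlong K φ) :=
    Nat.dvd_gcd (addOrderOf_dvd_of_nsmul_eq_zero hx) (addOrderOf_dvd_of_nsmul_eq_zero h4)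
  rw [hcop, Nat.dvd_one, AddMonoid.addOrderOf_eq_one_iff] at h5
  exact h5

end Pull

section Level

variable {N N' : ℕ} [NeZero N] [NeZero N']

/-- inclusion of function fields -/
def incN (h : N ∣ N') : modularFunctionFieldBar N →ₐ[Qb] modularFunctionFieldBar N' :=
  IntermediateField.inclusion (M5.FB_mono Qb h)

theorem coe_incN (h : N ∣ N') (x : modularFunctionFieldBar N) :
    (incN h x : LaurentSeries Qb) = x := IntermediateField.coe_inclusion _ x

theorem int_incN {ℓ : ℕ} [Fact ℓ.Prime] (hN' : N' = N * ℓ) (h : N ∣ N') :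
    (incN h).toRingHom.IsIntegral := by
  subst hN'
  exact H05.heckeAlphaBarIntegral Qb N ℓ

theorem fin_incN {ℓ : ℕ} [Fact ℓ.Prime] (hN' : N' = N * ℓ) (h : N ∣ N') :
    FiniteAlong Qb (incN h) := by
  subst hN'
  exact H05.finiteAlong_alpha Qb N ℓ

theorem finrank_incN {ℓ : ℕ} [Fact ℓ.Prime] (hN' : N' = N * ℓ) (hℓ : ¬ ℓ ∣ N) (h : N ∣ N') :
    finrankAlong Qb (incN h) = ℓ + 1 := by
  subst hN'
  exact M5.finrankAlong_alpha Qb N ℓ hℓ

/-- pull-back of classes -/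
def pullN {ℓ : ℕ} [Fact ℓ.Prime] (hN' : N' = N * ℓ) (h : N ∣ N') : JZero N →+ JZero N' :=
  pullHom (incN h) (int_incN hN' h)
    (H05.fundamentalIdentityAlong_of _ (int_incN hN' h) (fin_incN hN' h))

theorem kum_pullN {ℓ : ℕ} [Fact ℓ.Prime] (hN' : N' = N * ℓ) (h : N ∣ N') {m : ℕ} {x : JZero N}
    {f : modularFunctionFieldBar N} (hf : H05.Kum m x f) :
    H05.Kum m (pullN hN' h x) (incN h f) := kum_pullHom _ _ _ hf

theorem eq_zero_of_pullN {ℓ : ℕ} [Fact ℓ.Prime] (hN' : N' = N * ℓ) (hℓ : ¬ ℓ ∣ N) (h : N ∣ N')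
    {m : ℕ} (hm : m ≠ 0) (hcop : Nat.Coprime m (ℓ + 1)) {x : JZero N} (hx : m • x = 0)
    (h0 : pullN hN' h x = 0) : x = 0 := by
  obtain ⟨v, -⟩ := H05.exists_place_infinity_bc Qb N'
  exact eq_zero_of_pullHom_eq_zero (incN h) (int_incN hN' h) _ (fin_incN hN' h)
    (H05.deg_eq_one_bc Qb N' v) hm (by rw [finrank_incN hN' hℓ h]; exact hcop) hx h0

theorem eq_of_pullN {ℓ : ℕ} [Fact ℓ.Prime] (hN' : N' = N * ℓ) (hℓ : ¬ ℓ ∣ N) (h : N ∣ N')
    {m : ℕ} (hm : m ≠ 0) (hcop : Nat.Coprime m (ℓ + 1)) {x y : JZero N} (hx : m • x = 0)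
    (hy : m • y = 0) (h0 : pullN hN' h x = pullN hN' h y) : x = y := by
  have h1 : m • (x - y) = 0 := by rw [smul_sub, hx, hy, sub_zero]
  have := eq_zero_of_pullN hN' hℓ h hm hcop h1 (by rw [map_sub, h0, sub_self])
  exact sub_eq_zero.mp this

theorem incN_galois (h : N ∣ N') (σ : Qb ≃ₐ[ℚ] Qb) (f : modularFunctionFieldBar N) :
    incN h (arithmeticGalois (modularFunctionFieldFull N) σ • f) =
      arithmeticGalois (modularFunctionFieldFull N') σ • incN h f := by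
  apply Subtype.ext
  rw [coe_incN]
  change coeffMap (σ : Qb →+* Qb) (f : LaurentSeries Qb) =
    coeffMap (σ : Qb →+* Qb) (incN h f : LaurentSeries Qb)
  rw [coe_incN]

theorem pullN_galois {ℓ : ℕ} [Fact ℓ.Prime] (hN' : N' = N * ℓ) (h : N ∣ N') {m : ℕ} (hm : m ≠ 0)
    (σ : Qb ≃ₐ[ℚ] Qb) {x : JZero N} (hx : m • x = 0) :
    pullN hN' h (σ • x) = σ • pullN hN' h x := by
  obtain ⟨f, hf⟩ := H05.exists_kum hx
  have h1 := kum_pullN hN' h (hf.smul (arithmeticGalois (modularFunctionFieldFull N) σ))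
  have h2 := (kum_pullN hN' h hf).smul (arithmeticGalois (modularFunctionFieldFull N') σ)
  rw [incN_galois] at h1
  rw [galois_smul_pic0_def, galois_smul_pic0_def]
  exact h1.unique_left hm h2

end Level

section Toric

variable {M M' r : ℕ} [NeZero M] [NeZero M'] [hr : Fact r.Prime]

theorem wBar_incN (hrM : Nat.Coprime r M) (hrM' : Nat.Coprime r M') (hMM' : M ∣ M')
    (h : M * r ∣ M' * r) (f : modularFunctionFieldBar (M * r)) :
    (wBar M' r hrM' (incN h f) : LaurentSeries Qb) = (wBar M r hrM f : LaurentSeries Qb) := by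
  rw [coe_wBar, coe_wBar]
  set g : modularFunctionFieldFullC Qb (M * r) := ⟨f, mem_full_of_bar f.2⟩ with hg
  have hle : modularFunctionFieldFullC Qb (M * r) ≤ modularFunctionFieldFullC Qb (M' * r) :=
    full_degeneracyC_le Qb h
  have h1 : (⟨incN h f, mem_full_of_bar (incN h f).2⟩ : modularFunctionFieldFullC Qb (M' * r)) =
      IntermediateField.inclusion hle g := Subtype.ext
        ((coe_incN h f).trans (IntermediateField.coe_inclusion hle g).symm)
  rw [h1]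
  have key : ((modularFunctionFieldFullC Qb (M' * r)).val.comp
      ((wQ Qb hrM').toAlgHom.comp (IntermediateField.inclusion hle))) =
      (modularFunctionFieldFullC Qb (M * r)).val.comp (wQ Qb hrM).toAlgHom := by
    apply algHom_ext_gen Qb (Q := r) (M := M)
    intro i
    have h2 : IntermediateField.inclusion hle ⟨gen r M Qb i, gen_mem Qb i⟩ =
        ⟨gen r M' Qb ⟨(i.1.1, i.1.2), i.2.1, i.2.2.trans hMM'⟩, gen_mem Qb _⟩ := rfl
    change ((wQ Qb hrM' (IntermediateField.inclusion hle ⟨gen r M Qb i, gen_mem Qb i⟩) :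
      modularFunctionFieldFullC Qb (M' * r)) : LaurentSeries Qb) =
      ((wQ Qb hrM ⟨gen r M Qb i, gen_mem Qb i⟩ : modularFunctionFieldFullC Qb (M * r)) :
        LaurentSeries Qb)
    rw [h2, wQ_gen, wQ_gen]
    rfl
  exact congrArg (fun φ : modularFunctionFieldFullC Qb (M * r) →ₐ[Qb] LaurentSeries Qb => φ g) key

theorem infPow_mono {A : ValuationSubring Qb} (hMM' : M ∣ M') {m : ℕ} {z : LaurentSeries Qb}
    (h : InfPow A M m z) : InfPow A M' m z := by
  obtain ⟨c, hc, u, hu, hu0, h⟩ := h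
  exact ⟨c, hc, u, full_degeneracyC_le (kk A) hMM' hu, hu0, h⟩

variable {ℓ : ℕ} [hℓ : Fact ℓ.Prime] (hM' : M' = M * ℓ) (hrM : Nat.Coprime r M)
  (hrM' : Nat.Coprime r M')

include hM' in
theorem mul_eq_mul : M' * r = M * r * ℓ := by rw [hM']; ring

include hM' in
theorem mul_dvd_mul' : M * r ∣ M' * r := by rw [hM']; exact ⟨ℓ, by ring⟩

/-- pull-back from level `M r` to level `M' r = M ℓ r` -/
def pullT : JZero (M * r) →+ JZero (M' * r) := pullN (mul_eq_mul hM') (mul_dvd_mul' hM')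

theorem pullT_wS {m : ℕ} (hm : m ≠ 0) {x : JZero (M * r)} (hx : m • x = 0) :
    pullT (r := r) hM' (wS M r hrM • x) = wS M' r hrM' • pullT (r := r) hM' x := by
  obtain ⟨f, hf⟩ := H05.exists_kum hx
  have h1 := kum_pullN (mul_eq_mul hM') (mul_dvd_mul' hM') (hf.smul (wS M r hrM))
  have h2 := (kum_pullN (mul_eq_mul hM') (mul_dvd_mul' hM') hf).smul (wS M' r hrM')
  have h3 : incN (mul_dvd_mul' (r := r) hM') (wS M r hrM • f) =
      wS M' r hrM' • incN (mul_dvd_mul' (r := r) hM') f := by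
    apply Subtype.ext
    rw [coe_incN, wS_smul_fun, wS_smul_fun]
    exact (wBar_incN hrM hrM' (by rw [hM']; exact dvd_mul_right _ _) _ f).symm
  rw [h3] at h1
  exact h1.unique_left hm h2

theorem pullT_mem_KInf {A : ValuationSubring Qb} {m : ℕ} {x : JZero (M * r)}
    (hx : x ∈ KInf A M r m) : pullT (r := r) hM' x ∈ KInf A M' r m := by
  obtain ⟨f, hf, h⟩ := hx
  refine ⟨incN (mul_dvd_mul' (r := r) hM') f,
    kum_pullN (mul_eq_mul hM') (mul_dvd_mul' hM') hf, ?_⟩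
  rw [coe_incN]
  exact infPow_mono (by rw [hM']; exact dvd_mul_right _ _) h

theorem pullT_mem_TSub {A : ValuationSubring Qb} {m : ℕ} (hm : m ≠ 0) {x : JZero (M * r)}
    (hx : x ∈ TSub A M r m hrM) : pullT (r := r) hM' x ∈ TSub A M' r m hrM' := by
  rw [mem_TSub] at hx ⊢
  refine ⟨pullT_mem_KInf hM' hx.1, ?_⟩
  rw [← pullT_wS hM' hrM hrM' hm (nsmul_eq_zero_of_mem_KInf hx.1)]
  exact pullT_mem_KInf hM' hx.2

theorem pullT_galois {m : ℕ} (hm : m ≠ 0) (σ : Qb ≃ₐ[ℚ] Qb) {x : JZero (M * r)}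
    (hx : m • x = 0) : pullT (r := r) hM' (σ • x) = σ • pullT (r := r) hM' x :=
  pullN_galois _ _ hm σ hx

theorem eq_of_pullT (hℓM : ¬ ℓ ∣ M * r) {m : ℕ} (hm : m ≠ 0) (hcop : Nat.Coprime m (ℓ + 1))
    {x y : JZero (M * r)} (hx : m • x = 0)
    (hy : m • y = 0) (h0 : pullT (r := r) hM' x = pullT (r := r) hM' y) : x = y :=
  eq_of_pullN (mul_eq_mul hM') hℓM (mul_dvd_mul' hM') hm hcop hx hy h0

theorem nsmul_galois {N : ℕ} (σ : Qb ≃ₐ[ℚ] Qb) {m : ℕ} {x : JZero N} (hx : m • x = 0) :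
    m • σ • x = 0 := by
  have h1 := map_nsmul (DistribSMul.toAddMonoidHom (JZero N) σ) m x
  rw [hx, map_zero] at h1
  exact h1.symm

variable {A : ValuationSubring Qb} {m : ℕ}

/-- transfer of (T1) -/
theorem inertia_transfer (hM' : M' = M * ℓ) (hℓM : ¬ ℓ ∣ M * r) (hm : m ≠ 0) (hcop : Nat.Coprime m (ℓ + 1))
    (σ : Qb ≃ₐ[ℚ] Qb) (h : ∀ y ∈ TSub A M' r m hrM', σ • y = y) {x : JZero (M * r)}
    (hx : x ∈ TSub A M r m hrM) : σ • x = x := by
  have hmx := nsmul_eq_zero_of_mem_KInf hx.1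
  apply eq_of_pullT hM' hℓM hm hcop (nsmul_galois σ hmx) hmx
  rw [pullT_galois hM' hm σ hmx]
  exact h _ (pullT_mem_TSub hM' hrM hrM' hm hx)

/-- transfer of (T3) -/
theorem swap_transfer (hM' : M' = M * ℓ) (hℓM : ¬ ℓ ∣ M * r) (hm : m ≠ 0) (hcop : Nat.Coprime m (ℓ + 1))
    (φ : Qb ≃ₐ[ℚ] Qb) (h : ∀ y ∈ TSub A M' r m hrM', φ • wS M' r hrM' • y = -(r • y))
    {x : JZero (M * r)}
    (hx : x ∈ TSub A M r m hrM) : φ • wS M r hrM • x = -(r • x) := by
  have hmx := nsmul_eq_zero_of_mem_KInf hx.1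
  have hmw : m • wS M r hrM • x = 0 := by rw [nsmul_wS, hmx, smul_zero]
  apply eq_of_pullT hM' hℓM hm hcop (nsmul_galois φ hmw)
    (by rw [smul_neg, smul_comm, hmx, smul_zero, neg_zero])
  rw [pullT_galois hM' hm φ hmw, pullT_wS hM' hrM hrM' hm hmx, map_neg, map_nsmul]
  exact h _ (pullT_mem_TSub hM' hrM hrM' hm hx)

/-- transfer of (T2) -/
theorem frobenius_sq_transfer (hM' : M' = M * ℓ) (hℓM : ¬ ℓ ∣ M * r) (hm : m ≠ 0) (hcop : Nat.Coprime m (ℓ + 1))
    (φ : Qb ≃ₐ[ℚ] Qb) (h : ∀ y ∈ TSub A M' r m hrM', φ • φ • y = (r ^ 2) • y)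
    {x : JZero (M * r)}
    (hx : x ∈ TSub A M r m hrM) : φ • φ • x = (r ^ 2) • x := by
  have hmx := nsmul_eq_zero_of_mem_KInf hx.1
  have hm1 := nsmul_galois φ hmx
  apply eq_of_pullT hM' hℓM hm hcop (nsmul_galois φ hm1)
    (by rw [smul_comm, hmx, smul_zero])
  rw [pullT_galois hM' hm φ hm1, pullT_galois hM' hm φ hmx, map_nsmul]
  exact h _ (pullT_mem_TSub hM' hrM hrM' hm hx)

end Toric

end Fermat.Agent.Q
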