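import Fermat.Agent.Q.Galois

/-!
# The subgroups `K_∞ ⊂ J₀(M r)[m]` and the local Galois action at `r`
-/

set_option autoImplicit false
set_option linter.style.haveILetI false

noncomputable section

namespace Fermat.Agent.Q

open ModularCurve HahnSeries Fermat.Agent.Igusa AlgebraicCurve

local notation "kk" => IsLocalRing.ResidueField

section General

variable {K : Type*} [Field K]

/-- The residue field of a valuation subring of an algebraically closed field is algebraically
closed. -/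
theorem isAlgClosed_residueField [IsAlgClosed K] (A : ValuationSubring K) :
    IsAlgClosed (kk A) := by
  apply IsAlgClosed.of_exists_root
  intro p hp hirr
  have hlift : p ∈ Polynomial.lifts (IsLocalRing.residue A) := by
    rw [Polynomial.lifts_iff_coeff_lifts]
    intro n
    exact IsLocalRing.residue_surjective _
  obtain ⟨q, hq, hdeg, hmon⟩ := Polynomial.lifts_and_degree_eq_and_monic hlift hp
  have hdeg0 : (q.map (algebraMap A K)).degree ≠ 0 := by
    rw [hmon.degree_map, hdeg]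
    exact (Polynomial.degree_pos_of_irreducible hirr).ne'
  obtain ⟨x, hx⟩ := IsAlgClosed.exists_root (q.map (algebraMap A K)) hdeg0
  have hint : IsIntegral A x := ⟨q, hmon, by
    rw [Polynomial.IsRoot.def, Polynomial.eval_map] at hx
    exact hx⟩
  obtain ⟨y, rfl⟩ := IsIntegrallyClosed.isIntegral_iff.mp hint
  refine ⟨IsLocalRing.residue A y, ?_⟩
  rw [Polynomial.IsRoot.def, Polynomial.eval_map_algebraMap, Polynomial.aeval_algebraMap_apply,
    map_eq_zero_iff _ (IsFractionRing.injective A K), Polynomial.coe_aeval_eq_eval] at hx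
  rw [← hq, Polynomial.eval_map, Polynomial.eval₂_at_apply, hx, map_zero]

/-- `z` is, up to a constant, congruent to an `m`-th power of a function of level `M`. -/
def InfPow (A : ValuationSubring K) (M m : ℕ) (z : LaurentSeries K) : Prop :=
  ∃ c : K, c ≠ 0 ∧ ∃ u ∈ modularFunctionFieldFullC (kk A) M, u ≠ 0 ∧
    Red A (HahnSeries.C c * z) (u ^ m)

variable {A : ValuationSubring K} {M m : ℕ}

theorem infPow_one : InfPow A M m 1 :=
  ⟨1, one_ne_zero, 1, one_mem _, one_ne_zero, by
    rw [map_one, one_mul, one_pow]; exact Red.one⟩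

theorem InfPow.mul {z w : LaurentSeries K} (hz : InfPow A M m z) (hw : InfPow A M m w) :
    InfPow A M m (z * w) := by
  obtain ⟨c, hc, u, hu, hu0, h⟩ := hz
  obtain ⟨d, hd, v, hv, hv0, h'⟩ := hw
  refine ⟨c * d, mul_ne_zero hc hd, u * v, mul_mem hu hv, mul_ne_zero hu0 hv0, ?_⟩
  have := h.mul h'
  rw [← mul_pow] at this
  convert this using 1
  rw [map_mul]; ring

theorem InfPow.inv {z : LaurentSeries K} (hz : InfPow A M m z) : InfPow A M m z⁻¹ := by
  obtain ⟨c, hc, u, hu, hu0, h⟩ := hz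
  refine ⟨c⁻¹, inv_ne_zero hc, u⁻¹, inv_mem hu, inv_ne_zero hu0, ?_⟩
  have := h.inv (pow_ne_zero m hu0)
  rw [mul_inv, ← map_inv₀] at this
  rwa [inv_pow]

theorem InfPow.of_red {z : LaurentSeries K} {c : K} (hc : c ≠ 0)
    {u : LaurentSeries (kk A)} (hu : u ∈ modularFunctionFieldFullC (kk A) M) (hu0 : u ≠ 0)
    (h : Red A (HahnSeries.C c * z) u) : InfPow A M m (z ^ m) :=
  ⟨c ^ m, pow_ne_zero m hc, u, hu, hu0, by
    rw [map_pow, ← mul_pow]; exact h.pow m⟩

/-- scaling the reduction by a constant. -/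
theorem InfPow.of_red_C [IsAlgClosed K] (hm : m ≠ 0) {z : LaurentSeries K} {c : K} (hc : c ≠ 0)
    {e : kk A} (he : e ≠ 0) {u : LaurentSeries (kk A)}
    (hu : u ∈ modularFunctionFieldFullC (kk A) M)
    (hu0 : u ≠ 0) (h : Red A (HahnSeries.C c * z) (HahnSeries.C e * u ^ m)) : InfPow A M m z := by
  haveI := isAlgClosed_residueField A
  obtain ⟨d, hd⟩ := IsAlgClosed.exists_pow_nat_eq e (Nat.pos_of_ne_zero hm)
  have hd0 : d ≠ 0 := by
    rintro rfl
    rw [zero_pow hm] at hd
    exact he hd.symm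
  refine ⟨c, hc, HahnSeries.C d * u, mul_mem ?_ hu,
    mul_ne_zero ((map_ne_zero _).mpr hd0) hu0, ?_⟩
  · rw [← algebraMap_eq_C]; exact (modularFunctionFieldFullC (kk A) M).algebraMap_mem _
  · rw [mul_pow, ← map_pow, hd]; exact h

end General

section Alg

variable {K : Type*} [Field K] {A : ValuationSubring K} [CharZero K] [Algebra ℚ K]
  [Algebra.IsAlgebraic ℚ K] {M r m : ℕ} [NeZero M] [hr : Fact r.Prime]

/-- every nonzero function of level `M r` has, up to scaling, a nonzero reduction of level `M`. -/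
theorem exists_red_mul (hA : A.LiesOverPrime r) (hrM : Nat.Coprime r M) {z : LaurentSeries K}
    (hz : z ∈ modularFunctionFieldFullC K (M * r)) (hz0 : z ≠ 0) :
    ∃ c : K, c ≠ 0 ∧ ∃ u ∈ modularFunctionFieldFullC (kk A) M, u ≠ 0 ∧
      Red A (HahnSeries.C c * z) u := by
  obtain ⟨c, hc, u, hu0, h⟩ := exists_red hr.out hA (full_le_FL (A := A) (M * r) hz) hz0
  refine ⟨c, hc, u, ?_, hu0, h⟩
  refine red_mem_full_mul hA hrM (mul_mem ?_ hz) h
  rw [← algebraMap_eq_C]
  exact (modularFunctionFieldFullC K (M * r)).algebraMap_mem _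

theorem infPow_pow (hA : A.LiesOverPrime r) (hrM : Nat.Coprime r M) {z : LaurentSeries K}
    (hz : z ∈ modularFunctionFieldFullC K (M * r)) (hz0 : z ≠ 0) : InfPow A M m (z ^ m) := by
  obtain ⟨c, hc, u, hu, hu0, h⟩ := exists_red_mul hA hrM hz hz0
  exact InfPow.of_red hc hu hu0 h

/-- **Inertia** acts trivially modulo `K_∞`. -/
theorem infPow_inertia (hA : A.LiesOverPrime r) (hrM : Nat.Coprime r M) {z : LaurentSeries K}
    (hz : z ∈ modularFunctionFieldFullC K (M * r)) (hz0 : z ≠ 0) (σ : K →+* K)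
    (hσ : ∀ x : A, ∃ hx : σ x ∈ A, IsLocalRing.residue A ⟨σ x, hx⟩ = IsLocalRing.residue A x) :
    InfPow A M m (coeffMap σ z * z⁻¹) := by
  obtain ⟨c, hc, u, hu, hu0, h⟩ := exists_red_mul hA hrM hz hz0
  have h1 : Red A (coeffMap σ (HahnSeries.C c * z)) u := by
    have := h.coeffMap (σ := σ) (σ' := RingHom.id _) hσ
    rwa [coeffMap_id] at this
  have h2 := h1.div h hu0
  rw [div_self hu0] at h2
  refine ⟨σ c * c⁻¹, mul_ne_zero ((map_ne_zero σ).mpr hc) (inv_ne_zero hc), 1, one_mem _,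
    one_ne_zero, ?_⟩
  rw [one_pow]
  convert h2 using 1
  have h3 : coeffMap σ (HahnSeries.C c) = HahnSeries.C (σ c) := by
    rw [← algebraMap_eq_C, coeffMap_algebraMap, algebraMap_eq_C]
  have h4 : (HahnSeries.C c : LaurentSeries K) ≠ 0 := (map_ne_zero _).mpr hc
  rw [map_mul (coeffMap σ), h3, map_mul, map_inv₀]
  field_simp

/-- **Frobenius** acts as `-w` modulo `K_∞` on the kernel of the norm. -/
theorem infPow_frobenius [IsAlgClosed K] (hm : m ≠ 0) (hA : A.LiesOverPrime r)
    (hrM : Nat.Coprime r M)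
    (z : modularFunctionFieldFullC K (M * r)) (hz0 : z ≠ 0) (φ : K →+* K)
    (hφ : ∀ x : A, ∃ hx : φ x ∈ A, IsLocalRing.residue A ⟨φ x, hx⟩ =
      (IsLocalRing.residue A x) ^ r)
    (h : modularFunctionFieldFullC K M) (hh0 : h ≠ 0)
    (hnorm : H05.normAlong (incl K M r) z = h ^ m) :
    InfPow A M m ((z : LaurentSeries K) * coeffMap φ (wQ K hrM z : LaurentSeries K)) := by
  haveI := H05.charP_residueField hr.out hA
  -- roots of unity
  obtain ⟨ζ', hζ'⟩ : ∃ ζ : K, IsPrimitiveRoot ζ r := by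
    haveI : NeZero ((r : ℕ) : K) := ⟨by exact_mod_cast hr.out.ne_zero⟩
    exact HasEnoughRootsOfUnity.exists_primitiveRoot K r
  obtain ⟨ζ, rfl⟩ : ∃ ζ : Kˣ, (ζ : K) = ζ' :=
    ⟨(hζ'.isUnit hr.out.ne_zero).unit, (hζ'.isUnit hr.out.ne_zero).unit_spec⟩
  have hζ : IsPrimitiveRoot ζ r := IsPrimitiveRoot.coe_units_iff.mp hζ'
  have hζA : ∀ a : Kˣ, a ^ r = 1 → ∃ h : (a : K) ∈ A, IsLocalRing.residue A ⟨a, h⟩ = 1 := by
    intro a ha
    have hint : IsIntegral ℤ (a : K) := by
      refine ⟨Polynomial.X ^ r - 1, Polynomial.monic_X_pow_sub_C 1 hr.out.ne_zero, ?_⟩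
      rw [Polynomial.eval₂_sub, Polynomial.eval₂_pow, Polynomial.eval₂_X, Polynomial.eval₂_one,
        ← Units.val_pow_eq_pow_val, ha, Units.val_one, sub_self]
    have hmem := H05.mem_of_isIntegral A hint
    refine ⟨hmem, ?_⟩
    have h1 : (IsLocalRing.residue A ⟨a, hmem⟩) ^ r = 1 := by
      rw [← map_pow]
      have : (⟨(a : K), hmem⟩ : A) ^ r = 1 := Subtype.ext (by
        rw [SubmonoidClass.coe_pow]
        change (a : K) ^ r = 1
        rw [← Units.val_pow_eq_pow_val, ha, Units.val_one])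
      rw [this, map_one]
    have h2 : (IsLocalRing.residue A ⟨a, hmem⟩ - 1) ^ r = 0 := by
      rw [sub_pow_expChar, h1, one_pow, sub_self]
    exact sub_eq_zero.mp (pow_eq_zero_iff hr.out.ne_zero |>.mp h2)
  -- reductions
  have hz0' : (z : LaurentSeries K) ≠ 0 := fun h => hz0 (Subtype.ext h)
  have hw0' : (wQ K hrM z : LaurentSeries K) ≠ 0 := by
    intro h0
    have h1 : wQ K hrM z = 0 := Subtype.ext h0
    exact hz0 ((map_eq_zero_iff _ (wQ K hrM).injective).mp h1)
  have hh0' : (h : LaurentSeries K) ≠ 0 := fun h' => hh0 (Subtype.ext h')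
  obtain ⟨c, hc, u, hu, hu0, hru⟩ := exists_red_mul hA hrM z.2 hz0'
  obtain ⟨c', hc', u', hu', hu'0, hru'⟩ := exists_red_mul hA hrM (wQ K hrM z).2 hw0'
  obtain ⟨c'', hc'', v, hv, hv0, hrv⟩ := exists_red_mul hA hrM
    (mem_of_mem K (Q := r) _ h.2) hh0'
  -- the norm formula
  have hN := norm_formula K M hrM hζ z
  rw [hnorm] at hN
  have hC : ∀ {e : K}, e ≠ 0 → (HahnSeries.C e : LaurentSeries K) ≠ 0 := fun he =>
    (map_ne_zero _).mpr he
  have htw : ∀ b : ZMod r, Red A (twist (ζ ^ b.val)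
      (HahnSeries.C c' * (wQ K hrM z : LaurentSeries K))) u' := by
    intro b
    have hb : (ζ ^ b.val) ^ r = 1 := by
      rw [← pow_mul, mul_comm, pow_mul, hζ.pow_eq_one, one_pow]
    obtain ⟨h1, h2⟩ := hζA _ hb
    obtain ⟨h3, _⟩ := hζA ((ζ ^ b.val)⁻¹) (by rw [inv_pow, hb, inv_one])
    exact hru'.twist h1 h3 h2
  have htwC : ∀ (a : Kˣ) (e : K), twist a (HahnSeries.C e) = (HahnSeries.C e : LaurentSeries K) := by
    intro a e
    ext n
    rw [twist_coeff, HahnSeries.C_apply, HahnSeries.coeff_single]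
    split_ifs with hn
    · rw [hn]; simp
    · rw [zero_mul]
  have hprod := Red.prod (A := A) Finset.univ (fun b (_ : b ∈ (Finset.univ : Finset (ZMod r))) =>
    htw b)
  rw [Finset.prod_const, Finset.card_univ, ZMod.card, pow_char r u'] at hprod
  have hprod2 : ∏ b : ZMod r, twist (ζ ^ b.val)
      (HahnSeries.C c' * (wQ K hrM z : LaurentSeries K)) =
      HahnSeries.C (c' ^ r) * ∏ b : ZMod r, twist (ζ ^ b.val)
        (wQ K hrM z : LaurentSeries K) := by
    simp only [map_mul, htwC]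
    rw [Finset.prod_mul_distrib, Finset.prod_const, Finset.card_univ, ZMod.card, map_pow]
  rw [hprod2] at hprod
  have hall := (hru.qExpand r).mul hprod
  rw [← map_mul (qExpand (kk A) r)] at hall
  set e : K := c * c' ^ r / c'' ^ m with he
  have he0 : e ≠ 0 := div_ne_zero (mul_ne_zero hc (pow_ne_zero r hc')) (pow_ne_zero m hc'')
  have hlhs : qExpand K r (HahnSeries.C c * (z : LaurentSeries K)) *
      (HahnSeries.C (c' ^ r) * ∏ b : ZMod r, twist (ζ ^ b.val)
        (wQ K hrM z : LaurentSeries K)) =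
      HahnSeries.C e * qExpand K r ((HahnSeries.C c'' * (h : LaurentSeries K)) ^ m) := by
    have h1 : qExpand K r ((HahnSeries.C c'' * (h : LaurentSeries K)) ^ m) =
        HahnSeries.C (c'' ^ m) * qExpand K r ((h ^ m : modularFunctionFieldFullC K M) :
          LaurentSeries K) := by
      rw [mul_pow, map_mul, ← map_pow, qExpand_C]
      push_cast
      rfl
    rw [h1, hN, map_mul, qExpand_C, he, map_div₀, map_mul, map_pow, map_pow]
    have := hC (pow_ne_zero m hc'')
    rw [map_pow] at this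
    field_simp
  rw [hlhs] at hall
  have hrvm := (hrv.pow m).qExpand r
  have hvm0 : qExpand (kk A) r (v ^ m) ≠ 0 := (map_ne_zero _).mpr (pow_ne_zero m hv0)
  obtain ⟨heA, hres⟩ := hall.scale hrvm hvm0
  -- the Frobenius twist of `u'`
  have hcf0 : coeffMap (frobenius (kk A) r) u' ≠ 0 := (map_ne_zero _).mpr hu'0
  have hres0 : IsLocalRing.residue A ⟨e, heA⟩ ≠ 0 := by
    intro h0
    rw [h0, map_zero, zero_mul, map_eq_zero] at hres
    exact mul_ne_zero hu0 hcf0 hres
  have hres' : u * coeffMap (frobenius (kk A) r) u' =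
      HahnSeries.C (IsLocalRing.residue A ⟨e, heA⟩) * v ^ m := by
    apply qExpand_injective r
    rw [hres, map_mul (qExpand (kk A) r) (HahnSeries.C _), qExpand_C]
  have hfr : Red A (coeffMap φ (HahnSeries.C c' * (wQ K hrM z : LaurentSeries K)))
      (coeffMap (frobenius (kk A) r) u') :=
    hru'.coeffMap (σ := φ) (σ' := frobenius (kk A) r) (fun x => by
      obtain ⟨hx, h1⟩ := hφ x
      exact ⟨hx, by rw [h1, frobenius_def]⟩)
  have hfin := hru.mul hfr
  rw [hres'] at hfin
  refine InfPow.of_red_C hm (c := c * φ c') (mul_ne_zero hc ((map_ne_zero φ).mpr hc')) hres0 hv hv0 ?_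
  convert hfin using 1
  have h3 : coeffMap φ (HahnSeries.C c') = HahnSeries.C (φ c') := by
    rw [← algebraMap_eq_C, coeffMap_algebraMap, algebraMap_eq_C]
  rw [map_mul (coeffMap φ), h3, map_mul]
  ring

end Alg

end Fermat.Agent.Q
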