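import Fermat.Agent.Q.Gauss

/-!
# Bounded Laurent series with algebraic coefficients attain their Gauss norm
-/

set_option autoImplicit false
set_option linter.style.haveILetI false

noncomputable section

namespace Fermat.Agent.Q

open ModularCurve HahnSeries

section Discrete

variable {L : Type*} [Field L]

theorem isNoetherianRing_of_numberField [NumberField L] (A : ValuationSubring L) {ℓ : ℕ}
    (hℓ : ℓ.Prime) (hA : A.LiesOverPrime ℓ) : IsNoetherianRing A := by
  letI : Algebra (integralClosure ℤ L) A := (H05.toA A).toAlgebra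
  have hmap : ∀ z, ((algebraMap (integralClosure ℤ L) A z : A) : L) = z := fun z => rfl
  haveI : IsLocalization (H05.center A).primeCompl A := by
    refine ⟨?_⟩
    refine ⟨?_, ?_, ?_⟩
    · intro y
      by_contra hnu
      apply y.2
      exact (IsLocalRing.mem_maximalIdeal _).mpr hnu
    · intro z
      obtain ⟨a, b, hb, hab⟩ := H05.exists_mul_eq_of_mem hℓ hA z.2
      exact ⟨(a, ⟨b, hb⟩), Subtype.ext hab⟩
    · intro x y hxy
      refine ⟨1, ?_⟩
      have := congrArg (Subtype.val) hxy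
      rw [hmap, hmap] at this
      rw [Subtype.ext this]
  exact IsLocalization.isNoetherianRing (H05.center A).primeCompl A
    (inferInstanceAs (IsNoetherianRing (NumberField.RingOfIntegers L)))

theorem exists_max_of_noetherian (A : ValuationSubring L) [IsNoetherianRing A] {S : Set L}
    (hS : ∀ s ∈ S, s ∈ A) (h0 : ∃ s ∈ S, s ≠ 0) : ∃ s ∈ S, s ≠ 0 ∧ ∀ t ∈ S, t / s ∈ A := by
  classical
  let T : Set (Ideal A) := {I | ∃ s : A, (s : L) ∈ S ∧ s ≠ 0 ∧ I = Ideal.span {s}}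
  have hT : T.Nonempty := by
    obtain ⟨s, hs, hs0⟩ := h0
    exact ⟨_, ⟨s, hS s hs⟩, hs, fun h => hs0 (congrArg Subtype.val h), rfl⟩
  obtain ⟨I, ⟨s, hs, hs0, rfl⟩, hmax⟩ :=
    set_has_maximal_iff_noetherian.mpr (inferInstance : IsNoetherianRing A) T hT
  have hs0' : (s : L) ≠ 0 := fun h => hs0 (Subtype.ext h)
  refine ⟨s, hs, hs0', fun t ht => ?_⟩
  by_cases ht0 : t = 0
  · rw [ht0, zero_div]; exact zero_mem A
  rcases A.mem_or_inv_mem (t / s) with h | h
  · exact h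
  have htA : t ∈ A := hS t ht
  -- `s = (s/t) * t`
  have hle : Ideal.span {s} ≤ Ideal.span {(⟨t, htA⟩ : A)} := by
    rw [Ideal.span_singleton_le_span_singleton]
    refine ⟨⟨(t / s)⁻¹, h⟩, Subtype.ext ?_⟩
    change (s : L) = t * (t / s)⁻¹
    field_simp
  have heq : ¬ (Ideal.span {s} < Ideal.span {(⟨t, htA⟩ : A)}) :=
    hmax _ ⟨⟨t, htA⟩, ht, fun h => ht0 (congrArg Subtype.val h), rfl⟩
  have hge : Ideal.span {(⟨t, htA⟩ : A)} ≤ Ideal.span {s} := by
    by_contra hcon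
    exact heq (lt_of_le_not_ge hle hcon)
  rw [Ideal.span_singleton_le_span_singleton] at hge
  obtain ⟨r, hr⟩ := hge
  have : t = s * (r : L) := congrArg Subtype.val hr
  rw [this, mul_div_cancel_left₀ _ hs0']
  exact r.2

variable {K : Type*} [Field K] [CharZero K] [Algebra ℚ K] (A : ValuationSubring K)

theorem exists_max (E : IntermediateField ℚ K) [FiniteDimensional ℚ E] {ℓ : ℕ}
    (hℓ : ℓ.Prime) (hA : A.LiesOverPrime ℓ) {S : Set K} (hSE : ∀ s ∈ S, s ∈ E)
    (hS : ∀ s ∈ S, s ∈ A) (h0 : ∃ s ∈ S, s ≠ 0) : ∃ s ∈ S, s ≠ 0 ∧ ∀ t ∈ S, t / s ∈ A := by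
  haveI : NumberField E := by
    refine @NumberField.mk _ _ inferInstance ?_
    convert (inferInstance : FiniteDimensional ℚ E)
    exact Subsingleton.elim _ _
  let A' : ValuationSubring E := A.comap (algebraMap E K)
  have hA' : A'.LiesOverPrime ℓ := by
    change (ℓ : E) ∈ A'.nonunits
    have h1 : (ℓ : K) ∈ A.nonunits := hA
    by_contra hcon
    have hmem : (ℓ : E) ∈ A' := natCast_mem A' ℓ
    rw [H05.not_mem_nonunits_iff A' hmem] at hcon
    have h2 : ((ℓ : E)⁻¹ : E) ∈ A' := hcon.1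
    have h3 : (((ℓ : E)⁻¹ : E) : K) ∈ A := h2
    have h4 : (ℓ : K)⁻¹ ∈ A := by
      convert h3 using 1
      push_cast
      rfl
    have h5 : (ℓ : K) ≠ 0 := by exact_mod_cast hℓ.ne_zero
    exact ((H05.not_mem_nonunits_iff A (natCast_mem A ℓ)).mpr ⟨h4, h5⟩) h1
  haveI := isNoetherianRing_of_numberField A' hℓ hA'
  let S' : Set E := {s | (s : K) ∈ S}
  obtain ⟨s, hs, hs0, hmax⟩ := exists_max_of_noetherian A' (S := S') (fun s hs => hS _ hs) (by
    obtain ⟨s, hs, hs0⟩ := h0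
    exact ⟨⟨s, hSE s hs⟩, hs, fun h => hs0 (congrArg Subtype.val h)⟩)
  refine ⟨s, hs, fun h => hs0 (Subtype.ext h), fun t ht => ?_⟩
  exact hmax ⟨t, hSE t ht⟩ ht

end Discrete

variable {K : Type*} [Field K] (A : ValuationSubring K)

/-- bounded Laurent series. -/
def bddL : Subring (LaurentSeries K) where
  carrier := {x | ∃ c : K, c ∈ A ∧ c ≠ 0 ∧ HahnSeries.C c * x ∈ intL A}
  one_mem' := ⟨1, one_mem A, one_ne_zero, by rw [map_one, one_mul]; exact one_mem _⟩
  zero_mem' := ⟨1, one_mem A, one_ne_zero, by rw [mul_zero]; exact zero_mem _⟩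
  neg_mem' := by
    rintro x ⟨c, hc, hc0, h⟩
    exact ⟨c, hc, hc0, by rw [mul_neg]; exact neg_mem h⟩
  add_mem' := by
    rintro x y ⟨c, hc, hc0, h⟩ ⟨d, hd, hd0, h'⟩
    refine ⟨c * d, mul_mem hc hd, mul_ne_zero hc0 hd0, ?_⟩
    have : HahnSeries.C (c * d) * (x + y) = HahnSeries.C d * (HahnSeries.C c * x) +
      HahnSeries.C c * (HahnSeries.C d * y) := by rw [map_mul]; ring
    rw [this]
    exact add_mem (mul_mem (C_mem_intL hd) h) (mul_mem (C_mem_intL hc) h')
  mul_mem' := by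
    rintro x y ⟨c, hc, hc0, h⟩ ⟨d, hd, hd0, h'⟩
    refine ⟨c * d, mul_mem hc hd, mul_ne_zero hc0 hd0, ?_⟩
    have : HahnSeries.C (c * d) * (x * y) = (HahnSeries.C c * x) * (HahnSeries.C d * y) := by
      rw [map_mul]; ring
    rw [this]
    exact mul_mem h h'

variable {A}

theorem intL_le_bddL : intL A ≤ bddL A := fun x hx =>
  ⟨1, one_mem A, one_ne_zero, by rw [map_one, one_mul]; exact hx⟩

theorem C_mem_bddL (c : K) : (HahnSeries.C c : LaurentSeries K) ∈ bddL A := by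
  by_cases hc : c ∈ A
  · exact intL_le_bddL (C_mem_intL hc)
  · have hc0 : c ≠ 0 := by
      rintro rfl
      exact hc (zero_mem A)
    refine ⟨c⁻¹, (A.mem_or_inv_mem c).resolve_left hc, inv_ne_zero hc0, ?_⟩
    rw [← map_mul, inv_mul_cancel₀ hc0, map_one]
    exact one_mem _

theorem mem_bddL_of_C_mul {c : K} (hc : c ≠ 0) {x : LaurentSeries K}
    (h : HahnSeries.C c * x ∈ intL A) : x ∈ bddL A := by
  have : x = HahnSeries.C c⁻¹ * (HahnSeries.C c * x) := by
    rw [← mul_assoc, ← map_mul, inv_mul_cancel₀ hc, map_one, one_mul]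
  rw [this]
  exact mul_mem (C_mem_bddL _) (intL_le_bddL h)

variable [Algebra ℚ K]

variable (K) in
/-- Laurent series whose coefficients lie in a finite extension of `ℚ`. -/
def finL : Subring (LaurentSeries K) where
  carrier := {x | ∃ E : IntermediateField ℚ K, FiniteDimensional ℚ E ∧ ∀ n, x.coeff n ∈ E}
  one_mem' := ⟨⊥, inferInstance, fun n => by
    rw [HahnSeries.coeff_one]
    split_ifs
    · exact one_mem _
    · exact zero_mem _⟩
  zero_mem' := ⟨⊥, inferInstance, fun n => by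
    rw [HahnSeries.coeff_zero]
    exact zero_mem _⟩
  neg_mem' := by
    rintro x ⟨E, hE, h⟩
    exact ⟨E, hE, fun n => by rw [HahnSeries.coeff_neg]; exact neg_mem (h n)⟩
  add_mem' := by
    rintro x y ⟨E, hE, h⟩ ⟨E', hE', h'⟩
    refine ⟨E ⊔ E', inferInstance, fun n => ?_⟩
    rw [HahnSeries.coeff_add]
    exact add_mem ((le_sup_left : E ≤ E ⊔ E') (h n)) ((le_sup_right : E' ≤ E ⊔ E') (h' n))
  mul_mem' := by
    rintro x y ⟨E, hE, h⟩ ⟨E', hE', h'⟩
    refine ⟨E ⊔ E', inferInstance, fun n => ?_⟩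
    rw [HahnSeries.coeff_mul]
    exact sum_mem fun ij _ => mul_mem ((le_sup_left : E ≤ E ⊔ E') (h _))
      ((le_sup_right : E' ≤ E ⊔ E') (h' _))

theorem C_mem_finL [Algebra.IsAlgebraic ℚ K] (c : K) : (HahnSeries.C c : LaurentSeries K) ∈ finL K := by
  refine ⟨IntermediateField.adjoin ℚ {c}, ?_, fun n => ?_⟩
  · exact IntermediateField.adjoin.finiteDimensional
      (Algebra.IsAlgebraic.isAlgebraic (R := ℚ) c).isIntegral
  · rw [HahnSeries.C_apply, HahnSeries.coeff_single]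
    split_ifs
    · exact IntermediateField.mem_adjoin_simple_self ℚ c
    · exact zero_mem _

theorem coeffEmb_mem_finL (x : LaurentSeries ℚ) : coeffEmb K x ∈ finL K :=
  ⟨⊥, inferInstance, fun n => by
    rw [coeffEmb_coeff]
    exact algebraMap_mem _ _⟩

variable (A) in
/-- Bounded Laurent series with coefficients in a finite extension of `ℚ`. -/
def DD : Subring (LaurentSeries K) := bddL A ⊓ finL K

variable [Algebra.IsAlgebraic ℚ K]

theorem C_mem_DD (c : K) : (HahnSeries.C c : LaurentSeries K) ∈ DD A :=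
  ⟨C_mem_bddL c, C_mem_finL c⟩

/-- **Attained Gauss norm.** -/
theorem exists_redL_ne_zero [CharZero K] {ℓ : ℕ} (hℓ : ℓ.Prime) (hA : A.LiesOverPrime ℓ)
    {x : LaurentSeries K} (hx : x ∈ DD A) (hx0 : x ≠ 0) :
    ∃ (c : K) (_ : c ≠ 0) (h : HahnSeries.C c * x ∈ intL A), redL A ⟨_, h⟩ ≠ 0 := by
  obtain ⟨⟨c, hc, hc0, hcx⟩, hfin⟩ := hx
  obtain ⟨E, hE, hEc⟩ : HahnSeries.C c * x ∈ finL K := mul_mem (C_mem_finL c) hfin
  obtain ⟨n₀, hn₀⟩ : ∃ n, (HahnSeries.C c * x : LaurentSeries K).coeff n ≠ 0 := by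
    by_contra hcon
    push Not at hcon
    have h1 : (HahnSeries.C c * x : LaurentSeries K) = 0 := by
      ext n; rw [hcon n, HahnSeries.coeff_zero]
    rcases mul_eq_zero.mp h1 with h2 | h2
    · exact hc0 (HahnSeries.C_injective (by rw [h2, map_zero]))
    · exact hx0 h2
  obtain ⟨s, ⟨m, rfl⟩, hs0, hmax⟩ := exists_max A E hℓ hA
    (S := Set.range fun n => (HahnSeries.C c * x : LaurentSeries K).coeff n)
    (by rintro _ ⟨n, rfl⟩; exact hEc n) (by rintro _ ⟨n, rfl⟩; exact mem_intL.mp hcx n)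
    ⟨_, ⟨n₀, rfl⟩, hn₀⟩
  simp only [coeff_C_mul'] at hs0 hmax
  have hxm : x.coeff m ≠ 0 := right_ne_zero_of_mul hs0
  have hmem : HahnSeries.C (x.coeff m)⁻¹ * x ∈ intL A := by
    rw [mem_intL]
    intro n
    rw [coeff_C_mul']
    have := hmax _ ⟨n, rfl⟩
    have h2 : c * x.coeff n / (c * x.coeff m) = (x.coeff m)⁻¹ * x.coeff n := by
      field_simp
    rwa [h2] at this
  refine ⟨(x.coeff m)⁻¹, inv_ne_zero hxm, hmem, ?_⟩
  intro h0
  rw [redL_eq_zero_iff] at h0
  have h1 := h0 m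
  rw [coeff_C_mul', inv_mul_cancel₀ hxm, ValuationSubring.mem_nonunits_iff, map_one] at h1
  exact lt_irrefl _ h1

end Fermat.Agent.Q
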