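import Fermat.Agent.H05.ModField
import Fermat.Agent.Igusa.Degree3

/-!
# The Atkin–Lehner automorphisms `w_Q` of the function field of `X₀(N)`

For `N = Q * M` with `Q`, `M` coprime, `w_Q` is the automorphism of `K(j(q^d) : d ∣ N)` with
`j(q^{d₁ d₂}) ↦ j(q^{(Q/d₁) d₂})` for `d₁ ∣ Q`, `d₂ ∣ M`.
-/

set_option autoImplicit false

noncomputable section

namespace Fermat.Agent.Q

open ModularCurve HahnSeries Fermat.Agent.Igusa UpperHalfPlane
open scoped MatrixGroups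

section Functions

variable (Q M : ℕ) [NeZero Q] [NeZero M]

/-- index type of divisors of `Q * M`. -/
abbrev Idx : Type := {p : ℕ × ℕ // p.1 ∣ Q ∧ p.2 ∣ M}

variable {Q M}

instance (i : Idx Q M) : NeZero i.1.1 :=
  ⟨fun h => NeZero.ne Q (Nat.eq_zero_of_zero_dvd (h ▸ i.2.1))⟩

instance (i : Idx Q M) : NeZero i.1.2 :=
  ⟨fun h => NeZero.ne M (Nat.eq_zero_of_zero_dvd (h ▸ i.2.2))⟩

/-- the involution of the index set. -/
def sw (i : Idx Q M) : Idx Q M := ⟨(Q / i.1.1, i.1.2), Nat.div_dvd_of_dvd i.2.1, i.2.2⟩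

omit [NeZero M] in
@[simp] theorem sw_sw (i : Idx Q M) : sw (sw i) = i := by
  apply Subtype.ext
  apply Prod.ext
  · exact Nat.div_div_self i.2.1 (NeZero.ne Q)
  · rfl

omit [NeZero Q] [NeZero M] in
/-- the matrices used in the transformation of `j(d τ)`. -/
theorem exists_matrix (hQM : Nat.Coprime Q M) : ∃ e b : ℤ, (Q : ℤ) * e - M * b = 1 := by
  have h := Nat.isCoprime_iff_coprime.mpr hQM
  obtain ⟨u, v, huv⟩ := h
  exact ⟨u, -v, by linarith⟩

/-- the matrix `γ_{d₁,d₂}`. -/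
def gam {e b : ℤ} (h : (Q : ℤ) * e - M * b = 1) (i : Idx Q M) : SL(2, ℤ) :=
  ⟨!![(i.1.1 : ℤ), (i.1.2 : ℤ) * b; ((M / i.1.2 : ℕ) : ℤ), ((Q / i.1.1 : ℕ) : ℤ) * e], by
    rw [Matrix.det_fin_two_of]
    have h1 : (i.1.1 : ℤ) * ((Q / i.1.1 : ℕ) : ℤ) = Q := by
      exact_mod_cast Nat.mul_div_cancel' i.2.1
    have h2 : (i.1.2 : ℤ) * ((M / i.1.2 : ℕ) : ℤ) = M := by
      exact_mod_cast Nat.mul_div_cancel' i.2.2
    calc (i.1.1 : ℤ) * (((Q / i.1.1 : ℕ) : ℤ) * e) - (i.1.2 : ℤ) * b * ((M / i.1.2 : ℕ) : ℤ)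
        = ((i.1.1 : ℤ) * ((Q / i.1.1 : ℕ) : ℤ)) * e - ((i.1.2 : ℤ) * ((M / i.1.2 : ℕ) : ℤ)) * b := by
          ring
      _ = 1 := by rw [h1, h2, h]⟩

/-- the first index -/
def idx1 : Idx Q M := ⟨(1, 1), one_dvd _, one_dvd _⟩

instance (i : Idx Q M) : NeZero (i.1.1 * i.1.2) := ⟨mul_ne_zero (NeZero.ne _) (NeZero.ne _)⟩

/-- the transformation `W τ` -/
def wt {e b : ℤ} (h : (Q : ℤ) * e - M * b = 1) (τ : ℍ) : ℍ := gam h idx1 • scl Q τ

theorem denom_ne_zero' {e b : ℤ} (_ : (Q : ℤ) * e - M * b = 1) (τ : ℍ) :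
    (M : ℂ) * (Q * τ) + Q * e ≠ 0 := by
  intro h0
  have hM : (0 : ℝ) < M := by exact_mod_cast Nat.pos_of_ne_zero (NeZero.ne M)
  have hQ : (0 : ℝ) < Q := by exact_mod_cast Nat.pos_of_ne_zero (NeZero.ne Q)
  have h1 := congrArg Complex.im h0
  simp only [Complex.add_im, Complex.mul_im, Complex.natCast_re, Complex.natCast_im,
    Complex.intCast_re, Complex.intCast_im, zero_mul, add_zero, mul_zero, Complex.zero_im] at h1
  have := τ.im_pos
  have h2 : (0 : ℝ) < M * (Q * τ.im) := by positivity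
  exact absurd h1 h2.ne'

theorem coe_gam_smul {e b : ℤ} (h : (Q : ℤ) * e - M * b = 1) (i : Idx Q M) (τ : ℍ) :
    ((gam h i • τ : ℍ) : ℂ) = ((i.1.1 : ℂ) * τ + i.1.2 * b) /
      ((M : ℂ) / i.1.2 * τ + (Q : ℂ) / i.1.1 * e) := by
  have hQ1 : ((i.1.1 : ℕ) : ℂ) ≠ 0 := by exact_mod_cast NeZero.ne i.1.1
  have hM1 : ((i.1.2 : ℕ) : ℂ) ≠ 0 := by exact_mod_cast NeZero.ne i.1.2
  have h1 : ((Q / i.1.1 : ℕ) : ℂ) = Q / i.1.1 := by
    rw [Nat.cast_div i.2.1 hQ1]
  have h2 : ((M / i.1.2 : ℕ) : ℂ) = M / i.1.2 := by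
    rw [Nat.cast_div i.2.2 hM1]
  have h3 : gam h i 0 0 = i.1.1 := rfl
  have h4 : gam h i 0 1 = i.1.2 * b := rfl
  have h5 : gam h i 1 0 = ((M / i.1.2 : ℕ) : ℤ) := rfl
  have h6 : gam h i 1 1 = ((Q / i.1.1 : ℕ) : ℤ) * e := rfl
  rw [UpperHalfPlane.coe_specialLinearGroup_apply, h3, h4, h5, h6, ← h1, ← h2]
  simp only [algebraMap_int_eq, eq_intCast]
  push_cast
  rfl

theorem coe_wt {e b : ℤ} (h : (Q : ℤ) * e - M * b = 1) (τ : ℍ) :
    ((wt h τ : ℍ) : ℂ) = (Q * τ + b) / (M * (Q * τ) + Q * e) := by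
  rw [wt, coe_gam_smul, coe_scl]
  simp [idx1]

theorem scl_wt {e b : ℤ} (h : (Q : ℤ) * e - M * b = 1) (τ : ℍ) (i : Idx Q M) :
    scl (i.1.1 * i.1.2) (wt h τ) = gam h i • scl ((sw i).1.1 * (sw i).1.2) τ := by
  apply UpperHalfPlane.ext
  rw [coe_scl, coe_wt, coe_gam_smul, coe_scl]
  have hd := denom_ne_zero' h τ
  have hQ1 : ((i.1.1 : ℕ) : ℂ) ≠ 0 := by exact_mod_cast NeZero.ne i.1.1
  have hM1 : ((i.1.2 : ℕ) : ℂ) ≠ 0 := by exact_mod_cast NeZero.ne i.1.2
  have hs1 : (((sw i).1.1 : ℕ) : ℂ) = Q / i.1.1 := by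
    rw [sw, Nat.cast_div i.2.1 hQ1]
  have hs2 : (sw i).1.2 = i.1.2 := rfl
  have hd2 : (M : ℂ) / i.1.2 * (((((sw i).1.1 * (sw i).1.2 : ℕ)) : ℂ) * τ) + (Q : ℂ) / i.1.1 * e =
      (M * (Q * τ) + Q * e) / i.1.1 := by
    rw [hs2]
    push_cast
    rw [hs1]
    field_simp
  rw [hd2, hs2]
  push_cast
  rw [hs1]
  field_simp

/-- The values of `j(d τ)` at the transformed point. -/
theorem jf_scl_wt {e b : ℤ} (h : (Q : ℤ) * e - M * b = 1) (τ : ℍ) (i : Idx Q M) :
    jf (scl (i.1.1 * i.1.2) (wt h τ)) = jf (scl ((sw i).1.1 * (sw i).1.2) τ) := by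
  rw [scl_wt, jf_smul]

variable (Q M) in
/-- the generators -/
def gen (R : Type*) [CommRing R] (i : Idx Q M) : LaurentSeries R := jd R (i.1.1 * i.1.2)

theorem isExp_gen (i : Idx Q M) : IsExp 1 (fun τ => jf (scl (i.1.1 * i.1.2) τ)) (gen Q M ℂ i) :=
  isExp_jf.comp_scl _

omit [NeZero Q] [NeZero M] in
theorem isExp_aeval (f : Idx Q M → ℍ → ℂ) (F : Idx Q M → LaurentSeries ℂ)
    (hf : ∀ i, IsExp 1 (f i) (F i)) (P : MvPolynomial (Idx Q M) ℂ) :
    IsExp 1 (fun τ => MvPolynomial.aeval (fun i => f i τ) P) (MvPolynomial.aeval F P) := by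
  induction P using MvPolynomial.induction_on with
  | C a =>
    simp only [MvPolynomial.algHom_C, Algebra.algebraMap_self, RingHom.id_apply]
    have h1 : algebraMap ℂ (LaurentSeries ℂ) a = HahnSeries.C a := by
      rw [algebraMap_laurentSeries_eq_single]
      rfl
    rw [h1]
    exact IsExp.const a
  | add P Q' hP hQ =>
    simp only [map_add]
    exact hP.add hQ
  | mul_X P i hP =>
    simp only [map_mul, MvPolynomial.aeval_X]
    exact hP.mul (hf i)

theorem aeval_gen_sw_complex (hQM : Nat.Coprime Q M) (P : MvPolynomial (Idx Q M) ℂ)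
    (hP : MvPolynomial.aeval (gen Q M ℂ) P = 0) :
    MvPolynomial.aeval (fun i => gen Q M ℂ (sw i)) P = 0 := by
  obtain ⟨e, b, h⟩ := exists_matrix hQM
  have h1 := isExp_aeval _ _ isExp_gen P
  rw [hP] at h1
  have h2 : ∀ τ : ℍ, MvPolynomial.aeval (fun i : Idx Q M => jf (scl (i.1.1 * i.1.2) τ)) P = 0 := by
    intro τ
    exact (h1 τ).unique (by simp)
  have h3 := isExp_aeval _ _ (fun i => isExp_gen (sw i)) P
  have h4 : (fun τ => MvPolynomial.aeval (fun i : Idx Q M =>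
      jf (scl ((sw i).1.1 * (sw i).1.2) τ)) P) = fun _ => 0 := by
    funext τ
    have := h2 (wt h τ)
    simp only [jf_scl_wt] at this
    exact this
  rw [h4] at h3
  exact h3.eq_zero one_pos

end Functions

section Algebraic

variable {Q M : ℕ} [NeZero Q] [NeZero M] (K : Type*) [Field K] [Algebra ℚ K]
  [Algebra.IsAlgebraic ℚ K]

omit [Algebra ℚ K] [Algebra.IsAlgebraic ℚ K] in
theorem coeffMap_gen {R S : Type*} [CommRing R] [CommRing S] (f : R →+* S) (i : Idx Q M) :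
    coeffMap f (gen Q M R i) = gen Q M S i := coeffMap_jd f _

omit [Algebra ℚ K] [Algebra.IsAlgebraic ℚ K] in
theorem coeffMap_aeval {L : Type*} [Field L] (σ : K →+* L) {ι : Type*}
    (u : ι → LaurentSeries K) (v : ι → LaurentSeries L) (h : ∀ i, coeffMap σ (u i) = v i)
    (P : MvPolynomial ι K) :
    coeffMap σ (MvPolynomial.aeval u P) = MvPolynomial.aeval v (MvPolynomial.map σ P) := by
  rw [MvPolynomial.aeval_def, MvPolynomial.aeval_def, MvPolynomial.eval₂_map,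
    MvPolynomial.hom_eval₂]
  congr 1
  · ext c n
    simp only [RingHom.comp_apply, algebraMap_laurentSeries_eq_single, coeffMap_single]
  · funext i
    exact h i

theorem aeval_gen_sw (hQM : Nat.Coprime Q M) (P : MvPolynomial (Idx Q M) K)
    (hP : MvPolynomial.aeval (gen Q M K) P = 0) :
    MvPolynomial.aeval (fun i => gen Q M K (sw i)) P = 0 := by
  let σ : K →+* ℂ := ((IsAlgClosed.lift : K →ₐ[ℚ] ℂ) : K →+* ℂ)
  have h1 := coeffMap_aeval K σ (gen Q M K) (gen Q M ℂ) (coeffMap_gen σ) P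
  rw [hP, map_zero] at h1
  have h2 := aeval_gen_sw_complex hQM _ h1.symm
  have h3 := coeffMap_aeval K σ (fun i => gen Q M K (sw i)) (fun i => gen Q M ℂ (sw i))
    (fun i => coeffMap_gen σ (sw i)) P
  rw [h2] at h3
  exact coeffMap_injective σ σ.injective (by rw [h3, map_zero])

theorem aeval_gen_sw_iff (hQM : Nat.Coprime Q M) (P : MvPolynomial (Idx Q M) K) :
    MvPolynomial.aeval (fun i => gen Q M K (sw i)) P = 0 ↔
      MvPolynomial.aeval (gen Q M K) P = 0 := by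
  refine ⟨fun h => ?_, aeval_gen_sw K hQM P⟩
  have h1 := aeval_gen_sw K hQM (MvPolynomial.rename sw P)
    (by rw [MvPolynomial.aeval_rename]; exact h)
  rw [MvPolynomial.aeval_rename] at h1
  convert h1 using 2
  congr 1
  funext i
  simp

theorem exists_wRing (hQM : Nat.Coprime Q M) :
    ∃ φ : Algebra.adjoin K (Set.range (gen Q M K)) →ₐ[K] LaurentSeries K,
      Function.Injective φ ∧ ∀ i, φ ⟨gen Q M K i, Algebra.subset_adjoin ⟨i, rfl⟩⟩ =
        gen Q M K (sw i) := by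
  let f : MvPolynomial (Idx Q M) K →ₐ[K] Algebra.adjoin K (Set.range (gen Q M K)) :=
    MvPolynomial.aeval fun i => ⟨gen Q M K i, Algebra.subset_adjoin ⟨i, rfl⟩⟩
  have hf : ∀ P, ((f P : Algebra.adjoin K (Set.range (gen Q M K))) : LaurentSeries K) =
      MvPolynomial.aeval (gen Q M K) P := fun P => by
    have : (Algebra.adjoin K (Set.range (gen Q M K))).val.comp f =
        MvPolynomial.aeval (gen Q M K) := by
      apply MvPolynomial.algHom_ext
      intro i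
      simp [f]
    exact congrArg (fun φ : MvPolynomial (Idx Q M) K →ₐ[K] LaurentSeries K => φ P) this
  have hsurj : Function.Surjective f := by
    rintro ⟨x, hx⟩
    rw [Algebra.adjoin_range_eq_range_aeval] at hx
    obtain ⟨P, hP⟩ := hx
    exact ⟨P, Subtype.ext ((hf P).trans hP)⟩
  have hker : ∀ P, f P = 0 → MvPolynomial.aeval (gen Q M K) P = 0 := fun P h1 => by
    rw [← hf, h1]; rfl
  let g : MvPolynomial (Idx Q M) K ⧸ RingHom.ker f →ₐ[K] LaurentSeries K :=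
    Ideal.Quotient.liftₐ (RingHom.ker f) (MvPolynomial.aeval fun i => gen Q M K (sw i))
      (fun P hP => aeval_gen_sw K hQM P (hker P hP))
  let e := Ideal.quotientKerAlgEquivOfSurjective hsurj
  have hfe : ∀ P, e (Ideal.Quotient.mk _ P) = f P := fun P => rfl
  have hg : ∀ P, (g.comp e.symm.toAlgHom) (f P) =
      MvPolynomial.aeval (fun i => gen Q M K (sw i)) P := by
    intro P
    rw [← hfe]
    change g (e.symm (e _)) = _
    rw [AlgEquiv.symm_apply_apply]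
    rfl
  refine ⟨g.comp e.symm.toAlgHom, ?_, ?_⟩
  · rw [injective_iff_map_eq_zero]
    intro x hx
    obtain ⟨P, rfl⟩ := hsurj x
    rw [hg, aeval_gen_sw_iff K hQM] at hx
    exact Subtype.ext ((hf P).trans hx)
  · intro i
    have := hg (MvPolynomial.X i)
    simpa [f] using this

open scoped IntermediateField.algebraAdjoinAdjoin in
theorem exists_wHom (hQM : Nat.Coprime Q M) :
    ∃ φ : IntermediateField.adjoin K (Set.range (gen Q M K)) →ₐ[K] LaurentSeries K,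
      ∀ i, φ ⟨gen Q M K i, IntermediateField.subset_adjoin K _ ⟨i, rfl⟩⟩ = gen Q M K (sw i) := by
  obtain ⟨φ, hφ, h⟩ := exists_wRing K hQM
  refine ⟨IsFractionRing.liftAlgHom (A := Algebra.adjoin K (Set.range (gen Q M K))) hφ, ?_⟩
  intro i
  rw [IsFractionRing.liftAlgHom_apply]
  have : (⟨gen Q M K i, IntermediateField.subset_adjoin K _ ⟨i, rfl⟩⟩ :
      IntermediateField.adjoin K (Set.range (gen Q M K))) =
      algebraMap (Algebra.adjoin K (Set.range (gen Q M K))) _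
        ⟨gen Q M K i, Algebra.subset_adjoin ⟨i, rfl⟩⟩ := rfl
  rw [this, IsFractionRing.lift_algebraMap]
  exact h i

end Algebraic

section Field

variable (Q M : ℕ) [NeZero Q] [NeZero M] (K : Type*) [Field K]

theorem range_gen : Set.range (gen Q M K) = divisorExpansionsC K (M * Q) := by
  ext x
  constructor
  · rintro ⟨i, rfl⟩
    refine ⟨i.1.1 * i.1.2, inferInstance, ?_, rfl⟩
    rw [mul_comm M Q]
    exact mul_dvd_mul i.2.1 i.2.2
  · rintro ⟨d, hd, hdvd, rfl⟩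
    rw [mul_comm M Q, Nat.dvd_mul] at hdvd
    obtain ⟨y, z, hy, hz, rfl⟩ := hdvd
    exact ⟨⟨(y, z), hy, hz⟩, rfl⟩

theorem adjoin_range_gen : IntermediateField.adjoin K (Set.range (gen Q M K)) =
    modularFunctionFieldFullC K (M * Q) := by
  rw [range_gen]
  rfl

variable [Algebra ℚ K] [Algebra.IsAlgebraic ℚ K]

variable {Q M}

theorem gen_mem (i : Idx Q M) : gen Q M K i ∈ modularFunctionFieldFullC K (M * Q) := by
  rw [← adjoin_range_gen]
  exact IntermediateField.subset_adjoin K _ ⟨i, rfl⟩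

theorem exists_w (hQM : Nat.Coprime Q M) :
    ∃ w : modularFunctionFieldFullC K (M * Q) →ₐ[K] modularFunctionFieldFullC K (M * Q),
      ∀ i, w ⟨gen Q M K i, gen_mem K i⟩ = ⟨gen Q M K (sw i), gen_mem K _⟩ := by
  obtain ⟨φ, hφ⟩ := exists_wHom K hQM
  let φ' : modularFunctionFieldFullC K (M * Q) →ₐ[K] LaurentSeries K :=
    φ.comp (IntermediateField.equivOfEq (adjoin_range_gen Q M K).symm).toAlgHom
  have hφ' : ∀ i, φ' ⟨gen Q M K i, gen_mem K i⟩ = gen Q M K (sw i) := fun i => hφ i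
  have hrange : ∀ x, φ' x ∈ modularFunctionFieldFullC K (M * Q) := by
    intro x
    have h1 : (modularFunctionFieldFullC K (M * Q)) ≤
        (((modularFunctionFieldFullC K (M * Q)).comap φ').map
          (modularFunctionFieldFullC K (M * Q)).val) := by
      conv_lhs => rw [modularFunctionFieldFullC]
      rw [IntermediateField.adjoin_le_iff, ← range_gen]
      rintro _ ⟨i, rfl⟩
      refine ⟨⟨gen Q M K i, gen_mem K i⟩, ?_, rfl⟩
      change φ' _ ∈ modularFunctionFieldFullC K (M * Q)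
      rw [hφ' i]
      exact gen_mem K _
    obtain ⟨y, hy, hyx⟩ := h1 x.2
    have : y = x := Subtype.ext hyx
    rw [← this]
    exact hy
  refine ⟨φ'.codRestrict (modularFunctionFieldFullC K (M * Q)).toSubalgebra hrange, ?_⟩
  intro i
  exact Subtype.ext (hφ' i)

/-- algebra homomorphisms out of the modular function field agreeing on generators agree. -/
theorem algHom_ext_gen {L : Type*} [Field L] [Algebra K L]
    {f g : modularFunctionFieldFullC K (M * Q) →ₐ[K] L}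
    (h : ∀ i : Idx Q M, f ⟨gen Q M K i, gen_mem K i⟩ = g ⟨gen Q M K i, gen_mem K i⟩) : f = g := by
  apply IntermediateField.adjoin_algHom_ext
  intro x hx
  have hx' := hx
  rw [← range_gen] at hx'
  obtain ⟨i, rfl⟩ := hx'
  exact h i

/-- **The Atkin–Lehner automorphism** `w_Q` of the function field of `X₀(M Q)`. -/
def wHom (hQM : Nat.Coprime Q M) :
    modularFunctionFieldFullC K (M * Q) →ₐ[K] modularFunctionFieldFullC K (M * Q) :=
  (exists_w K hQM).choose

theorem wHom_gen (hQM : Nat.Coprime Q M) (i : Idx Q M) :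
    wHom K hQM ⟨gen Q M K i, gen_mem K i⟩ = ⟨gen Q M K (sw i), gen_mem K _⟩ :=
  (exists_w K hQM).choose_spec i

theorem wHom_wHom (hQM : Nat.Coprime Q M) (x : modularFunctionFieldFullC K (M * Q)) :
    wHom K hQM (wHom K hQM x) = x := by
  have : (wHom K hQM).comp (wHom K hQM) = AlgHom.id K _ := by
    apply algHom_ext_gen K (Q := Q) (M := M)
    intro i
    rw [AlgHom.comp_apply, wHom_gen, wHom_gen]
    apply Subtype.ext
    change gen Q M K (sw (sw i)) = gen Q M K i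
    rw [sw_sw]
  exact congrArg (fun f : modularFunctionFieldFullC K (M * Q) →ₐ[K] _ => f x) this

/-- The Atkin–Lehner automorphism. -/
def wQ (hQM : Nat.Coprime Q M) :
    modularFunctionFieldFullC K (M * Q) ≃ₐ[K] modularFunctionFieldFullC K (M * Q) :=
  AlgEquiv.ofAlgHom (wHom K hQM) (wHom K hQM)
    (AlgHom.ext fun x => wHom_wHom K hQM x) (AlgHom.ext fun x => wHom_wHom K hQM x)

@[simp] theorem wQ_wQ (hQM : Nat.Coprime Q M) (x : modularFunctionFieldFullC K (M * Q)) :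
    wQ K hQM (wQ K hQM x) = x := wHom_wHom K hQM x

theorem wQ_gen (hQM : Nat.Coprime Q M) (i : Idx Q M) :
    wQ K hQM ⟨gen Q M K i, gen_mem K i⟩ = ⟨gen Q M K (sw i), gen_mem K _⟩ := wHom_gen K hQM i

/-- `w_Q(j(q^{d₁ d₂})) = j(q^{(Q/d₁) d₂})`. -/
theorem coe_wQ_jd (hQM : Nat.Coprime Q M) {d₁ d₂ : ℕ} [NeZero d₁] [NeZero d₂] [NeZero (d₁ * d₂)]
    [NeZero (Q / d₁ * d₂)]
    (h1 : d₁ ∣ Q) (h2 : d₂ ∣ M) (h : jd K (d₁ * d₂) ∈ modularFunctionFieldFullC K (M * Q)) :
    (wQ K hQM ⟨jd K (d₁ * d₂), h⟩ : LaurentSeries K) = jd K (Q / d₁ * d₂) :=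
  congrArg Subtype.val (wQ_gen K hQM ⟨(d₁, d₂), h1, h2⟩)

theorem coe_wQ_jd' (hQM : Nat.Coprime Q M) {d e : ℕ} [NeZero d] [NeZero e] {d₁ d₂ : ℕ}
    (h1 : d₁ ∣ Q) (h2 : d₂ ∣ M) (hd : d₁ * d₂ = d) (he : Q / d₁ * d₂ = e)
    (h : jd K d ∈ modularFunctionFieldFullC K (M * Q)) :
    (wQ K hQM ⟨jd K d, h⟩ : LaurentSeries K) = jd K e := by
  subst hd he
  haveI : NeZero d₁ := ⟨fun h => NeZero.ne (d₁ * d₂) (by rw [h, zero_mul])⟩
  haveI : NeZero d₂ := ⟨fun h => NeZero.ne (d₁ * d₂) (by rw [h, mul_zero])⟩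
  exact coe_wQ_jd K hQM h1 h2 h

theorem qExpand_mem (x : LaurentSeries K) (hx : x ∈ modularFunctionFieldFullC K M) :
    qExpand K Q x ∈ modularFunctionFieldFullC K (M * Q) :=
  full_degeneracyC_map_le K M Q ⟨x, hx, rfl⟩

theorem mem_of_mem (x : LaurentSeries K) (hx : x ∈ modularFunctionFieldFullC K M) :
    x ∈ modularFunctionFieldFullC K (M * Q) :=
  full_degeneracyC_le K (dvd_mul_right M Q) hx

/-- On functions of level `M`, `w_Q` is `q ↦ q^Q`. -/
theorem coe_wQ_of_mem (hQM : Nat.Coprime Q M) (x : LaurentSeries K)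
    (hx : x ∈ modularFunctionFieldFullC K M) :
    (wQ K hQM ⟨x, mem_of_mem K x hx⟩ : LaurentSeries K) = qExpand K Q x := by
  let f : modularFunctionFieldFullC K M →ₐ[K] LaurentSeries K :=
    ((modularFunctionFieldFullC K (M * Q)).val.comp (wHom K hQM)).comp
      (IntermediateField.inclusion (full_degeneracyC_le K (dvd_mul_right M Q)))
  let g : modularFunctionFieldFullC K M →ₐ[K] LaurentSeries K :=
    (qExpandAlgHomC K Q).comp (modularFunctionFieldFullC K M).val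
  have : f = g := by
    apply IntermediateField.adjoin_algHom_ext
    rintro y ⟨d, hd, hdvd, rfl⟩
    change (wQ K hQM ⟨jd K d, _⟩ : LaurentSeries K) = qExpand K Q (jd K d)
    rw [qExpand_jd]
    exact coe_wQ_jd' K hQM (one_dvd Q) hdvd (one_mul d) (by rw [Nat.div_one]) _
  exact congrArg (fun f : modularFunctionFieldFullC K M →ₐ[K] LaurentSeries K => f ⟨x, hx⟩) this

/-- `w_Q` maps `x(q^Q)` to `x`, for `x` of level `M`. -/
theorem coe_wQ_qExpand (hQM : Nat.Coprime Q M) (x : LaurentSeries K)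
    (hx : x ∈ modularFunctionFieldFullC K M) :
    (wQ K hQM ⟨qExpand K Q x, qExpand_mem K x hx⟩ : LaurentSeries K) = x := by
  have h1 := coe_wQ_of_mem K hQM x hx
  have h2 : (⟨qExpand K Q x, qExpand_mem K x hx⟩ : modularFunctionFieldFullC K (M * Q)) =
      wQ K hQM ⟨x, mem_of_mem K x hx⟩ := Subtype.ext h1.symm
  rw [h2, wQ_wQ]

end Field

end Fermat.Agent.Q
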