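import Fermat.Agent.Q.Frobenius

/-!
# The residue field of the Gauss valuation at level `M r`, `r` the residue characteristic
-/

set_option autoImplicit false
set_option linter.style.haveILetI false

noncomputable section

namespace Fermat.Agent.Q

open ModularCurve HahnSeries Fermat.Agent.Igusa

local notation "kk" => IsLocalRing.ResidueField

variable {K : Type*} [Field K] {A : ValuationSubring K} [CharZero K] [Algebra ℚ K]
  [Algebra.IsAlgebraic ℚ K]

omit [CharZero K] [Algebra ℚ K] [Algebra.IsAlgebraic ℚ K] in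
theorem natCast_residue_ne_zero {r : ℕ} (hr : r.Prime) (hA : A.LiesOverPrime r) {M : ℕ}
    (hM : Nat.Coprime r M) : (M : kk A) ≠ 0 := by
  haveI := H05.charP_residueField hr hA
  intro h
  rw [CharP.cast_eq_zero_iff (kk A) r] at h
  exact (hr.coprime_iff_not_dvd.mp hM) h

theorem card_le_relrank_of_red' {ℓ : ℕ} (hℓ : ℓ.Prime) (hA : A.LiesOverPrime ℓ)
    {E F : IntermediateField K (LaurentSeries K)} (hEF : E ≤ F)
    (Θ : F →ₐ[K] LaurentSeries K) (hFL : ∀ x, Θ x ∈ FL A) {κ : Set (LaurentSeries (kk A))}
    (hκ : ∀ c : F, (c : LaurentSeries K) ∈ E → ∀ u, Red A (Θ c) u → u ∈ κ)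
    {ι : Type*} [Fintype ι] (x : ι → F) (u : ι → LaurentSeries (kk A))
    (hx : ∀ i, Red A (Θ (x i)) (u i))
    (hind : ∀ v : ι → LaurentSeries (kk A), (∀ i, v i ∈ κ) → ∑ i, v i * u i = 0 →
      ∀ i, v i = 0) : (Fintype.card ι : Cardinal) ≤ E.relrank F := by
  let e := Fintype.equivFin ι
  refine card_le_relrank_of_red hℓ hA hEF Θ hFL hκ (fun i => x (e.symm i))
    (fun i => u (e.symm i)) (fun i => hx _) ?_
  intro v hv hsum i
  have h1 := hind (fun j => v (e j)) (fun j => hv _) (by
    rw [← hsum]
    exact Fintype.sum_equiv e _ _ (fun j => by simp)) (e.symm i)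
  simpa using h1

/-- **Residue field, level `M r`.** -/
theorem red_mem_full_mul {r : ℕ} [hr : Fact r.Prime] (hA : A.LiesOverPrime r) {M : ℕ} [NeZero M]
    (hrM : Nat.Coprime r M) {z : LaurentSeries K}
    (hz : z ∈ modularFunctionFieldFullC K (M * r)) {u : LaurentSeries (kk A)} (hu : Red A z u) :
    u ∈ modularFunctionFieldFullC (kk A) M := by
  classical
  haveI := H05.charP_residueField hr.out hA
  by_contra hcon
  have hMk := natCast_residue_ne_zero hr.out hA hrM
  have hrM' : ¬ r ∣ M := hr.out.coprime_iff_not_dvd.mp hrM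
  let Θ : modularFunctionFieldFullC K (M * r) →ₐ[K] LaurentSeries K :=
    (modularFunctionFieldFullC K (M * r)).val.comp (wHom K hrM)
  have hΘ : ∀ x, Θ x = (wQ K hrM x : LaurentSeries K) := fun x => rfl
  have hΘw : ∀ x, Θ (wQ K hrM x) = (x : LaurentSeries K) := fun x => by
    rw [hΘ, wQ_wQ]
  let κ : Set (LaurentSeries (kk A)) :=
    {v | ∃ w ∈ modularFunctionFieldFullC (kk A) M, v = qExpand (kk A) r w}
  -- the family
  let x : Fin r ⊕ Fin r → modularFunctionFieldFullC K (M * r) :=
    Sum.elim (fun i => wQ K hrM (⟨jd K 1, jd_mem_full (one_dvd _)⟩ ^ (i : ℕ)))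
      (fun i => wQ K hrM (⟨jd K 1, jd_mem_full (one_dvd _)⟩ ^ (i : ℕ) * ⟨z, hz⟩))
  let w : Fin r ⊕ Fin r → LaurentSeries (kk A) :=
    Sum.elim (fun i => jqModC (kk A) ^ (i : ℕ)) (fun i => jqModC (kk A) ^ (i : ℕ) * u)
  have hj : Red A (jd K 1) (jqModC (kk A)) := by
    have := red_jd (A := A) 1
    rwa [jd_one (R := kk A)] at this
  have hjmem : jqModC (kk A) ∈ modularFunctionFieldFullC (kk A) M := jqModC_mem_full (kk A) M
  have hcard := card_le_relrank_of_red' hr.out hA (full_degeneracyC_le K (dvd_mul_right M r)) Θ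
    (fun c => full_le_FL (M * r) (wQ K hrM c).2) (κ := κ) (by
      intro c hc v hv
      have hΘc : Θ c = qExpand K r c := coe_wQ_of_mem K hrM c hc
      rw [hΘc] at hv
      by_cases hc0 : (c : LaurentSeries K) = 0
      · rw [hc0, map_zero] at hv
        exact ⟨0, zero_mem _, by rw [map_zero]; exact hv.unique Red.zero⟩
      obtain ⟨d, hd, v', hv', hrv⟩ := exists_red hr.out hA (full_le_FL M hc) hc0
      have hmem := red_mem_full hr.out hA hMk
        (mul_mem (by rw [← algebraMap_eq_C]; exact (modularFunctionFieldFullC K M).algebraMap_mem d)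
          hc) hrv
      have h1 := hrv.qExpand r
      have h2 : qExpand K r (c : LaurentSeries K) =
          HahnSeries.C d⁻¹ * qExpand K r (HahnSeries.C d * (c : LaurentSeries K)) := by
        rw [map_mul, qExpand_C, ← mul_assoc, ← map_mul, inv_mul_cancel₀ hd, map_one, one_mul]
      rw [h2] at hv
      obtain ⟨he, rfl⟩ := hv.scale h1 ((map_ne_zero _).mpr hv')
      refine ⟨HahnSeries.C (IsLocalRing.residue A ⟨d⁻¹, he⟩) * v', mul_mem ?_ hmem, ?_⟩
      · rw [← algebraMap_eq_C]; exact (modularFunctionFieldFullC (kk A) M).algebraMap_mem _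
      · rw [map_mul, qExpand_C]) x w (by
      rintro (i | i)
      · simp only [x, w, Sum.elim_inl]
        rw [hΘw]
        push_cast
        exact hj.pow i
      · simp only [x, w, Sum.elim_inr]
        rw [hΘw]
        push_cast
        exact (hj.pow i).mul hu) (by
      intro v hv hsum
      choose y hy hyv using hv
      have hyv' : v = fun i => qExpand (kk A) r (y i) := funext hyv
      subst hyv'
      rw [Fintype.sum_sum_type] at hsum
      simp only [w, Sum.elim_inl, Sum.elim_inr] at hsum
      have hmem : ∀ f : Fin r → LaurentSeries (kk A),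
          (∀ i, f i ∈ modularFunctionFieldFullC (kk A) M) →
          ∑ i, qExpand (kk A) r (f i) * jqModC (kk A) ^ (i : ℕ) ∈
            modularFunctionFieldFullC (kk A) M := fun f hf =>
        sum_mem fun i _ => mul_mem (qExpand_char_mem r M (hf i)) (pow_mem hjmem _)
      have hS1 := hmem (fun i => y (Sum.inl i)) (fun i => hy _)
      have hS2 := hmem (fun i => y (Sum.inr i)) (fun i => hy _)
      have hsum2 : ∑ i, qExpand (kk A) r (y (Sum.inr i)) * (jqModC (kk A) ^ (i : ℕ) * u) =
          (∑ i, qExpand (kk A) r (y (Sum.inr i)) * jqModC (kk A) ^ (i : ℕ)) * u := by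
        rw [Finset.sum_mul]
        exact Finset.sum_congr rfl fun i _ => by ring
      rw [hsum2] at hsum
      have hz2 : ∑ i, qExpand (kk A) r (y (Sum.inr i)) * jqModC (kk A) ^ (i : ℕ) = 0 := by
        by_contra hne
        apply hcon
        have : u = -(∑ i, qExpand (kk A) r (y (Sum.inl i)) * jqModC (kk A) ^ (i : ℕ)) /
            (∑ i, qExpand (kk A) r (y (Sum.inr i)) * jqModC (kk A) ^ (i : ℕ)) := by
          rw [eq_div_iff hne]
          linear_combination hsum
        rw [this]
        exact div_mem (neg_mem hS1) hS2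
      rw [hz2, zero_mul, add_zero] at hsum
      have h3 := qExpand_indep r _ hsum
      have h4 := qExpand_indep r _ hz2
      rintro (i | i)
      · change qExpand (kk A) r (y (Sum.inl i)) = 0
        rw [h3 i, map_zero]
      · change qExpand (kk A) r (y (Sum.inr i)) = 0
        rw [h4 i, map_zero])
  rw [relrank_incl K M r hrM', Fintype.card_sum, Fintype.card_fin] at hcard
  have h5 : r + r ≤ r + 1 := by exact_mod_cast hcard
  have := hr.out.two_le
  omega

end Fermat.Agent.Q
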