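import Fermat.Agent.Q.Residue2
import Fermat.Agent.H05.HeckeInputs

/-!
# The Atkin–Lehner involution on `J₀(M r)`, and Galois
-/

set_option autoImplicit false
set_option linter.style.haveILetI false

noncomputable section

namespace Fermat.Agent.Q

open ModularCurve HahnSeries Fermat.Agent.Igusa AlgebraicCurve

section Coeff

variable {k : Type*} [Field k]

theorem coeffMap_mem_full (σ : k →+* k) (M : ℕ) {x : LaurentSeries k}
    (hx : x ∈ modularFunctionFieldFullC k M) :
    coeffMap σ x ∈ modularFunctionFieldFullC k M := by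
  change x ∈ Subfield.closure (Set.range (algebraMap k (LaurentSeries k)) ∪
    divisorExpansionsC k M) at hx
  induction hx using Subfield.closure_induction with
  | mem y hy =>
    rcases hy with ⟨a, rfl⟩ | ⟨d, hd, hdvd, rfl⟩
    · rw [coeffMap_algebraMap]
      exact (modularFunctionFieldFullC k M).algebraMap_mem _
    · rw [show qExpand k d (jqModC k) = jd k d from rfl, coeffMap_jd]
      exact jd_mem_full hdvd
  | one => rw [map_one]; exact one_mem _
  | add x y _ _ hx hy =>
    rw [map_add]
    exact add_mem hx hy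
  | neg x _ hx => rw [map_neg]; exact neg_mem hx
  | inv x _ hx => rw [map_inv₀]; exact inv_mem hx
  | mul x y _ _ hx hy =>
    rw [map_mul]
    exact mul_mem hx hy

end Coeff

variable {K : Type*} [Field K] [CharZero K] [Algebra ℚ K] [Algebra.IsAlgebraic ℚ K]
variable {M Q : ℕ} [NeZero M] [NeZero Q]

/-- The Atkin–Lehner automorphism commutes with the Galois action on coefficients. -/
theorem coeffMap_wQ (hQM : Nat.Coprime Q M) (σ : K →+* K) {x : LaurentSeries K}
    (hx : x ∈ modularFunctionFieldFullC K (M * Q)) :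
    ∀ (h : x ∈ modularFunctionFieldFullC K (M * Q))
      (h' : coeffMap σ x ∈ modularFunctionFieldFullC K (M * Q)),
      coeffMap σ (wQ K hQM ⟨x, h⟩ : LaurentSeries K) =
        (wQ K hQM ⟨coeffMap σ x, h'⟩ : LaurentSeries K) := by
  change x ∈ Subfield.closure (Set.range (algebraMap K (LaurentSeries K)) ∪
    divisorExpansionsC K (M * Q)) at hx
  induction hx using Subfield.closure_induction with
  | mem y hy =>
    intro h h'
    rcases hy with ⟨a, rfl⟩ | hy
    · have h1 : (⟨algebraMap K (LaurentSeries K) a, h⟩ : modularFunctionFieldFullC K (M * Q)) =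
          algebraMap K _ a := rfl
      have h2 : (⟨coeffMap σ (algebraMap K (LaurentSeries K) a), h'⟩ :
          modularFunctionFieldFullC K (M * Q)) = algebraMap K _ (σ a) :=
        Subtype.ext (coeffMap_algebraMap σ a)
      rw [h1, h2, AlgEquiv.commutes, AlgEquiv.commutes]
      exact coeffMap_algebraMap σ a
    · rw [← range_gen] at hy
      obtain ⟨i, rfl⟩ := hy
      have h2 : (⟨coeffMap σ (gen Q M K i), h'⟩ : modularFunctionFieldFullC K (M * Q)) =
          ⟨gen Q M K i, h⟩ := Subtype.ext (coeffMap_gen σ i)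
      rw [h2, wQ_gen]
      exact coeffMap_gen σ _
  | one =>
    intro h h'
    have h1 : (⟨1, h⟩ : modularFunctionFieldFullC K (M * Q)) = 1 := rfl
    have h2 : (⟨coeffMap σ 1, h'⟩ : modularFunctionFieldFullC K (M * Q)) = 1 :=
      Subtype.ext (map_one _)
    rw [h1, h2, map_one]
    exact map_one _
  | add x y hx1 hy1 hx hy =>
    intro h h'
    have mx := coeffMap_mem_full σ (M * Q) hx1
    have my := coeffMap_mem_full σ (M * Q) hy1
    have h1 : (⟨x + y, h⟩ : modularFunctionFieldFullC K (M * Q)) = ⟨x, hx1⟩ + ⟨y, hy1⟩ := rfl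
    have h2 : (⟨coeffMap σ (x + y), h'⟩ : modularFunctionFieldFullC K (M * Q)) =
        ⟨coeffMap σ x, mx⟩ + ⟨coeffMap σ y, my⟩ := Subtype.ext (map_add _ _ _)
    rw [h1, h2, map_add, map_add]
    push_cast
    rw [map_add, hx hx1 mx, hy hy1 my]
  | neg x hx1 hx =>
    intro h h'
    have mx := coeffMap_mem_full σ (M * Q) hx1
    have h1 : (⟨-x, h⟩ : modularFunctionFieldFullC K (M * Q)) = -⟨x, hx1⟩ := rfl
    have h2 : (⟨coeffMap σ (-x), h'⟩ : modularFunctionFieldFullC K (M * Q)) =
        -⟨coeffMap σ x, mx⟩ := Subtype.ext (map_neg _ _)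
    rw [h1, h2, map_neg, map_neg]
    push_cast
    rw [map_neg, hx hx1 mx]
  | inv x hx1 hx =>
    intro h h'
    have mx := coeffMap_mem_full σ (M * Q) hx1
    have h1 : (⟨x⁻¹, h⟩ : modularFunctionFieldFullC K (M * Q)) = (⟨x, hx1⟩)⁻¹ := rfl
    have h2 : (⟨coeffMap σ x⁻¹, h'⟩ : modularFunctionFieldFullC K (M * Q)) =
        (⟨coeffMap σ x, mx⟩)⁻¹ := Subtype.ext (map_inv₀ _ _)
    rw [h1, h2, map_inv₀, map_inv₀]
    push_cast
    rw [map_inv₀, hx hx1 mx]
  | mul x y hx1 hy1 hx hy =>
    intro h h'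
    have mx := coeffMap_mem_full σ (M * Q) hx1
    have my := coeffMap_mem_full σ (M * Q) hy1
    have h1 : (⟨x * y, h⟩ : modularFunctionFieldFullC K (M * Q)) = ⟨x, hx1⟩ * ⟨y, hy1⟩ := rfl
    have h2 : (⟨coeffMap σ (x * y), h'⟩ : modularFunctionFieldFullC K (M * Q)) =
        ⟨coeffMap σ x, mx⟩ * ⟨coeffMap σ y, my⟩ := Subtype.ext (map_mul _ _ _)
    rw [h1, h2, map_mul, map_mul]
    push_cast
    rw [map_mul, hx hx1 mx, hy hy1 my]

section Transport

variable {F E : Type*} [Field F] [Field E] [Algebra F E]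

/-- transport of an automorphism along an equality of intermediate fields. -/
def transport {S T : IntermediateField F E} (h : S = T) (w : T ≃ₐ[F] T) : S ≃ₐ[F] S :=
  (IntermediateField.equivOfEq h).trans (w.trans (IntermediateField.equivOfEq h).symm)

theorem coe_transport {S T : IntermediateField F E} (h : S = T) (w : T ≃ₐ[F] T) (x : S)
    (hx : (x : E) ∈ T) : (transport h w x : E) = w ⟨x, hx⟩ := rfl

theorem transport_transport {S T : IntermediateField F E} (h : S = T) (w : T ≃ₐ[F] T)
    (hw : ∀ x, w (w x) = x) (x : S) : transport h w (transport h w x) = x := by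
  subst h
  exact hw x

end Transport

section Bar

local notation "Qb" => AlgebraicClosure ℚ

variable (M Q)

/-- The Atkin–Lehner automorphism on the function field `modularFunctionFieldBar (M Q)`. -/
def wBar (hQM : Nat.Coprime Q M) :
    modularFunctionFieldBar (M * Q) ≃ₐ[Qb] modularFunctionFieldBar (M * Q) :=
  transport (H05.laurentBaseChange_full Qb (M * Q)) (wQ Qb hQM)

theorem mem_full_of_bar {N : ℕ} {x : LaurentSeries Qb} (hx : x ∈ modularFunctionFieldBar N) :
    x ∈ modularFunctionFieldFullC Qb N := by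
  rw [← H05.laurentBaseChange_full]; exact hx

theorem mem_bar_of_full {N : ℕ} {x : LaurentSeries Qb} (hx : x ∈ modularFunctionFieldFullC Qb N) :
    x ∈ modularFunctionFieldBar N := by
  rw [modularFunctionFieldBar, H05.laurentBaseChange_full]; exact hx

theorem coe_wBar (hQM : Nat.Coprime Q M) (x : modularFunctionFieldBar (M * Q)) :
    (wBar M Q hQM x : LaurentSeries Qb) = (wQ Qb hQM ⟨x, mem_full_of_bar x.2⟩ : LaurentSeries Qb) :=
  coe_transport _ _ _ _

@[simp] theorem wBar_wBar (hQM : Nat.Coprime Q M) (x : modularFunctionFieldBar (M * Q)) :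
    wBar M Q hQM (wBar M Q hQM x) = x :=
  transport_transport _ _ (wQ_wQ Qb hQM) x

/-- The Atkin–Lehner involution as a semilinear automorphism. -/
def wS (hQM : Nat.Coprime Q M) : SemilinearAut Qb (modularFunctionFieldBar (M * Q)) :=
  SemilinearAut.ofAlgAut (wBar M Q hQM)

theorem wS_smul_fun (hQM : Nat.Coprime Q M) (x : modularFunctionFieldBar (M * Q)) :
    wS M Q hQM • x = wBar M Q hQM x := rfl

theorem wS_mul_self (hQM : Nat.Coprime Q M) : wS M Q hQM * wS M Q hQM = 1 := by
  rw [wS, ← map_mul]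
  have : wBar M Q hQM * wBar M Q hQM = 1 := AlgEquiv.ext fun x => wBar_wBar M Q hQM x
  rw [this, map_one]

theorem wS_wS (hQM : Nat.Coprime Q M) (x : JZero (M * Q)) : wS M Q hQM • wS M Q hQM • x = x := by
  rw [← mul_smul, wS_mul_self, one_smul]

theorem galois_mul_wS (hQM : Nat.Coprime Q M) (σ : Qb ≃ₐ[ℚ] Qb) :
    arithmeticGalois (modularFunctionFieldFull (M * Q)) σ * wS M Q hQM =
      wS M Q hQM * arithmeticGalois (modularFunctionFieldFull (M * Q)) σ := by
  apply Subtype.ext
  apply Prod.ext
  · apply RingEquiv.ext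
    intro x
    apply Subtype.ext
    change coeffMap (σ : Qb →+* Qb) (wBar M Q hQM x : LaurentSeries Qb) =
      (wBar M Q hQM (arithmeticRingAut _ σ x) : LaurentSeries Qb)
    rw [coe_wBar, coe_wBar]
    exact coeffMap_wQ hQM _ (mem_full_of_bar x.2) _ _
  · apply RingEquiv.ext
    intro x
    rfl

/-- **(E0)** the Atkin–Lehner involution commutes with Galois. -/
theorem galois_wS (hQM : Nat.Coprime Q M) (σ : Qb ≃ₐ[ℚ] Qb) (x : JZero (M * Q)) :
    σ • wS M Q hQM • x = wS M Q hQM • σ • x := by
  rw [galois_smul_pic0_def, galois_smul_pic0_def, ← mul_smul, galois_mul_wS, mul_smul]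

end Bar

end Fermat.Agent.Q
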