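import Fermat.Agent.Q.KInf

/-!
# The local package at a prime `r` exactly dividing the level, on `J₀(M r)`
-/

set_option autoImplicit false
set_option linter.style.haveILetI false
set_option maxSynthPendingDepth 3

noncomputable section

namespace Fermat.Agent.Q

open ModularCurve HahnSeries Fermat.Agent.Igusa AlgebraicCurve

local notation "kk" => IsLocalRing.ResidueField
local notation "Qb" => AlgebraicClosure ℚ

section Residue

open scoped Pointwise

variable {L : Type*} [Field L] [Algebra ℚ L] {A : ValuationSubring L} {σ : L ≃ₐ[ℚ] L}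

theorem decomposition_residue (σ : L ≃ₐ[ℚ] L) (hσ : σ ∈ A.decompositionSubgroup ℚ) (x : A) :
    ∃ hx : σ x ∈ A, IsLocalRing.residue A ⟨σ x, hx⟩ =
      (⟨σ, hσ⟩ : A.decompositionSubgroup ℚ) • IsLocalRing.residue A x := by
  have hx : σ (x : L) ∈ A := ((⟨σ, hσ⟩ : A.decompositionSubgroup ℚ) • x).2
  refine ⟨hx, ?_⟩
  rw [← IsLocalRing.ResidueField.residue_smul]
  rfl

theorem frobenius_residue {r : ℕ} (hσ : A.IsFrobeniusAt σ r) (x : A) :
    ∃ hx : (σ : L →+* L) x ∈ A, IsLocalRing.residue A ⟨(σ : L →+* L) x, hx⟩ =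
      (IsLocalRing.residue A x) ^ r := by
  obtain ⟨hx, h⟩ := decomposition_residue σ hσ.mem_decompositionSubgroup x
  exact ⟨hx, h.trans (hσ.smul_residue_eq _)⟩

theorem inertia_residue (hσ : σ ∈ A.inertiaSubgroupIn ℚ) (x : A) :
    ∃ hx : (σ : L →+* L) x ∈ A, IsLocalRing.residue A ⟨(σ : L →+* L) x, hx⟩ =
      IsLocalRing.residue A x := by
  rw [ValuationSubring.inertiaSubgroupIn, Subgroup.mem_map] at hσ
  obtain ⟨⟨τ, hτ⟩, h1, rfl⟩ := hσ
  obtain ⟨hx, h⟩ := decomposition_residue τ hτ x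
  exact ⟨hx, h.trans (RingEquiv.congr_fun (MonoidHom.mem_ker.mp h1) _)⟩

end Residue

section Push

variable {K F F' : Type*} [Field K] [Field F] [Field F'] [Algebra K F] [Algebra K F']

/-- The push-forward of classes along an embedding. -/
def pushHom (φ : F →ₐ[K] F') (hφ : φ.toRingHom.IsIntegral) (hfin : FiniteAlong K φ)
    (hN : NormFormulaAlong K φ hfin) : Pic0 K F' →+ Pic0 K F :=
  letI := algebraAlong φ
  haveI := isScalarTower_along φ
  haveI := isIntegral_along φ hφ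
  haveI : Module.Finite F F' := hfin
  Pic0.pushforwardHom K F F' hN

theorem kum_pushHom (φ : F →ₐ[K] F') (hφ : φ.toRingHom.IsIntegral) (hfin : FiniteAlong K φ)
    (hN : NormFormulaAlong K φ hfin) {m : ℕ} {y : Pic0 K F'} {g : F'} (h : H05.Kum m y g) :
    H05.Kum m (pushHom φ hφ hfin hN y) (H05.normAlong φ g) := by
  letI := algebraAlong φ
  haveI := isScalarTower_along φ
  haveI := isIntegral_along φ hφ
  haveI : Module.Finite F F' := hfin
  exact H05.Kum.pushforward hN h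

theorem coe_normAlong_transport {S S' T T' : IntermediateField K F} (hS : S = S') (hT : T = T')
    (h : S ≤ T) (h' : S' ≤ T') (f : T) (hf : (f : F) ∈ T') :
    ((H05.normAlong (IntermediateField.inclusion h) f : S) : F) =
      ((H05.normAlong (IntermediateField.inclusion h') ⟨f, hf⟩ : S') : F) := by
  subst hS
  subst hT
  rfl

end Push

variable (M r : ℕ) [NeZero M] [hr : Fact r.Prime]

/-- the push-forward `J₀(M r) → J₀(M)` along the inclusion of function fields -/
def aStar : JZero (M * r) →+ JZero M :=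
  pushHom (heckeAlphaBar Qb M r) (H05.heckeAlphaBarIntegral Qb M r) (H05.finiteAlong_alpha Qb M r)
    (H05.normFormulaAlong_of _ _)

variable {M r}

theorem kum_aStar {m : ℕ} {x : JZero (M * r)} {f : modularFunctionFieldBar (M * r)}
    (h : H05.Kum m x f) : H05.Kum m (aStar M r x) (H05.normAlong (heckeAlphaBar Qb M r) f) :=
  kum_pushHom _ _ _ _ h

theorem coe_normAlong_alpha (f : modularFunctionFieldBar (M * r)) :
    ((H05.normAlong (heckeAlphaBar Qb M r) f : modularFunctionFieldBar M) : LaurentSeries Qb) =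
      ((H05.normAlong (incl Qb M r) ⟨f, mem_full_of_bar f.2⟩ : modularFunctionFieldFullC Qb M) :
        LaurentSeries Qb) :=
  coe_normAlong_transport (H05.laurentBaseChange_full Qb M)
    (H05.laurentBaseChange_full Qb (M * r)) _ _ f _

/-- The subgroup `K_∞` of `J₀(M r)[m]` attached to a place over `r`. -/
def KInf (A : ValuationSubring Qb) (M r m : ℕ) [NeZero M] [Fact r.Prime] :
    AddSubgroup (JZero (M * r)) where
  carrier := {x | ∃ f : modularFunctionFieldBar (M * r), H05.Kum m x f ∧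
    InfPow A M m (f : LaurentSeries Qb)}
  zero_mem' := ⟨1, H05.kum_zero_one m, infPow_one⟩
  add_mem' := by
    rintro x y ⟨f, hf, hf'⟩ ⟨g, hg, hg'⟩
    exact ⟨f * g, hf.mul hg, hf'.mul hg'⟩
  neg_mem' := by
    rintro x ⟨f, hf, hf'⟩
    exact ⟨f⁻¹, hf.inv, hf'.inv⟩

variable {A : ValuationSubring Qb} {m : ℕ}

theorem mem_KInf {x : JZero (M * r)} : x ∈ KInf A M r m ↔
    ∃ f : modularFunctionFieldBar (M * r), H05.Kum m x f ∧
      InfPow A M m (f : LaurentSeries Qb) := Iff.rfl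

theorem nsmul_eq_zero_of_mem_KInf {x : JZero (M * r)} (h : x ∈ KInf A M r m) : m • x = 0 := by
  obtain ⟨f, hf, _⟩ := h
  exact hf.nsmul_eq_zero

theorem exists_kum_eq_mul_pow (hm : m ≠ 0) {N : ℕ} [NeZero N] {x : JZero N}
    {f g : modularFunctionFieldBar N} (hf : H05.Kum m x f) (hg : H05.Kum m x g) :
    ∃ h : modularFunctionFieldBar N, h ≠ 0 ∧ f = g * h ^ m := by
  obtain ⟨v, -⟩ := H05.exists_place_infinity_bc Qb N
  exact H05.Kum.exists_of_eq (H05.deg_eq_one_bc Qb N v) hm hf hg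

theorem exists_kum_zero_pow (hm : m ≠ 0) {N : ℕ} [NeZero N]
    {f : modularFunctionFieldBar N} (hf : H05.Kum m (0 : JZero N) f) :
    ∃ h : modularFunctionFieldBar N, h ≠ 0 ∧ f = h ^ m := by
  obtain ⟨v, -⟩ := H05.exists_place_infinity_bc Qb N
  exact H05.Kum.exists_pow_of_zero (H05.deg_eq_one_bc Qb N v) hm hf

theorem full_ne_zero {N : ℕ} {f : modularFunctionFieldBar N} (hf : f ≠ 0) :
    (⟨f, mem_full_of_bar f.2⟩ : modularFunctionFieldFullC Qb N) ≠ 0 := by
  intro h0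
  have h1 : (f : LaurentSeries Qb) = 0 :=
    congrArg (fun z : modularFunctionFieldFullC Qb N => (z : LaurentSeries Qb)) h0
  exact hf (Subtype.ext h1)

variable (hA : A.LiesOverPrime r) (hrM : Nat.Coprime r M)

include hA hrM in
theorem infPow_pow_bar {h : modularFunctionFieldBar (M * r)} (hh : h ≠ 0) :
    InfPow A M m ((h ^ m : modularFunctionFieldBar (M * r)) : LaurentSeries Qb) := by
  have h0 : (h : LaurentSeries Qb) ≠ 0 := fun h' => hh (Subtype.ext h')
  have := infPow_pow (m := m) hA hrM (mem_full_of_bar h.2) h0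
  exact this

include hA hrM in
/-- Membership in `K_∞` can be tested on any Kummer function. -/
theorem mem_KInf_iff (hm : m ≠ 0) {x : JZero (M * r)} {f : modularFunctionFieldBar (M * r)}
    (hf : H05.Kum m x f) : x ∈ KInf A M r m ↔ InfPow A M m (f : LaurentSeries Qb) := by
  constructor
  · rintro ⟨g, hg, hg'⟩
    obtain ⟨h, hh, rfl⟩ := exists_kum_eq_mul_pow hm hf hg
    have := hg'.mul (infPow_pow_bar (m := m) hA hrM hh)
    exact this
  · intro h
    exact ⟨f, hf, h⟩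

include hA in
/-- **(E2)** `x + φ (w x) ∈ K_∞` if `a_* x = 0`. -/
theorem frobenius_mem_KInf (hm : m ≠ 0) (φ : Qb ≃ₐ[ℚ] Qb) (hφ : A.IsFrobeniusAt φ r)
    {x : JZero (M * r)} (hx : m • x = 0) (hx' : aStar M r x = 0) :
    x + φ • wS M r hrM • x ∈ KInf A M r m := by
  obtain ⟨f, hf⟩ := H05.exists_kum hx
  have h1 := kum_aStar hf
  rw [hx'] at h1
  obtain ⟨h, hh, hhf⟩ := exists_kum_zero_pow hm h1
  refine ⟨f * (arithmeticGalois (modularFunctionFieldFull (M * r)) φ • (wS M r hrM • f)), ?_, ?_⟩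
  · refine hf.mul ?_
    rw [galois_smul_pic0_def]
    exact (hf.smul (wS M r hrM)).smul _
  · have key := infPow_frobenius hm hA hrM ⟨f, mem_full_of_bar f.2⟩ (full_ne_zero hf.ne_zero)
      (φ : Qb →+* Qb) (frobenius_residue hφ)
      ⟨h, mem_full_of_bar h.2⟩ (full_ne_zero hh) (by
        apply Subtype.ext
        have := coe_normAlong_alpha (M := M) (r := r) f
        rw [hhf] at this
        exact this.symm)
    rw [wS_smul_fun]
    rw [← coe_wBar] at key
    exact key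

include hA hrM in
/-- Inertia acts trivially modulo `K_∞`. -/
theorem inertia_mem_KInf (σ : Qb ≃ₐ[ℚ] Qb) (hσ : σ ∈ A.inertiaSubgroupIn ℚ)
    {x : JZero (M * r)} (hx : m • x = 0) :
    σ • x - x ∈ KInf A M r m := by
  obtain ⟨f, hf⟩ := H05.exists_kum hx
  refine ⟨(arithmeticGalois (modularFunctionFieldFull (M * r)) σ • f) * f⁻¹, ?_, ?_⟩
  · rw [sub_eq_add_neg, galois_smul_pic0_def]
    exact (hf.smul _).mul hf.inv
  · have h0 : (f : LaurentSeries Qb) ≠ 0 := fun h' => hf.ne_zero (Subtype.ext h')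
    have key := infPow_inertia (m := m) hA hrM (mem_full_of_bar f.2) h0 (σ : Qb →+* Qb)
      (inertia_residue hσ)
    exact key

include hA in
/-- **(E1)** Inertia acts trivially modulo `T = K_∞ ∩ K_0`. -/
theorem inertia_mem_KZero (σ : Qb ≃ₐ[ℚ] Qb) (hσ : σ ∈ A.inertiaSubgroupIn ℚ)
    {x : JZero (M * r)} (hx : m • x = 0) :
    wS M r hrM • (σ • x - x) ∈ KInf A M r m := by
  rw [smul_sub, ← galois_wS]
  apply inertia_mem_KInf hA hrM σ hσ
  have h1 := map_nsmul (DistribSMul.toAddMonoidHom (JZero (M * r)) (wS M r hrM)) m x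
  rw [hx, map_zero] at h1
  exact h1.symm

omit [NeZero M] in
theorem InfPow.pow_mul {z : LaurentSeries Qb} (hz : InfPow A M m z) (k : ℕ) :
    InfPow A M (m * k) (z ^ k) := by
  obtain ⟨c, hc, u, hu, hu0, h⟩ := hz
  refine ⟨c ^ k, pow_ne_zero k hc, u, hu, hu0, ?_⟩
  rw [map_pow, ← mul_pow, _root_.pow_mul]
  exact h.pow k

omit [NeZero M] in
theorem InfPow.of_mul {z : LaurentSeries Qb} {k : ℕ} (hz : InfPow A M (m * k) z) :
    InfPow A M m z := by
  obtain ⟨c, hc, u, hu, hu0, h⟩ := hz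
  refine ⟨c, hc, u ^ k, pow_mem hu k, pow_ne_zero k hu0, ?_⟩
  rw [← _root_.pow_mul, mul_comm k m]
  exact h

/-- A root of unity in a field of Laurent series over an algebraically closed field is constant. -/
theorem exists_C_of_pow_eq {k : Type*} [Field k] [IsAlgClosed k] {n : ℕ} (hn : n ≠ 0)
    {x : LaurentSeries k} {e : k} (hx : x ^ n = HahnSeries.C e) :
    ∃ d : k, x = HahnSeries.C d := by
  have h1 : IsIntegral k x := by
    have h2 : IsIntegral k (x ^ n) := by
      rw [hx, ← algebraMap_eq_C]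
      exact isIntegral_algebraMap
    exact h2.of_pow (Nat.pos_of_ne_zero hn)
  obtain ⟨d, hd⟩ := minpoly.mem_range_of_degree_eq_one k x
    (IsAlgClosed.degree_eq_one_of_irreducible k (minpoly.irreducible h1))
  exact ⟨d, by rw [← hd, algebraMap_eq_C]⟩

include hA hrM in
theorem infPow_of_pow (hm : m ≠ 0) {k : ℕ} (hk : k ≠ 0) {z : LaurentSeries Qb}
    (hz : z ∈ modularFunctionFieldFullC Qb (M * r)) (hz0 : z ≠ 0)
    (h : InfPow A M (m * k) (z ^ k)) : InfPow A M m z := by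
  haveI := isAlgClosed_residueField A
  obtain ⟨c, hc, u, hu, hu0, h⟩ := h
  obtain ⟨c', hc', v, hv, hv0, h'⟩ := exists_red_mul hA hrM hz hz0
  have h1 := h'.pow k
  rw [mul_pow, ← map_pow] at h1
  have h2 : HahnSeries.C (c * (c' ^ k)⁻¹) * (HahnSeries.C (c' ^ k) * z ^ k) =
      HahnSeries.C c * z ^ k := by
    rw [← mul_assoc, ← map_mul, inv_mul_cancel_right₀ (pow_ne_zero k hc')]
  rw [← h2] at h
  obtain ⟨hmem, hres⟩ := h.scale h1 (pow_ne_zero k hv0)
  set ε := IsLocalRing.residue A ⟨c * (c' ^ k)⁻¹, hmem⟩ with hε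
  have hum : u ^ m ≠ 0 := pow_ne_zero m hu0
  have hvk : v ^ k ≠ 0 := pow_ne_zero k hv0
  have hε0 : (HahnSeries.C ε : LaurentSeries (kk A)) ≠ 0 := by
    intro h0
    rw [h0, zero_mul] at hres
    exact pow_ne_zero _ hu0 hres
  have hx : (v / u ^ m) ^ k = HahnSeries.C ε⁻¹ := by
    rw [div_pow, ← _root_.pow_mul, hres, map_inv₀]
    field_simp
  obtain ⟨d, hd⟩ := exists_C_of_pow_eq hk hx
  have hv : v = HahnSeries.C d * u ^ m := by
    rw [← hd, div_mul_cancel₀ _ hum]
  have hd0 : d ≠ 0 := by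
    rintro rfl
    rw [map_zero, zero_mul] at hv
    exact hv0 hv
  exact InfPow.of_red_C hm hc' hd0 hu hu0 (hv ▸ h')

include hA hrM in
/-- Compatibility of the subgroups `K_∞` for different levels of torsion. -/
theorem mem_KInf_mul_iff (hm : m ≠ 0) {k : ℕ} (hk : k ≠ 0) {x : JZero (M * r)}
    (hx : m • x = 0) : x ∈ KInf A M r (m * k) ↔ x ∈ KInf A M r m := by
  obtain ⟨f, hf⟩ := H05.exists_kum hx
  have h0 : (f : LaurentSeries Qb) ≠ 0 := fun h' => hf.ne_zero (Subtype.ext h')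
  rw [mem_KInf_iff hA hrM hm hf, mem_KInf_iff hA hrM (mul_ne_zero hm hk) (hf.pow_right k)]
  constructor
  · intro h
    exact infPow_of_pow hA hrM hm hk (mem_full_of_bar f.2) h0 h
  · intro h
    exact h.pow_mul k

theorem nsmul_wS (x : JZero (M * r)) (m : ℕ) : m • wS M r hrM • x = wS M r hrM • m • x :=
  (map_nsmul (DistribSMul.toAddMonoidHom (JZero (M * r)) (wS M r hrM)) m x).symm

/-- The toric part `T = K_∞ ∩ K_0` of `J₀(M r)[m]`. -/
def TSub (A : ValuationSubring Qb) (M r m : ℕ) [NeZero M] [Fact r.Prime]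
    (hrM : Nat.Coprime r M) : AddSubgroup (JZero (M * r)) :=
  KInf A M r m ⊓ (KInf A M r m).comap (DistribSMul.toAddMonoidHom (JZero (M * r)) (wS M r hrM))

theorem mem_TSub {x : JZero (M * r)} :
    x ∈ TSub A M r m hrM ↔ x ∈ KInf A M r m ∧ wS M r hrM • x ∈ KInf A M r m := Iff.rfl

theorem wS_mem_TSub {x : JZero (M * r)} (hx : x ∈ TSub A M r m hrM) :
    wS M r hrM • x ∈ TSub A M r m hrM := by
  rw [mem_TSub] at hx ⊢
  rw [wS_wS]
  exact ⟨hx.2, hx.1⟩

include hA in
/-- **(E1)** -/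
theorem inertia_mem_TSub (σ : Qb ≃ₐ[ℚ] Qb) (hσ : σ ∈ A.inertiaSubgroupIn ℚ)
    {x : JZero (M * r)} (hx : m • x = 0) : σ • x - x ∈ TSub A M r m hrM :=
  ⟨inertia_mem_KInf hA hrM σ hσ hx, inertia_mem_KZero hA hrM σ hσ hx⟩

include hA in
/-- **(E2)** On the `r`-new part, `x + φ (w x) ∈ T`. -/
theorem frobenius_mem_TSub (hm : m ≠ 0) (φ : Qb ≃ₐ[ℚ] Qb) (hφ : A.IsFrobeniusAt φ r)
    {x : JZero (M * r)} (hx : m • x = 0) (hx1 : aStar M r x = 0)
    (hx2 : aStar M r (wS M r hrM • x) = 0) :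
    x + φ • wS M r hrM • x ∈ TSub A M r m hrM := by
  refine ⟨frobenius_mem_KInf hA hrM hm φ hφ hx hx1, ?_⟩
  change wS M r hrM • (x + φ • wS M r hrM • x) ∈ KInf A M r m
  have h1 := frobenius_mem_KInf hA hrM hm φ hφ (x := wS M r hrM • x)
    (by rw [nsmul_wS, hx, smul_zero]) hx2
  rwa [smul_add, ← galois_wS]

include hA in
theorem mem_TSub_mul_iff (hm : m ≠ 0) {k : ℕ} (hk : k ≠ 0) {x : JZero (M * r)}
    (hx : m • x = 0) : x ∈ TSub A M r (m * k) hrM ↔ x ∈ TSub A M r m hrM := by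
  rw [mem_TSub, mem_TSub, mem_KInf_mul_iff hA hrM hm hk hx,
    mem_KInf_mul_iff hA hrM hm hk (x := wS M r hrM • x) (by rw [nsmul_wS, hx, smul_zero])]

theorem nsmul_mem_KInf {k : ℕ} {x : JZero (M * r)} (hx : x ∈ KInf A M r (m * k)) :
    k • x ∈ KInf A M r m := by
  obtain ⟨f, hf, h⟩ := hx
  exact ⟨f, hf.of_mul, h.of_mul⟩

end Fermat.Agent.Q
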