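import Fermat.Agent.Q.Conc3

/-!
# The concrete Atkin–Lehner data for `X₀(M r)`
-/

set_option autoImplicit false
set_option linter.style.haveILetI false
set_option maxSynthPendingDepth 3

noncomputable section

attribute [-instance] HahnSeries.instModule HahnSeries.instSMul HahnSeries.instDistribMulAction
  HahnSeries.instSMulZeroClass

namespace Fermat.Agent.Q

open ModularCurve HahnSeries Fermat.Agent.Igusa AlgebraicCurve Fermat.Agent.FF Fermat.Agent.H11Q

local notation "kk" => IsLocalRing.ResidueField
local notation "Qb" => AlgebraicClosure ℚ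

section Fiber

variable {K : Type*} [Field K] {r : ℕ} [NeZero r]

theorem fiber_generic (hr : r.Prime) {S₀ S : IntermediateField K (LaurentSeries K)} (le : S₀ ≤ S)
    (int : (IntermediateField.inclusion le).toRingHom.IsIntegral)
    (rank : finrankAlong K (IntermediateField.inclusion le) = r + 1)
    (w : S ≃ₐ[K] S) (ww : ∀ x, w (w x) = x)
    (w_incl : ∀ x : S₀, (w (IntermediateField.inclusion le x) : LaurentSeries K) =
      qExpand K r (x : LaurentSeries K))
    (P₀ : Place K S₀) (P₀_ord : ∀ x : S₀, P₀.ord x = (x : LaurentSeries K).order)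
    (P : Place K S) (P_ord : ∀ x : S, P.ord x = (x : LaurentSeries K).order)
    (j : S₀) (j_order : (j : LaurentSeries K).order = -1)
    [HasPrincipalDivisors K S] (hFI : FundamentalIdentityAlong K (IntermediateField.inclusion le) int)
    (hd : ∀ v : Place K S, v.deg = 1) (hd₀ : ∀ v : Place K S₀, v.deg = 1)
    (v : Place K S) (hv : v.restrictAlong (IntermediateField.inclusion le) int = P₀) :
    v = P ∨ v = SemilinearAut.ofAlgAut w • P := by
  classical
  have hWord : ∀ z : S, (SemilinearAut.ofAlgAut w • P).ord z = P.ord (w z) := by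
    intro z
    have h := SemilinearAut.ord_smul (SemilinearAut.ofAlgAut w) P (w z)
    rwa [SemilinearAut.ofAlgAut_smul, ww] at h
  have he0 : ∀ f : S₀, f ≠ 0 →
      P.ord (IntermediateField.inclusion le f) = 1 * P₀.ord f := fun f _ => by
    rw [one_mul, P_ord, P₀_ord, IntermediateField.coe_inclusion]
  have he1 : ∀ f : S₀, f ≠ 0 →
      (SemilinearAut.ofAlgAut w • P).ord (IntermediateField.inclusion le f) =
        (r : ℤ) * P₀.ord f := fun f _ => by
    rw [hWord, P_ord, w_incl, P₀_ord, order_qExpand_gen]
  have hr0 : (0 : ℤ) < r := by exact_mod_cast hr.pos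
  have hne : P ≠ SemilinearAut.ofAlgAut w • P := by
    intro h
    have hj0 : j ≠ 0 := by
      rintro rfl
      rw [ZeroMemClass.coe_zero, HahnSeries.order_zero] at j_order
      omega
    have h1 := he0 j hj0
    rw [h, he1 j hj0, P₀_ord, j_order] at h1
    have := hr.two_le
    omega
  have hsum : finrankAlong K (IntermediateField.inclusion le) ≤
      P.ramificationIndexAlong (IntermediateField.inclusion le) +
      (SemilinearAut.ofAlgAut w • P).ramificationIndexAlong (IntermediateField.inclusion le) := by
    have h0 := M5.ramificationIndexAlong_eq (IntermediateField.inclusion le) int one_pos he0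
    have h1 := M5.ramificationIndexAlong_eq (IntermediateField.inclusion le) int hr0 he1
    rw [rank]
    omega
  have hfib := M5.fiberAlong_eq_pair (IntermediateField.inclusion le) int hFI hd hd₀
    hne (M5.restrictAlong_eq _ _ one_pos he0) (M5.restrictAlong_eq _ _ hr0 he1) hsum
  have hmem : v ∈ Place.fiberAlong (IntermediateField.inclusion le) int P₀ :=
    Place.mem_fiberAlong.mpr hv
  rw [hfib, Finset.mem_insert, Finset.mem_singleton] at hmem
  exact hmem

end Fiber

variable (M r : ℕ) [NeZero M] [hr : Fact r.Prime]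

theorem bar_le : modularFunctionFieldBar M ≤ modularFunctionFieldBar (M * r) :=
  haveI : NeZero (M * r) := ⟨mul_ne_zero (NeZero.ne M) hr.out.ne_zero⟩
  M5.FB_mono Qb (dvd_mul_right M r)

theorem coe_wBar_incl (hrM : Nat.Coprime r M) (x : modularFunctionFieldBar M) :
    (wBar M r hrM (IntermediateField.inclusion (bar_le M r) x) : LaurentSeries Qb) =
      qExpand Qb r (x : LaurentSeries Qb) := by
  rw [coe_wBar]
  have h1 : (⟨IntermediateField.inclusion (bar_le M r) x,
      mem_full_of_bar (IntermediateField.inclusion (bar_le M r) x).2⟩ :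
        modularFunctionFieldFullC Qb (M * r)) =
      ⟨(x : LaurentSeries Qb), mem_of_mem Qb _ (mem_full_of_bar x.2)⟩ :=
    Subtype.ext (IntermediateField.coe_inclusion (bar_le M r) x)
  rw [h1]
  exact coe_wQ_of_mem Qb hrM _ (mem_full_of_bar x.2)

theorem rank_bar (hrM : Nat.Coprime r M) :
    finrankAlong Qb (IntermediateField.inclusion (bar_le M r)) = r + 1 :=
  M5.finrankAlong_alpha Qb M r (by rw [← hr.out.coprime_iff_not_dvd]; exact hrM)

theorem int_bar : (IntermediateField.inclusion (bar_le M r)).toRingHom.IsIntegral :=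
  H05.heckeAlphaBarIntegral Qb M r

theorem fin_bar : FiniteAlong Qb (IntermediateField.inclusion (bar_le M r)) :=
  H05.finiteAlong_alpha Qb M r

/-- the function `j` -/
def jX (N : ℕ) : modularFunctionFieldBar N := M5.jB Qb (one_dvd N)

theorem coe_jX (N : ℕ) : (jX N : LaurentSeries Qb) = jqModC Qb := by
  rw [jX, M5.coe_jB, jd_one]

theorem order_jX (N : ℕ) : (jX N : LaurentSeries Qb).order = -1 := by
  rw [jX, M5.coe_jB, order_jd]
  simp

theorem fiber_bar (hrM : Nat.Coprime r M) (v : Place Qb (modularFunctionFieldBar (M * r)))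
    (hv : v.restrictAlong (IntermediateField.inclusion (bar_le M r)) (int_bar M r) =
      M5.cInf Qb M) :
    v = M5.cInf Qb (M * r) ∨
      v = SemilinearAut.ofAlgAut (wBar M r hrM) • M5.cInf Qb (M * r) :=
  fiber_generic hr.out (bar_le M r) (int_bar M r) (rank_bar M r hrM) (wBar M r hrM)
    (wBar_wBar M r hrM) (coe_wBar_incl M r hrM) (M5.cInf Qb M) (M5.cInf_ord Qb M)
    (M5.cInf Qb (M * r)) (M5.cInf_ord Qb (M * r)) (jX M) (order_jX M)
    (H05.fundamentalIdentityAlong_of _ (int_bar M r) (fin_bar M r))
    (fun w => H05.deg_eq_one_bc Qb (M * r) w) (fun w => H05.deg_eq_one_bc Qb M w) v hv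

/-- **The Atkin–Lehner data of `X₀(M r)`.** -/
def alData (hrM : Nat.Coprime r M) : ALData Qb r where
  S₀ := modularFunctionFieldBar M
  S := modularFunctionFieldBar (M * r)
  le := bar_le M r
  int := int_bar M r
  fin := fin_bar M r
  rank := rank_bar M r hrM
  w := wBar M r hrM
  ww := wBar_wBar M r hrM
  w_incl := coe_wBar_incl M r hrM
  P₀ := M5.cInf Qb M
  P₀_ord := M5.cInf_ord Qb M
  P := M5.cInf Qb (M * r)
  P_ord := M5.cInf_ord Qb (M * r)
  j := jX M
  j_order := order_jX M
  fiber := fiber_bar M r hrM

variable {M r}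

theorem redHyp (hrM : Nat.Coprime r M) {A : ValuationSubring Qb} (hA : A.LiesOverPrime r) :
    (alData M r hrM).RedHyp A (modularFunctionFieldFullC (kk A) M) where
  prime := hr.out
  lies := hA
  fun₁ := H05.funField_bc Qb (M * r)
  mem_FL x hx := full_le_FL (M * r) (mem_full_of_bar hx)
  mem_j := by
    have h : (jX M : LaurentSeries Qb) ∈ intL A := by
      rw [jX, M5.coe_jB]
      exact jd_mem_intL 1
    exact h
  red_mem x hx u hu := red_mem_full_mul hA hrM (mem_full_of_bar hx) hu

/-- **The two component data of `X₀(M r)`** at a place over `r`. -/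
def twoComp (hrM : Nat.Coprime r M) {A : ValuationSubring Qb} (hA : A.LiesOverPrime r)
    (lp : LevelPack A (modularFunctionFieldBar M) (modularFunctionFieldFullC (kk A) M) r) :
    TwoComp Qb A (modularFunctionFieldBar (M * r)) := (redHyp hrM hA).twoComp lp

/-- **The raw node data of `X₀(M r)`** at a place over `r`. -/
def rawB (hrM : Nat.Coprime r M) {A : ValuationSubring Qb} (hA : A.LiesOverPrime r)
    (lp : LevelPack A (modularFunctionFieldBar M) (modularFunctionFieldFullC (kk A) M) r) :
    Raw (twoComp hrM hA lp) r := (redHyp hrM hA).raw lp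

end Fermat.Agent.Q
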