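import Fermat.Agent.Q.Package
import Fermat.Agent.H11Q.Final

/-!
# Concrete two component data: places, integrality
-/

set_option autoImplicit false
set_option linter.style.haveILetI false
set_option maxSynthPendingDepth 3

noncomputable section

namespace Fermat.Agent.Q

open ModularCurve HahnSeries Fermat.Agent.Igusa AlgebraicCurve Fermat.Agent.FF

local notation "kk" => IsLocalRing.ResidueField
local notation "Qb" => AlgebraicClosure ℚ

section General

variable {K F : Type*} [Field K] [Field F] [Algebra K F]

/-- An element regular at all places where `x` is regular is integral over `K[x]`. -/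
theorem isIntegral_of_forall_place [CharZero K] [FunField K F] (x z : F)
    (h : ∀ v : Place K F, x ∈ v.toValuationSubring → z ∈ v.toValuationSubring) :
    IsIntegral (Algebra.adjoin K {x}) z := by
  by_contra hcon
  set S : Subring F := (integralClosure (Algebra.adjoin K {x}) F).toSubring with hS
  have hSc : IsIntegrallyClosedIn S F := by
    rw [Subring.isIntegrallyClosedIn_iff]
    intro y hy
    have : IsIntegral (integralClosure (Algebra.adjoin K {x}) F) y := hy
    exact isIntegral_trans (R := Algebra.adjoin K {x})
      (A := integralClosure (Algebra.adjoin K {x}) F) y this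
  have hzS : z ∉ S := hcon
  obtain ⟨W, hSW, hW⟩ := Subring.exists_le_valuationSubring_of_isIntegrallyClosedIn hzS
  have hK : ∀ a : K, algebraMap K F a ∈ W := fun a => hSW (by
    change IsIntegral (Algebra.adjoin K {x}) _
    exact isIntegral_algebraMap (R := Algebra.adjoin K {x}) (x := algebraMap K _ a))
  have hne : W ≠ ⊤ := by
    rintro rfl
    exact hW (ValuationSubring.mem_top z)
  apply hW
  refine h (placeOf W hK hne) (hSW ?_)
  change IsIntegral (Algebra.adjoin K {x}) _
  exact isIntegral_algebraMap (R := Algebra.adjoin K {x})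
    (x := ⟨x, Algebra.self_mem_adjoin_singleton K x⟩)

/-- the image of an element integral over `K[x]`. -/
theorem isIntegral_map_of_adjoin {L : Type*} [Field L] [Algebra K L] (e : F →ₐ[K] L) {S : Subring L}
    {x z : F} (hK : ∀ a : K, algebraMap K L a ∈ S) (hx : e x ∈ S)
    (h : IsIntegral (Algebra.adjoin K {x}) z) : IsIntegral S (e z) := by
  have hle : ∀ y : Algebra.adjoin K {x}, e (y : F) ∈ S := by
    rintro ⟨y, hy⟩
    induction hy using Algebra.adjoin_induction with
    | mem y hy =>
      rw [Set.mem_singleton_iff] at hy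
      subst hy
      exact hx
    | algebraMap a => simpa using hK a
    | add a b _ _ ha hb =>
      have := add_mem ha hb
      rwa [← map_add] at this
    | mul a b _ _ ha hb =>
      have := mul_mem ha hb
      rwa [← map_mul] at this
  let f : Algebra.adjoin K {x} →+* S :=
    ((e.toRingHom.comp (algebraMap (Algebra.adjoin K {x}) F)).codRestrict S hle)
  obtain ⟨p, hp, hpz⟩ := h
  refine ⟨p.map f, hp.map f, ?_⟩
  rw [Polynomial.eval₂_map]
  have h1 : (algebraMap S L).comp f = e.toRingHom.comp (algebraMap (Algebra.adjoin K {x}) F) := rfl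
  rw [h1]
  change Polynomial.eval₂ _ (e.toRingHom z) p = 0
  rw [← Polynomial.hom_eval₂, hpz, map_zero]

end General

section Coeff

/-- coefficients of the minimal polynomial in terms of embeddings. -/
theorem minpoly_coeff_mem {E F Ω : Type*} [Field E] [Field F] [Field Ω] [Algebra E F]
    [FiniteDimensional E F] [Algebra.IsSeparable E F]
    {ι : Type*} [Fintype ι] (i₀ : ι) (τ : ι → (F →+* Ω)) (hτ : Function.Injective τ)
    (hcomp : ∀ i, (τ i).comp (algebraMap E F) = (τ i₀).comp (algebraMap E F))
    (hcard : Fintype.card ι = Module.finrank E F) (S : Subring Ω) (z : F)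
    (hz : ∀ i, τ i z ∈ S) (n : ℕ) :
    τ i₀ (algebraMap E F ((minpoly E z).coeff n)) ∈ S := by
  classical
  letI : Algebra E Ω := ((τ i₀).comp (algebraMap E F)).toAlgebra
  have halg : ∀ e, algebraMap E Ω e = τ i₀ (algebraMap E F e) := fun e => rfl
  let Ω' := AlgebraicClosure Ω
  haveI : IsScalarTower E Ω Ω' := inferInstance
  let T : ι → (F →ₐ[E] Ω') := fun i =>
    { (algebraMap Ω Ω').comp (τ i) with
      commutes' := fun e => by
        change algebraMap Ω Ω' (τ i (algebraMap E F e)) = algebraMap E Ω' e
        rw [IsScalarTower.algebraMap_apply E Ω Ω', halg]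
        exact congrArg _ (congrArg (fun f : E →+* Ω => f e) (hcomp i)) }
  have hT : ∀ i x, T i x = algebraMap Ω Ω' (τ i x) := fun i x => rfl
  have hTinj : Function.Injective T := by
    intro i j hij
    apply hτ
    ext x
    apply (algebraMap Ω Ω').injective
    rw [← hT, ← hT, hij]
  have hbij : Function.Bijective T := by
    rw [Fintype.bijective_iff_injective_and_card]
    refine ⟨hTinj, ?_⟩
    rw [hcard, AlgHom.card]
  -- the subring of `Ω'`
  let S' : Subring Ω' := S.map (algebraMap Ω Ω')
  have hint : IsIntegral E z := Algebra.IsIntegral.isIntegral z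
  have hroots : ∀ y ∈ ((minpoly E z).map (algebraMap E Ω')).roots, y ∈ S' := by
    intro y hy
    have h1 : y ∈ (minpoly E z).rootSet Ω' := by
      rw [Polynomial.mem_rootSet']
      rw [Polynomial.mem_roots'] at hy
      refine ⟨hy.1, ?_⟩
      have := hy.2
      rwa [Polynomial.IsRoot.def, Polynomial.eval_map_algebraMap] at this
    rw [← Algebra.IsAlgebraic.range_eval_eq_rootSet_minpoly Ω' z] at h1
    obtain ⟨ψ, hψ⟩ := h1
    obtain ⟨i, rfl⟩ := hbij.2 ψ
    rw [← hψ]
    exact ⟨τ i z, hz i, rfl⟩
  have hsplit : (minpoly E z).map (algebraMap E Ω') =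
      (((minpoly E z).map (algebraMap E Ω')).roots.map
        (fun a => Polynomial.X - Polynomial.C a)).prod := by
    have h1 := IsAlgClosed.splits ((minpoly E z).map (algebraMap E Ω'))
    exact h1.eq_prod_roots_of_monic ((minpoly.monic hint).map _)
  have hlift : (minpoly E z).map (algebraMap E Ω') ∈ Polynomial.lifts S'.subtype := by
    rw [hsplit]
    apply Subsemiring.multiset_prod_mem
    intro p hp
    rw [Multiset.mem_map] at hp
    obtain ⟨a, ha, rfl⟩ := hp
    rw [Polynomial.mem_lifts]
    exact ⟨Polynomial.X - Polynomial.C ⟨a, hroots a ha⟩, by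
      rw [Polynomial.map_sub, Polynomial.map_X, Polynomial.map_C]
      rfl⟩
  rw [Polynomial.lifts_iff_coeff_lifts] at hlift
  obtain ⟨⟨y, hy⟩, hyn⟩ := hlift n
  rw [Polynomial.coeff_map, IsScalarTower.algebraMap_apply E Ω Ω', halg] at hyn
  obtain ⟨s, hs, hsy⟩ := hy
  have : s = τ i₀ (algebraMap E F ((minpoly E z).coeff n)) := by
    apply (algebraMap Ω Ω').injective
    rw [← hyn]
    exact hsy
  rw [← this]
  exact hs

end Coeff

end Fermat.Agent.Q
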