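import Fermat.Agent.Q.Conc2

/-!
# The two component data and the raw node data, from a level `M` package
-/

set_option autoImplicit false
set_option linter.style.haveILetI false
set_option maxSynthPendingDepth 3

noncomputable section

attribute [-instance] HahnSeries.instModule HahnSeries.instSMul HahnSeries.instDistribMulAction
  HahnSeries.instSMulZeroClass

namespace Fermat.Agent.Q

open ModularCurve HahnSeries Fermat.Agent.Igusa AlgebraicCurve Fermat.Agent.FF Fermat.Agent.H11Q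

local notation "kk" => IsLocalRing.ResidueField

section Bridge

variable {K : Type*} [Field K] {A : ValuationSubring K}

theorem isInt_iff_mem {x : LaurentSeries K} : IsInt A x ↔ x ∈ intL A := mem_intL.symm

theorem rd_eq_redL {x : LaurentSeries K} (h : x ∈ intL A) : rd A x = redL A ⟨x, h⟩ := by
  ext n
  rw [rd_coeff, redL_coeff]
  exact resid_of_mem A _

theorem red_rd {x : LaurentSeries K} (h : IsInt A x) : Red A x (rd A x) := by
  rw [rd_eq_redL (isInt_iff_mem.mp h)]
  exact Red.of_intL ⟨x, isInt_iff_mem.mp h⟩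

theorem bdd_of_mem {x : LaurentSeries K} (h : x ∈ bddL A) : Bdd A x := by
  obtain ⟨c, -, hc, h⟩ := h
  refine ⟨c, hc, ?_⟩
  rw [isInt_iff_mem, Algebra.smul_def, algebraMap_eq_C]
  exact h

theorem numF_of_mem [CharZero K] [Algebra ℚ K] {x : LaurentSeries K} (h : x ∈ finL K) :
    NumF x := by
  obtain ⟨E, hE, hx⟩ := h
  obtain ⟨S, hS⟩ : E.FG := by
    apply IntermediateField.fg_of_fg_toSubalgebra
    exact Subalgebra.fg_of_fg_toSubmodule ((Submodule.fg_top _).mp hE.fg_top)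
  refine ⟨S, fun n => ?_⟩
  have h1 := hx n
  rw [← hS] at h1
  have h2 : IntermediateField.adjoin ℚ (S : Set K) ≤
      (Subfield.closure (S : Set K)).toIntermediateField (fun q => by
        rw [eq_ratCast]
        exact SubfieldClass.ratCast_mem _ q) := by
    rw [IntermediateField.adjoin_le_iff]
    exact Subfield.subset_closure
  exact h2 h1

theorem rd_qExpand (n : ℕ) [NeZero n] (x : LaurentSeries K) :
    rd A (qExpand K n x) = qExpand (kk A) n (rd A x) := by
  ext m
  rw [rd_coeff]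
  by_cases hm : (n : ℤ) ∣ m
  · obtain ⟨k, rfl⟩ := hm
    rw [qExpand_coeff_mul, qExpand_coeff_mul, rd_coeff]
  · rw [qExpand_coeff_of_not_dvd n _ hm, qExpand_coeff_of_not_dvd n _ hm, resid_zero]

theorem isInt_qExpand (n : ℕ) [NeZero n] {x : LaurentSeries K} :
    IsInt A (qExpand K n x) ↔ IsInt A x := by
  constructor
  · intro h m
    have := h (n * m)
    rwa [qExpand_coeff_mul] at this
  · intro h
    rw [isInt_iff_mem] at h ⊢
    exact qExpand_mem_intL n ⟨x, h⟩

theorem unitLead_qExpand (n : ℕ) [NeZero n] {x : LaurentSeries K} {m : ℤ}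
    (h : UnitLead A x m) : UnitLead A (qExpand K n x) (n * m) where
  int := (isInt_qExpand n).mpr h.int
  below i hi := by
    by_cases hn : (n : ℤ) ∣ i
    · obtain ⟨k, rfl⟩ := hn
      rw [qExpand_coeff_mul]
      have hn0 : (0 : ℤ) < n := by exact_mod_cast NeZero.pos n
      exact h.below k (lt_of_mul_lt_mul_left hi hn0.le)
    · exact qExpand_coeff_of_not_dvd n _ hn
  lead := by
    rw [qExpand_coeff_mul]
    exact h.lead

theorem twist_mem_intL {a : Kˣ} (ha : (a : K) ∈ A) (ha' : ((a⁻¹ : Kˣ) : K) ∈ A)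
    {x : LaurentSeries K} (hx : x ∈ intL A) : twist a x ∈ intL A := by
  rw [mem_intL]
  intro n
  rw [twist_coeff]
  refine mul_mem (mem_intL.mp hx n) ?_
  obtain ⟨m, rfl | rfl⟩ := n.eq_nat_or_neg
  · rw [zpow_natCast, Units.val_pow_eq_pow_val]; exact pow_mem ha m
  · rw [zpow_neg, zpow_natCast, ← inv_pow, Units.val_pow_eq_pow_val]
    exact pow_mem ha' m

theorem unit_mem_of_pow_eq_one {a : Kˣ} {n : ℕ} (hn : n ≠ 0) (h : a ^ n = 1) : (a : K) ∈ A := by
  have hint : IsIntegral ℤ (a : K) := by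
    refine ⟨Polynomial.X ^ n - 1, Polynomial.monic_X_pow_sub_C 1 hn, ?_⟩
    rw [Polynomial.eval₂_sub, Polynomial.eval₂_pow, Polynomial.eval₂_X, Polynomial.eval₂_one,
      ← Units.val_pow_eq_pow_val, h, Units.val_one, sub_self]
  exact H05.mem_of_isIntegral A hint

end Bridge

namespace ALData

variable {K : Type*} [Field K] [CharZero K] [IsAlgClosed K] [Algebra ℚ K]
  [Algebra.IsAlgebraic ℚ K]
variable {r : ℕ} [NeZero r] {D : ALData K r} {A : ValuationSubring K}

/-- the reduction properties of Atkin–Lehner data. -/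
structure RedHyp (D : ALData K r) (A : ValuationSubring K)
    (Eb : IntermediateField (kk A) (LaurentSeries (kk A))) : Prop where
  prime : r.Prime
  lies : A.LiesOverPrime r
  fun₁ : FunField K D.S
  mem_FL : ∀ x ∈ D.S, x ∈ FL A
  mem_j : (D.j : LaurentSeries K) ∈ intL A
  red_mem : ∀ x ∈ D.S, ∀ u, Red A x u → u ∈ Eb

variable {Eb : IntermediateField (kk A) (LaurentSeries (kk A))} (R : D.RedHyp A Eb)

include R

theorem RedHyp.e_mem_FL (j : Fin 2) (z : D.S) : D.e j z ∈ FL A := by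
  rcases fin2_cases j with rfl | rfl
  · exact R.mem_FL _ z.2
  · exact R.mem_FL _ (D.w z).2

theorem RedHyp.e_mem_DD {z : D.S} (hz : D.Rg z) (j : Fin 2) : D.e j z ∈ DD A := by
  haveI := R.fun₁
  haveI := H08.mulArchimedean_valueGroup R.prime R.lies
  refine mem_DD_of_FL (R.e_mem_FL j z) (mem_bddL_of_isIntegral (R.e_mem_FL j z) ?_)
  refine hz.isIntegral_e D (fun c => ?_) (intL_le_bddL R.mem_j)
    (intL_le_bddL (qExpand_mem_intL r ⟨_, R.mem_j⟩)) j
  rw [algebraMap_eq_C]
  exact C_mem_bddL c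

theorem RedHyp.isInt_cf {z : D.S} (hi : ∀ j, IsInt A (D.e j z)) (n : ℕ) :
    IsInt A (D.cf z n : LaurentSeries K) := by
  -- roots of unity
  obtain ⟨ζ', hζ'⟩ : ∃ ζ : K, IsPrimitiveRoot ζ r := by
    haveI : NeZero ((r : ℕ) : K) := ⟨by exact_mod_cast R.prime.ne_zero⟩
    exact HasEnoughRootsOfUnity.exists_primitiveRoot K r
  obtain ⟨ζ, rfl⟩ : ∃ ζ : Kˣ, (ζ : K) = ζ' :=
    ⟨(hζ'.isUnit R.prime.ne_zero).unit, (hζ'.isUnit R.prime.ne_zero).unit_spec⟩
  have hζ : IsPrimitiveRoot ζ r := IsPrimitiveRoot.coe_units_iff.mp hζ'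
  rw [← isInt_qExpand r, isInt_iff_mem]
  apply D.cf_mem R.prime hζ
  rintro (_ | b)
  · rw [D.τ_none, ← isInt_iff_mem, isInt_qExpand]
    exact hi 0
  · rw [D.τ_some]
    have hb : (ζ ^ b.val) ^ r = 1 := by
      rw [← pow_mul, mul_comm, pow_mul, hζ.pow_eq_one, one_pow]
    refine twist_mem_intL (unit_mem_of_pow_eq_one R.prime.ne_zero hb)
      (unit_mem_of_pow_eq_one R.prime.ne_zero (by rw [inv_pow, hb, inv_one])) ?_
    rw [← isInt_iff_mem]
    exact hi 1

theorem RedHyp.rd_mem_O_zero (lp : LevelPack A D.S₀ Eb r) {z : D.S} (hz : D.Rg z)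
    (hi : ∀ j, IsInt A (D.e j z)) : rd A (z : LaurentSeries K) ∈ lp.O := by
  haveI := R.fun₁
  have hi0 : IsInt A (z : LaurentSeries K) := hi 0
  have hc : ∀ n, rd A (D.cf z n : LaurentSeries K) ∈ lp.O := fun n =>
    lp.red _ (D.polInf_cf hz n) (R.isInt_cf hi n)
  apply lp.O_int _ (R.red_mem _ z.2 _ (red_rd hi0))
  refine ⟨Polynomial.X ^ D.dg z + ∑ i ∈ Finset.range (D.dg z),
    Polynomial.C (rd A (D.cf z i : LaurentSeries K)) * Polynomial.X ^ i, ?_, ?_, ?_⟩
  · apply Polynomial.monic_X_pow_add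
    refine (Polynomial.degree_sum_le _ _).trans_lt ?_
    refine (Finset.sup_lt_iff (WithBot.bot_lt_coe _)).mpr ?_
    intro i hi
    exact (Polynomial.degree_C_mul_X_pow_le i _).trans_lt
      (WithBot.coe_lt_coe.mpr (Finset.mem_range.mp hi))
  · intro i
    rw [Polynomial.coeff_add, Polynomial.finsetSum_coeff, Polynomial.coeff_X_pow]
    refine lp.O.add_mem ?_ (lp.O.sum_mem fun k _ => ?_)
    · split_ifs
      · exact lp.O.one_mem
      · exact lp.O.zero_mem
    · rw [Polynomial.coeff_C_mul, Polynomial.coeff_X_pow]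
      split_ifs
      · rw [mul_one]; exact hc k
      · rw [mul_zero]; exact lp.O.zero_mem
  · have h1 := congrArg (fun x : D.S => rd A (x : LaurentSeries K)) (D.sum_cf z)
    have h2 : ((z ^ D.dg z + ∑ i ∈ Finset.range (D.dg z), D.ι (D.cf z i) * z ^ i : D.S) :
        LaurentSeries K) = (z : LaurentSeries K) ^ D.dg z +
        ∑ i ∈ Finset.range (D.dg z), (D.cf z i : LaurentSeries K) * (z : LaurentSeries K) ^ i := by
      rw [AddMemClass.coe_add, SubmonoidClass.coe_pow, AddSubmonoidClass.coe_finsetSum]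
      congr 1
    change rd A ((z ^ D.dg z + ∑ i ∈ Finset.range (D.dg z), D.ι (D.cf z i) * z ^ i : D.S) :
        LaurentSeries K) = rd A ((0 : D.S) : LaurentSeries K) at h1
    have hterm : ∀ i ∈ Finset.range (D.dg z),
        IsInt A ((D.cf z i : LaurentSeries K) * (z : LaurentSeries K) ^ i) := fun i _ =>
      (R.isInt_cf hi i).mul (hi0.pow i)
    rw [h2, rd_add (hi0.pow _) (IsInt.sum _ _ hterm), rd_sum _ _ hterm, rd_pow hi0] at h1
    rw [Polynomial.eval_add, Polynomial.eval_pow, Polynomial.eval_X, Polynomial.eval_finsetSum]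
    have h3 : rd A ((0 : D.S) : LaurentSeries K) = 0 := rd_zero A
    rw [h3] at h1
    rw [← h1]
    congr 1
    refine Finset.sum_congr rfl fun i _ => ?_
    rw [Polynomial.eval_mul, Polynomial.eval_C, Polynomial.eval_pow, Polynomial.eval_X,
      rd_mul (R.isInt_cf hi i) (hi0.pow i), rd_pow hi0]

theorem RedHyp.rd_mem_O (lp : LevelPack A D.S₀ Eb r) {z : D.S} (hz : D.Rg z)
    (hi : ∀ j, IsInt A (D.e j z)) (j : Fin 2) : rd A (D.e j z) ∈ lp.O := by
  rcases fin2_cases j with rfl | rfl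
  · exact R.rd_mem_O_zero lp hz hi
  · refine R.rd_mem_O_zero lp (z := D.w z) (Rg.w D hz) (fun j => ?_)
    rcases fin2_cases j with rfl | rfl
    · exact hi 1
    · rw [D.e_one_w]; exact hi 0

/-- **The two component data.** -/
def RedHyp.twoComp (lp : LevelPack A D.S₀ Eb r) : TwoComp K A D.S where
  P := D.cusp
  P_ne := D.cusp_ne R.prime
  e := D.e
  order_e j z _ := D.order_e j z
  nice z hz j := by
    have h := R.e_mem_DD (z := z) hz j
    exact ⟨numF_of_mem h.2, bdd_of_mem h.1⟩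
  κ := Eb.toSubfield
  O := lp.O
  O_le := lp.O_le
  O_int := lp.O_int
  O_const := lp.O_const
  g' := lp.g'
  O_dim := lp.O_dim
  res_κ z _ j hi := by
    rcases fin2_cases j with rfl | rfl
    · exact R.red_mem _ z.2 _ (red_rd hi)
    · exact R.red_mem _ (D.w z).2 _ (red_rd hi)
  res_O z hz hi j := R.rd_mem_O lp hz hi j

/-- **The raw node data.** -/
def RedHyp.raw (lp : LevelPack A D.S₀ Eb r) : Raw (R.twoComp lp) r where
  w := D.w.toAlgHom.toRingHom
  w_e z := D.e_zero_w z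
  w_e' z := D.e_one_w z
  w_R z hz := Rg.w D (z := z) hz
  X := {z | ∃ x : D.S₀, PolInf x ∧ IsInt A (x : LaurentSeries K) ∧ z = D.ι x}
  X_R := by
    rintro _ ⟨x, hx, -, rfl⟩
    exact D.rg_ι hx
  X_int := by
    rintro _ ⟨x, hx, hi, rfl⟩ j
    rcases fin2_cases j with rfl | rfl
    · change IsInt A (D.e 0 (D.ι x))
      rw [D.e_zero_ι]; exact hi
    · change IsInt A (D.e 1 (D.ι x))
      rw [D.e_one_ι, isInt_qExpand]; exact hi
  X_V := by
    rintro _ ⟨x, hx, hi, rfl⟩
    change rd A (D.e 1 (D.ι x)) = qExpand _ r (rd A (D.e 0 (D.ι x)))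
    rw [D.e_zero_ι, D.e_one_ι, rd_qExpand]
  O_frob := lp.O_frob
  X_span a ha := by
    obtain ⟨x, hx, hi, rfl⟩ := lp.lift a ha
    refine Submodule.subset_span ⟨D.ι x, ⟨x, hx, hi, rfl⟩, ?_⟩
    change rd A (x : LaurentSeries K) = rd A (D.e 0 (D.ι x))
    rw [D.e_zero_ι]
  X_exact := by
    obtain ⟨n₀, h⟩ := lp.exact
    refine ⟨n₀, fun n hn => ?_⟩
    obtain ⟨x, hx, hl⟩ := h n hn
    refine ⟨D.ι x, ⟨x, hx, hl.int, rfl⟩, ?_, ?_⟩
    · change UnitLead A (D.e 0 (D.ι x)) _
      rw [D.e_zero_ι]; exact hl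
    · change UnitLead A (D.e 1 (D.ι x)) _
      rw [D.e_one_ι]
      have := unitLead_qExpand r hl
      convert this using 1
      push_cast
      ring

/-- **Bridge**: functions with `m`-th power reductions on both components. -/
theorem RedHyp.inK_zero (lp : LevelPack A D.S₀ Eb r) {m : ℕ} {f y : D.S} (hf : f ≠ 0)
    (hy : y ≠ 0) (hfy : D.Rg (f * y ^ m)) {j : Fin 2}
    (h : ∃ c : K, c ≠ 0 ∧ ∃ u ∈ Eb, u ≠ 0 ∧ Red A (HahnSeries.C c * D.e j f) (u ^ m)) :
    InK (R.twoComp lp) m j f := by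
  obtain ⟨c, hc, u, hu, hu0, hr⟩ := h
  have hy0 : D.e j y ≠ 0 := by
    intro h0
    exact hy ((D.e j).toRingHom.injective (by rw [map_zero]; exact h0))
  obtain ⟨d, hd, v, hv0, hrv⟩ := exists_red R.prime R.lies (R.e_mem_FL j y) hy0
  have hv : v ∈ Eb := by
    have h1 : HahnSeries.C d * D.e j y = D.e j (algebraMap K D.S d * y) := by
      rw [map_mul, AlgHom.commutes, algebraMap_eq_C]
    rw [h1] at hrv
    rcases fin2_cases j with rfl | rfl
    · exact R.red_mem _ (algebraMap K D.S d * y).2 _ hrv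
    · exact R.red_mem _ (D.w (algebraMap K D.S d * y)).2 _ hrv
  refine ⟨y, hy, hfy, c * d ^ m, mul_ne_zero hc (pow_ne_zero _ hd), ?_⟩
  have hr2 : Red A (HahnSeries.C (c * d ^ m) * D.e j (f * y ^ m)) ((u * v) ^ m) := by
    have h1 := hr.mul (hrv.pow m)
    rw [← mul_pow] at h1
    convert h1 using 1
    rw [map_mul, map_pow, map_mul, map_pow, mul_pow]
    ring
  have hDD : HahnSeries.C (c * d ^ m) * D.e j (f * y ^ m) ∈ DD A :=
    mul_mem (C_mem_DD _) (R.e_mem_DD hfy j)
  obtain ⟨h1, h2⟩ := mem_intL_of_red R.prime R.lies hDD hr2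
  have h3 : (c * d ^ m) • D.e j (f * y ^ m) = HahnSeries.C (c * d ^ m) * D.e j (f * y ^ m) := by
    rw [Algebra.smul_def, algebraMap_eq_C]
  refine ⟨?_, u * v, mul_mem hu hv, mul_ne_zero hu0 hv0, ?_⟩
  · change IsInt A ((c * d ^ m) • D.e j (f * y ^ m))
    rw [h3, isInt_iff_mem]
    exact h1
  · change rd A ((c * d ^ m) • D.e j (f * y ^ m)) = _
    rw [h3, rd_eq_redL h1]
    exact h2

end ALData

end Fermat.Agent.Q
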