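import Mathlib
import Fermat.Prelude.Def_ModularCurve_LaurentCoeff
import Fermat.Prelude.Def_ModularCurve_X0
import Fermat.Agent.H05_Frob
import Fermat.Agent.H08.RankOne

/-!
# Gauss reduction of Laurent series

Coefficientwise integrality and reduction of Laurent series over a field `K` with a valuation
subring `A`.
-/

set_option autoImplicit false

noncomputable section

namespace Fermat.Agent.Q

open ModularCurve HahnSeries

variable {K : Type*} [Field K] (A : ValuationSubring K)

/-- The ring of Laurent series all of whose coefficients are in `A`. -/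
def intL : Subring (LaurentSeries K) := (coeffMap A.subtype).range

variable {A}

theorem mem_intL {x : LaurentSeries K} : x ∈ intL A ↔ ∀ n, x.coeff n ∈ A := by
  constructor
  · rintro ⟨y, rfl⟩ n
    rw [coeffMap_coeff]
    exact (y.coeff n).2
  · intro h
    refine ⟨⟨fun n => ⟨x.coeff n, h n⟩, ?_⟩, ?_⟩
    · have : (Function.support fun n => (⟨x.coeff n, h n⟩ : A)) = x.support := by
        ext n
        simp only [Function.mem_support, mem_support, ne_eq]
        rw [not_iff_not, ← Subtype.coe_inj]
        rfl
      rw [this]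
      exact x.isPWO_support
    · ext n
      rfl

variable (A) in
theorem coeffMap_subtype_injective : Function.Injective (coeffMap A.subtype) := by
  intro x y h
  ext n
  have := congrArg (fun z : LaurentSeries K => z.coeff n) h
  simpa using this

variable (A) in
/-- lifting an integral series to a series with coefficients in `A`. -/
def liftL : intL A ≃+* LaurentSeries A :=
  (RingEquiv.ofBijective (coeffMap A.subtype).rangeRestrict
    ⟨fun _ _ h => coeffMap_subtype_injective A (congrArg Subtype.val h),
      (coeffMap A.subtype).rangeRestrict_surjective⟩).symm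

theorem coe_liftL_coeff (x : intL A) (n : ℤ) :
    (((liftL A x).coeff n : A) : K) = (x : LaurentSeries K).coeff n := by
  have h : ((liftL A).symm (liftL A x) : LaurentSeries K) = x := by
    rw [RingEquiv.symm_apply_apply]
  conv_rhs => rw [← h]
  rfl

variable (A) in
/-- The coefficientwise reduction. -/
def redL : intL A →+* LaurentSeries (IsLocalRing.ResidueField A) :=
  (coeffMap (IsLocalRing.residue A)).comp (liftL A).toRingHom

theorem redL_coeff (x : intL A) (n : ℤ) :
    (redL A x).coeff n = IsLocalRing.residue A ⟨(x : LaurentSeries K).coeff n,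
      mem_intL.mp x.2 n⟩ := by
  change IsLocalRing.residue A ((liftL A x).coeff n) = _
  congr 1
  exact Subtype.ext (coe_liftL_coeff x n)

theorem redL_coeffMap (y : LaurentSeries A) (h : coeffMap A.subtype y ∈ intL A) :
    redL A ⟨coeffMap A.subtype y, h⟩ = coeffMap (IsLocalRing.residue A) y := by
  ext n
  rw [redL_coeff]
  rfl

theorem redL_eq_zero_iff (x : intL A) :
    redL A x = 0 ↔ ∀ n, (x : LaurentSeries K).coeff n ∈ A.nonunits := by
  constructor
  · intro h n
    have := congrArg (fun z : LaurentSeries _ => z.coeff n) h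
    simp only [redL_coeff, HahnSeries.coeff_zero, IsLocalRing.residue_eq_zero_iff] at this
    rwa [← ValuationSubring.coe_mem_nonunits_iff] at this
  · intro h
    ext n
    rw [redL_coeff, HahnSeries.coeff_zero, IsLocalRing.residue_eq_zero_iff,
      ← ValuationSubring.coe_mem_nonunits_iff]
    exact h n

theorem C_mem_intL {c : K} (hc : c ∈ A) : (HahnSeries.C c : LaurentSeries K) ∈ intL A := by
  rw [mem_intL]
  intro n
  rw [HahnSeries.C_apply, HahnSeries.coeff_single]
  split_ifs
  · exact hc
  · exact zero_mem A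

theorem single_mem_intL {c : K} (hc : c ∈ A) (m : ℤ) :
    (HahnSeries.single m c : LaurentSeries K) ∈ intL A := by
  rw [mem_intL]
  intro n
  rw [HahnSeries.coeff_single]
  split_ifs
  · exact hc
  · exact zero_mem A

theorem redL_C {c : K} (hc : c ∈ A) :
    redL A ⟨HahnSeries.C c, C_mem_intL hc⟩ = HahnSeries.C (IsLocalRing.residue A ⟨c, hc⟩) := by
  ext n
  rw [redL_coeff]
  simp only [HahnSeries.C_apply, HahnSeries.coeff_single]
  by_cases hn : n = 0
  · simp [hn]
  · simp only [hn, if_false]
    exact map_zero _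

theorem redL_single {c : K} (hc : c ∈ A) (m : ℤ) :
    redL A ⟨HahnSeries.single m c, single_mem_intL hc m⟩ =
      HahnSeries.single m (IsLocalRing.residue A ⟨c, hc⟩) := by
  ext n
  rw [redL_coeff]
  simp only [HahnSeries.coeff_single]
  by_cases hn : n = m
  · simp [hn]
  · simp only [hn, if_false]
    exact map_zero _

theorem coeff_C_mul' (c : K) (x : LaurentSeries K) (n : ℤ) :
    (HahnSeries.C c * x).coeff n = c * x.coeff n := by
  rw [HahnSeries.C_mul_eq_smul, HahnSeries.coeff_smul, smul_eq_mul]

/-! ### Complete integral closedness -/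

section CIC

/-- If the value group of `A` is archimedean, `A` is completely integrally closed. -/
theorem mem_of_mul_pow_mem [MulArchimedean A.ValueGroup] {s y : K} (hs : s ≠ 0)
    (h : ∀ n : ℕ, s * y ^ n ∈ A) : y ∈ A := by
  rw [← A.valuation_le_one_iff]
  by_contra hy
  push Not at hy
  have hs' : A.valuation s ≠ 0 := by simpa using hs
  obtain ⟨n, hn⟩ := MulArchimedean.arch (A.valuation s)⁻¹ hy
  have h1 := h (n + 1)
  rw [← A.valuation_le_one_iff, map_mul, map_pow] at h1
  have h2 : (A.valuation s)⁻¹ < A.valuation y ^ (n + 1) := by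
    refine lt_of_le_of_lt hn ?_
    exact pow_lt_pow_right₀ hy (Nat.lt_succ_self n)
  have h3 : 1 < A.valuation s * A.valuation y ^ (n + 1) := by
    have := (inv_lt_iff_one_lt_mul₀ (zero_lt_iff.mpr hs')).mp h2
    rwa [mul_comm] at this
  exact absurd h1 (not_le.mpr h3)

theorem coeff_mul_pow_order {s Z : LaurentSeries K} (hs : s ≠ 0) (hZ : Z ≠ 0) (n : ℕ) :
    (s * Z ^ n).coeff (s.order + n * Z.order) = s.coeff s.order * (Z.coeff Z.order) ^ n := by
  have h1 : (s * Z ^ n).order = s.order + n * Z.order := by
    rw [HahnSeries.order_mul hs (pow_ne_zero n hZ), HahnSeries.order_pow, nsmul_eq_mul]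
  have h2 : ∀ k : ℕ, (Z ^ k).leadingCoeff = Z.leadingCoeff ^ k := by
    intro k
    induction k with
    | zero => simp
    | succ k ih => rw [pow_succ, HahnSeries.leadingCoeff_mul, ih, pow_succ]
  rw [← h1, ← HahnSeries.leadingCoeff_eq, HahnSeries.leadingCoeff_mul,
    h2, HahnSeries.leadingCoeff_eq, HahnSeries.leadingCoeff_eq]

/-- **CIC**: `A((q))` is completely integrally closed in `K((q))`. -/
theorem mem_intL_of_mul_pow_mem [MulArchimedean A.ValueGroup] {s Y : LaurentSeries K}
    (hs : s ≠ 0) (h : ∀ n : ℕ, s * Y ^ n ∈ intL A) : Y ∈ intL A := by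
  classical
  rw [mem_intL]
  by_contra hcon
  push Not at hcon
  -- the set of bad indices
  let B : Set ℤ := {n | Y.coeff n ∉ A}
  have hBsub : B ⊆ Y.support := by
    intro n hn
    rw [mem_support]
    intro h0
    apply hn
    rw [h0]
    exact zero_mem A
  have hBne : B.Nonempty := hcon
  have hBwf : B.IsWF := (Y.isPWO_support.isWF).mono hBsub
  let m : ℤ := hBwf.min hBne
  have hm : Y.coeff m ∉ A := hBwf.min_mem hBne
  have hlt : ∀ n < m, Y.coeff n ∈ A := by
    intro n hn
    by_contra hc
    exact hBwf.not_lt_min hBne hc hn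
  -- the tail
  let Z : LaurentSeries K := ⟨fun n => if n < m then 0 else Y.coeff n, by
    refine Y.isPWO_support.mono ?_
    intro n hn
    rw [Function.mem_support] at hn
    rw [mem_support]
    intro h0
    apply hn
    simp only [h0, ite_self]⟩
  have hZc : ∀ n, Z.coeff n = if n < m then 0 else Y.coeff n := fun n => rfl
  have hYm : Y.coeff m ≠ 0 := by
    intro h0
    rw [h0] at hm
    exact hm (zero_mem A)
  have hZm : Z.coeff m = Y.coeff m := by rw [hZc, if_neg (lt_irrefl m)]
  have hZ0 : Z ≠ 0 := by
    intro h0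
    rw [h0] at hZm
    exact hYm hZm.symm
  have hZo : Z.order = m := by
    apply le_antisymm
    · exact HahnSeries.order_le_of_coeff_ne_zero (by rw [hZm]; exact hYm)
    · rw [HahnSeries.le_order_iff_forall hZ0]
      intro n hn
      rw [hZc, if_pos hn]
  have hT : Y - Z ∈ intL A := by
    rw [mem_intL]
    intro n
    rw [HahnSeries.coeff_sub, hZc]
    split_ifs with hn
    · rw [sub_zero]; exact hlt n hn
    · rw [sub_self]; exact zero_mem A
  have hP : ∀ n : ℕ, s * Z ^ n ∈ intL A := by
    intro n
    have hZ' : Z = Y + (-(Y - Z)) := by ring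
    rw [hZ', add_pow, Finset.mul_sum]
    refine sum_mem fun i _ => ?_
    have : s * (Y ^ i * (-(Y - Z)) ^ (n - i) * (n.choose i : LaurentSeries K)) =
        (s * Y ^ i) * ((-(Y - Z)) ^ (n - i)) * (n.choose i : LaurentSeries K) := by ring
    rw [this]
    exact mul_mem (mul_mem (h i) (pow_mem (neg_mem hT) _)) (natCast_mem _ _)
  apply hm
  apply mem_of_mul_pow_mem (s := s.coeff s.order) (A := A)
  · rw [← HahnSeries.leadingCoeff_eq]
    exact HahnSeries.leadingCoeff_ne_zero.mpr hs
  · intro n
    have := coeff_mul_pow_order hs hZ0 n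
    rw [hZo, hZm] at this
    rw [← this]
    exact mem_intL.mp (hP n) _

open Polynomial in
/-- an element of `Frac A((q))` integral over `A((q))` is in `A((q))`. -/
theorem mem_intL_of_integral [MulArchimedean A.ValueGroup] {Q Y : LaurentSeries K}
    (hQ0 : Q ≠ 0) (hQ : Q ∈ intL A) (hQY : Q * Y ∈ intL A) (hY : IsIntegral (intL A) Y) :
    Y ∈ intL A := by
  obtain ⟨p, hp, hpY⟩ := hY
  have hdeg : ∀ r : (intL A)[X], r.natDegree ≤ p.natDegree →
      Q ^ p.natDegree * Polynomial.aeval Y r ∈ intL A := by
    intro r hr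
    rw [Polynomial.aeval_eq_sum_range' (Nat.lt_succ_of_le hr), Finset.mul_sum]
    refine sum_mem fun i hi => ?_
    rw [Finset.mem_range, Nat.lt_succ_iff] at hi
    have : Q ^ p.natDegree * (r.coeff i • Y ^ i) =
        (r.coeff i : LaurentSeries K) * (Q ^ (p.natDegree - i) * (Q * Y) ^ i) := by
      rw [Subring.smul_def, smul_eq_mul, mul_pow, ← mul_assoc (Q ^ (p.natDegree - i)), ← _root_.pow_add,
        Nat.sub_add_cancel hi]
      ring
    rw [this]
    exact mul_mem (r.coeff i).2 (mul_mem (pow_mem hQ _) (pow_mem hQY _))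
  apply mem_intL_of_mul_pow_mem (s := Q ^ p.natDegree) (pow_ne_zero _ hQ0)
  intro n
  have h1 : Y ^ n = Polynomial.aeval Y ((X ^ n : (intL A)[X]) %ₘ p) := by
    have h2 := congrArg (Polynomial.aeval Y) (modByMonic_add_div (X ^ n : (intL A)[X]) p)
    rw [map_add, map_mul, map_pow, aeval_X] at h2
    have h3 : Polynomial.aeval Y p = 0 := hpY
    rw [h3, zero_mul, add_zero] at h2
    exact h2.symm
  rw [h1]
  apply hdeg
  exact (natDegree_modByMonic_le _ hp)

end CIC

end Fermat.Agent.Q
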