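import Fermat.Agent.H01.P.PullInj
import Fermat.Agent.H11Q.Packs

/-!
# The Galois action on the toric part: all levels, all `m` prime to `r`, no hypotheses
-/

set_option autoImplicit false
set_option linter.style.haveILetI false
set_option linter.unusedSectionVars false
set_option maxSynthPendingDepth 3

noncomputable section

namespace Fermat.Agent.Q

open ModularCurve AlgebraicCurve Fermat.Agent.H11Q

local notation "kk" => IsLocalRing.ResidueField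
local notation "Qb" => AlgebraicClosure ℚ

section Transfer

variable {M M' r : ℕ} [NeZero M] [NeZero M'] [hr : Fact r.Prime] {ℓ : ℕ} [hℓ : Fact ℓ.Prime]
  (hrM : Nat.Coprime r M) (hrM' : Nat.Coprime r M') {A : ValuationSubring Qb} {m : ℕ}

/-- transfer of (T1) -/
theorem inertia_transfer' (hM' : M' = M * ℓ) (hℓM : ¬ ℓ ∣ M * r) (hm : m ≠ 0)
    (σ : Qb ≃ₐ[ℚ] Qb) (h : ∀ y ∈ TSub A M' r m hrM', σ • y = y) {x : JZero (M * r)}
    (hx : x ∈ TSub A M r m hrM) : σ • x = x := by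
  have hmx := nsmul_eq_zero_of_mem_KInf hx.1
  apply P.eq_of_pullT hM' hℓM hm (nsmul_galois σ hmx) hmx
  rw [pullT_galois hM' hm σ hmx]
  exact h _ (pullT_mem_TSub hM' hrM hrM' hm hx)

/-- transfer of (T3) -/
theorem swap_transfer' (hM' : M' = M * ℓ) (hℓM : ¬ ℓ ∣ M * r) (hm : m ≠ 0)
    (φ : Qb ≃ₐ[ℚ] Qb) (h : ∀ y ∈ TSub A M' r m hrM', φ • wS M' r hrM' • y = -(r • y))
    {x : JZero (M * r)}
    (hx : x ∈ TSub A M r m hrM) : φ • wS M r hrM • x = -(r • x) := by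
  have hmx := nsmul_eq_zero_of_mem_KInf hx.1
  have hmw : m • wS M r hrM • x = 0 := by rw [nsmul_wS, hmx, smul_zero]
  apply P.eq_of_pullT hM' hℓM hm (nsmul_galois φ hmw)
    (by rw [smul_neg, smul_comm, hmx, smul_zero, neg_zero])
  rw [pullT_galois hM' hm φ hmw, pullT_wS hM' hrM hrM' hm hmx, map_neg, map_nsmul]
  exact h _ (pullT_mem_TSub hM' hrM hrM' hm hx)

/-- transfer of (T2) -/
theorem frobenius_sq_transfer' (hM' : M' = M * ℓ) (hℓM : ¬ ℓ ∣ M * r) (hm : m ≠ 0)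
    (φ : Qb ≃ₐ[ℚ] Qb) (h : ∀ y ∈ TSub A M' r m hrM', φ • φ • y = (r ^ 2) • y)
    {x : JZero (M * r)}
    (hx : x ∈ TSub A M r m hrM) : φ • φ • x = (r ^ 2) • x := by
  have hmx := nsmul_eq_zero_of_mem_KInf hx.1
  have hm1 := nsmul_galois φ hmx
  apply P.eq_of_pullT hM' hℓM hm (nsmul_galois φ hm1)
    (by rw [smul_comm, hmx, smul_zero])
  rw [pullT_galois hM' hm φ hm1, pullT_galois hM' hm φ hmx, map_nsmul]
  exact h _ (pullT_mem_TSub hM' hrM hrM' hm hx)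

end Transfer

variable {M r : ℕ} [NeZero M] [hr : Fact r.Prime] (hrM : Nat.Coprime r M)
  {A : ValuationSubring Qb} (hA : A.LiesOverPrime r) {m : ℕ}

include hA

/-- **(T1)**, unconditional. -/
theorem toric_T1 (hm : ¬ r ∣ m) {x : JZero (M * r)}
    (hx : x ∈ TSub A M r m hrM) {σ : Qb ≃ₐ[ℚ] Qb} (hσ : σ ∈ A.inertiaSubgroupIn ℚ) :
    σ • x = x := by
  have hm0 : m ≠ 0 := by rintro rfl; exact hm (dvd_zero r)
  have hP := H11Q.hasPacks hr.out hA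
  by_cases h : 2 ∣ M ∨ 3 ∣ M
  · obtain ⟨lp⟩ := hP M hrM h
    exact inertia_smul_of_mem_TSub hrM hA lp hm hx hσ
  · obtain ⟨ℓ, hℓ, h1, h2, h3, h4⟩ := exists_aux_prime hr.out hrM h
    haveI : Fact ℓ.Prime := ⟨hℓ⟩
    haveI : NeZero (M * ℓ) := ⟨mul_ne_zero (NeZero.ne M) hℓ.ne_zero⟩
    obtain ⟨lp⟩ := hP (M * ℓ) h3 h2
    exact inertia_transfer' hrM h3 rfl h1 hm0 σ
      (fun y hy => inertia_smul_of_mem_TSub h3 hA lp hm hy hσ) hx

/-- **(T3)**, unconditional. -/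
theorem toric_T3 (hm : ¬ r ∣ m) {x : JZero (M * r)}
    (hx : x ∈ TSub A M r m hrM) {φ : Qb ≃ₐ[ℚ] Qb} (hφ : A.IsFrobeniusAt φ r) :
    φ • wS M r hrM • x = -(r • x) := by
  have hm0 : m ≠ 0 := by rintro rfl; exact hm (dvd_zero r)
  have hP := H11Q.hasPacks hr.out hA
  by_cases h : 2 ∣ M ∨ 3 ∣ M
  · obtain ⟨lp⟩ := hP M hrM h
    exact frobenius_smul_w_of_mem_TSub hrM hA lp hm hx hφ
  · obtain ⟨ℓ, hℓ, h1, h2, h3, h4⟩ := exists_aux_prime hr.out hrM h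
    haveI : Fact ℓ.Prime := ⟨hℓ⟩
    haveI : NeZero (M * ℓ) := ⟨mul_ne_zero (NeZero.ne M) hℓ.ne_zero⟩
    obtain ⟨lp⟩ := hP (M * ℓ) h3 h2
    exact swap_transfer' hrM h3 rfl h1 hm0 φ
      (fun y hy => frobenius_smul_w_of_mem_TSub h3 hA lp hm hy hφ) hx

/-- **(T2)**, unconditional. -/
theorem toric_T2 (hm : ¬ r ∣ m) {x : JZero (M * r)}
    (hx : x ∈ TSub A M r m hrM) {φ : Qb ≃ₐ[ℚ] Qb} (hφ : A.IsFrobeniusAt φ r) :
    φ • φ • x = (r ^ 2) • x := by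
  have hm0 : m ≠ 0 := by rintro rfl; exact hm (dvd_zero r)
  have hP := H11Q.hasPacks hr.out hA
  by_cases h : 2 ∣ M ∨ 3 ∣ M
  · obtain ⟨lp⟩ := hP M hrM h
    exact frobenius_sq_smul_of_mem_TSub hrM hA lp hm hx hφ
  · obtain ⟨ℓ, hℓ, h1, h2, h3, h4⟩ := exists_aux_prime hr.out hrM h
    haveI : Fact ℓ.Prime := ⟨hℓ⟩
    haveI : NeZero (M * ℓ) := ⟨mul_ne_zero (NeZero.ne M) hℓ.ne_zero⟩
    obtain ⟨lp⟩ := hP (M * ℓ) h3 h2
    exact frobenius_sq_transfer' hrM h3 rfl h1 hm0 φ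
      (fun y hy => frobenius_sq_smul_of_mem_TSub h3 hA lp hm hy hφ) hx

end Fermat.Agent.Q
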