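import Fermat.Agent.Q.Conc4

/-!
# The Galois action on the toric part
-/

set_option autoImplicit false
set_option linter.style.haveILetI false
set_option linter.unusedSectionVars false
set_option maxSynthPendingDepth 3

noncomputable section

attribute [-instance] HahnSeries.instModule HahnSeries.instSMul HahnSeries.instDistribMulAction
  HahnSeries.instSMulZeroClass

namespace Fermat.Agent.Q

open ModularCurve HahnSeries Fermat.Agent.Igusa AlgebraicCurve Fermat.Agent.FF Fermat.Agent.H11Q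

local notation "kk" => IsLocalRing.ResidueField
local notation "Qb" => AlgebraicClosure ℚ

theorem order_coeffMap_gen {K : Type*} [Field K] (σ : K →+* K) (x : LaurentSeries K) :
    (coeffMap σ x).order = x.order := by
  by_cases hx : x = 0
  · rw [hx, map_zero]
  · have h0 : coeffMap σ x ≠ 0 := by
      intro h
      exact hx (coeffMap_injective σ σ.injective (by rw [h, map_zero]))
    apply le_antisymm
    · apply HahnSeries.order_le_of_coeff_ne_zero
      rw [coeffMap_coeff]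
      exact (map_ne_zero σ).mpr (HahnSeries.coeff_order_eq_zero.not.mpr hx)
    · rw [HahnSeries.le_order_iff_forall h0]
      intro n hn
      rw [coeffMap_coeff, HahnSeries.coeff_eq_zero_of_lt_order hn, map_zero]

theorem kum_nsmul {K F : Type*} [Field K] [Field F] [Algebra K F] {m : ℕ} {x : Pic0 K F} {f : F}
    (h : H05.Kum m x f) (k : ℕ) : H05.Kum m (k • x) (f ^ k) := by
  induction k with
  | zero => rw [zero_smul, pow_zero]; exact H05.kum_zero_one m
  | succ k ih => rw [succ_nsmul, pow_succ]; exact ih.mul h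

namespace ALData

variable {K : Type*} [Field K] {r : ℕ} [NeZero r] (D : ALData K r)

/-- a Galois semilinear automorphism -/
structure Gal (D : ALData K r) where
  σ : K →+* K
  g : SemilinearAut K D.S
  g_coe : ∀ z : D.S, ((g • z : D.S) : LaurentSeries K) = coeffMap σ (z : LaurentSeries K)
  g_w : ∀ z : D.S, D.w (g • z) = g • D.w z

variable {D} (G : D.Gal)

theorem Gal.e_smul (j : Fin 2) (z : D.S) : D.e j (G.g • z) = coeffMap G.σ (D.e j z) := by
  rcases fin2_cases j with rfl | rfl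
  · exact G.g_coe z
  · rw [e_one, e_one, G.g_w, G.g_coe]

theorem Gal.smul_cusp (j : Fin 2) : G.g • D.cusp j = D.cusp j := by
  apply M5.place_ext
  intro f _
  have h1 := SemilinearAut.ord_smul G.g (D.cusp j) (G.g⁻¹ • f)
  rw [smul_inv_smul] at h1
  rw [h1, ← D.order_e, ← D.order_e]
  have h2 := G.e_smul j (G.g⁻¹ • f)
  rw [smul_inv_smul] at h2
  rw [h2, order_coeffMap_gen]

theorem Gal.rg_smul {z : D.S} (hz : D.Rg z) : D.Rg (G.g • z) := by
  have key : ∀ (v : Place K D.S) (j : Fin 2), v ≠ D.cusp j → G.g⁻¹ • v ≠ D.cusp j := by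
    intro v j hv h
    apply hv
    rw [← G.smul_cusp j, ← h, smul_inv_smul]
  intro v h0 h1
  have h2 := SemilinearAut.ord_smul G.g (G.g⁻¹ • v) z
  rw [smul_inv_smul] at h2
  rw [H18.mem_iff, h2, ← H18.mem_iff]
  exact hz _ (key v 0 h0) (key v 1 h1)

theorem smul_dvd (g : SemilinearAut K D.S) (m : ℕ) (z : D.S)
    (h : ∀ v : Place K D.S, (m : ℤ) ∣ v.ord z) (v : Place K D.S) : (m : ℤ) ∣ v.ord (g • z) := by
  have h2 := SemilinearAut.ord_smul g (g⁻¹ • v) z
  rw [smul_inv_smul] at h2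
  rw [h2]
  exact h _

variable [CharZero K] [IsAlgClosed K] [Algebra ℚ K] [Algebra.IsAlgebraic ℚ K]
variable {A : ValuationSubring K}
  {Eb : IntermediateField (kk A) (LaurentSeries (kk A))} (R : D.RedHyp A Eb)
  (lp : LevelPack A D.S₀ Eb r)

/-- the associated action datum -/
def Gal.preAct (τ : kk A →+* kk A) (hA : ∀ a ∈ A, G.σ a ∈ A)
    (hτ : ∀ a ∈ A, resid A (G.σ a) = τ (resid A a)) (hκ : ∀ u ∈ Eb, coeffMap τ u ∈ Eb)
    (hor : (∀ c : kk A, τ c = c) ∨ (∀ c : kk A, τ c = c ^ r ^ 2)) :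
    PreAct (R.twoComp lp) r where
  σ := G.σ
  S := (SemilinearAut.toRingAut G.g).toRingHom
  τ := τ
  memA := hA
  S_e j z := G.e_smul j z
  S_R z hz := G.rg_smul (z := z) hz
  S_dvd m z _ h v := smul_dvd G.g m z h v
  resid_σ := hτ
  κ_τ := hκ
  τ_or := hor

/-- the associated swapping action datum -/
def Gal.preSwap (τ : kk A →+* kk A) (hA : ∀ a ∈ A, G.σ a ∈ A)
    (hτ : ∀ a ∈ A, resid A (G.σ a) = τ (resid A a)) (hκ : ∀ u ∈ Eb, coeffMap τ u ∈ Eb)
    (hor : ∀ c : kk A, τ c = c ^ r) :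
    PreSwap (R.twoComp lp) r where
  σ := G.σ
  S := (SemilinearAut.toRingAut G.g).toRingHom.comp (SemilinearAut.toRingAut D.W).toRingHom
  τ := τ
  memA := hA
  S_e0 z := by
    change D.e 0 (G.g • D.w z) = _
    rw [G.e_smul, D.e_zero_w]
    rfl
  S_e1 z := by
    change D.e 1 (G.g • D.w z) = _
    rw [G.e_smul, D.e_one_w]
    rfl
  S_R z hz := G.rg_smul (z := D.w z) (Rg.w D (z := z) hz)
  S_dvd m z _ h v := smul_dvd G.g m _ (smul_dvd D.W m z h) v
  resid_σ := hτ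
  κ_τ := hκ
  τ_pow := hor

include R

theorem RedHyp.inT {m : ℕ} (hm : m ≠ 0) {f : D.S} (hf : f ≠ 0)
    (hdvd : ∀ v : Place K D.S, (m : ℤ) ∣ v.ord f)
    (h : ∀ j, ∃ c : K, c ≠ 0 ∧ ∃ u ∈ Eb, u ≠ 0 ∧ Red A (HahnSeries.C c * D.e j f) (u ^ m)) :
    InT (R.twoComp lp) m f := by
  haveI := R.fun₁
  obtain ⟨y, hy, hfy⟩ := exists_mul_mem_Rg (T := R.twoComp lp) hm hf hdvd
  exact ⟨hf, hdvd, fun j => R.inK_zero lp hf hy hfy (h j)⟩

variable [HasPrincipalDivisors K D.S]

omit [HasPrincipalDivisors K D.S] in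
theorem RedHyp.resid_ne_zero {m : ℕ} (hm : ¬ r ∣ m) : resid A (m : K) ≠ 0 := by
  have hmem : (m : K) ∈ A := natCast_mem A m
  rw [resid_of_mem A hmem]
  haveI := H05.charP_residueField R.prime R.lies
  have h1 : IsLocalRing.residue A ⟨(m : K), hmem⟩ = (m : kk A) := by
    have : (⟨(m : K), hmem⟩ : A) = (m : A) := Subtype.ext (by push_cast; rfl)
    rw [this, map_natCast]
  rw [h1, ne_eq, CharP.cast_eq_zero_iff (kk A) r]
  exact hm

theorem RedHyp.smul_eq_nsmul {m N : ℕ} (hm : ¬ r ∣ m) (τ : kk A →+* kk A)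
    (hA : ∀ a ∈ A, G.σ a ∈ A)
    (hτ : ∀ a ∈ A, resid A (G.σ a) = τ (resid A a)) (hκ : ∀ u ∈ Eb, coeffMap τ u ∈ Eb)
    (hor : (∀ c : kk A, τ c = c) ∨ (∀ c : kk A, τ c = c ^ r ^ 2))
    (hN : ∀ c : kk A, c ^ m = 1 → τ c = c ^ N) {f : D.S} {x : Pic0 K D.S}
    (hx : H05.Kum m x f) (hf : InT (R.twoComp lp) m f) : G.g • x = N • x := by
  haveI := R.fun₁
  haveI : Algebra.IsAlgebraic ℤ K := by
    rw [IsFractionRing.comap_isAlgebraic_iff (A := ℤ) (K := ℚ) (C := K)]
    infer_instance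
  have hm0 : m ≠ 0 := by rintro rfl; exact hm (dvd_zero r)
  obtain ⟨g, hg0, hg⟩ := (G.preAct R lp τ hA hτ hκ hor).exists_eq_pow_mul R.prime R.lies
    (R.raw lp) (R.resid_ne_zero hm) hN hf
  have h1 := hx.smul G.g
  have h2 : G.g • f = f ^ N * g ^ m := hg
  rw [h2] at h1
  exact h1.unique_left hm0 ((kum_nsmul hx N).mul_pow' hg0)

theorem RedHyp.swap_eq_neg {m : ℕ} (hm : ¬ r ∣ m) (τ : kk A →+* kk A)
    (hA : ∀ a ∈ A, G.σ a ∈ A)
    (hτ : ∀ a ∈ A, resid A (G.σ a) = τ (resid A a)) (hκ : ∀ u ∈ Eb, coeffMap τ u ∈ Eb)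
    (hor : ∀ c : kk A, τ c = c ^ r) {f : D.S} {x : Pic0 K D.S}
    (hx : H05.Kum m x f) (hf : InT (R.twoComp lp) m f) : G.g • D.W • x + r • x = 0 := by
  haveI := R.fun₁
  haveI : Algebra.IsAlgebraic ℤ K := by
    rw [IsFractionRing.comap_isAlgebraic_iff (A := ℤ) (K := ℚ) (C := K)]
    infer_instance
  have hm0 : m ≠ 0 := by rintro rfl; exact hm (dvd_zero r)
  obtain ⟨g, hg0, hg⟩ := (G.preSwap R lp τ hA hτ hκ hor).exists_mul_eq_pow R.prime R.lies
    (R.raw lp) (R.resid_ne_zero hm) hf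
  have h1 := ((hx.smul D.W).smul G.g).mul (kum_nsmul hx r)
  have h2 : (G.g • D.W • f) * f ^ r = g ^ m := hg
  rw [h2] at h1
  exact h1.unique_left hm0 (H05.kum_zero_pow m hg0)

end ALData

end Fermat.Agent.Q
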