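import Fermat.Agent.Q.Conc1
import Fermat.Agent.M5.CuspCases
import Fermat.Agent.H11Q.LevelPack

/-!
# Abstract Atkin–Lehner data: the two cusps and the expansions
-/

set_option autoImplicit false
set_option linter.style.haveILetI false
set_option maxSynthPendingDepth 3

noncomputable section

attribute [-instance] HahnSeries.instModule HahnSeries.instSMul HahnSeries.instDistribMulAction
  HahnSeries.instSMulZeroClass

namespace Fermat.Agent.Q

open ModularCurve HahnSeries Fermat.Agent.Igusa AlgebraicCurve Fermat.Agent.FF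

local notation "kk" => IsLocalRing.ResidueField

section Order

variable {K : Type*} [Field K]

theorem order_qExpand_gen (r : ℕ) [NeZero r] (x : LaurentSeries K) :
    (qExpand K r x).order = r * x.order := by
  by_cases hx : x = 0
  · subst hx
    simp
  · exact Igusa.order_qExpand r hx

theorem order_twist_gen (a : Kˣ) (x : LaurentSeries K) (n : ℤ) :
    (twist a x).coeff n = 0 ↔ x.coeff n = 0 := by
  rw [twist_coeff, mul_eq_zero]
  constructor
  · rintro (h | h)
    · exact h
    · exact absurd h (Units.ne_zero _)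
  · exact Or.inl

end Order

/-- Abstract Atkin–Lehner data: function fields of level `M` and `M r` inside Laurent series. -/
structure ALData (K : Type*) [Field K] (r : ℕ) [NeZero r] where
  S₀ : IntermediateField K (LaurentSeries K)
  S : IntermediateField K (LaurentSeries K)
  le : S₀ ≤ S
  int : (IntermediateField.inclusion le).toRingHom.IsIntegral
  fin : FiniteAlong K (IntermediateField.inclusion le)
  rank : finrankAlong K (IntermediateField.inclusion le) = r + 1
  w : S ≃ₐ[K] S
  ww : ∀ x, w (w x) = x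
  w_incl : ∀ x : S₀, (w (IntermediateField.inclusion le x) : LaurentSeries K) =
    qExpand K r (x : LaurentSeries K)
  P₀ : Place K S₀
  P₀_ord : ∀ x : S₀, P₀.ord x = (x : LaurentSeries K).order
  P : Place K S
  P_ord : ∀ x : S, P.ord x = (x : LaurentSeries K).order
  j : S₀
  j_order : (j : LaurentSeries K).order = -1
  fiber : ∀ v : Place K S, v.restrictAlong (IntermediateField.inclusion le) int = P₀ →
    v = P ∨ v = SemilinearAut.ofAlgAut w • P

namespace ALData

variable {K : Type*} [Field K] {r : ℕ} [NeZero r] (D : ALData K r)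

/-- the inclusion of level `M` functions. -/
def ι : D.S₀ →ₐ[K] D.S := IntermediateField.inclusion D.le

@[simp] theorem coe_ι (x : D.S₀) : (D.ι x : LaurentSeries K) = x :=
  IntermediateField.coe_inclusion _ x

theorem ι_ne_zero {x : D.S₀} (hx : x ≠ 0) : D.ι x ≠ 0 :=
  (map_ne_zero_iff _ D.ι.injective).mpr hx

theorem coe_w_ι (x : D.S₀) : (D.w (D.ι x) : LaurentSeries K) =
    qExpand K r (x : LaurentSeries K) := D.w_incl x

/-- the Atkin–Lehner involution as a semilinear automorphism -/
def W : SemilinearAut K D.S := SemilinearAut.ofAlgAut D.w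

theorem W_smul (x : D.S) : D.W • x = D.w x := rfl

theorem W_mul_self : D.W * D.W = 1 := by
  rw [W, ← map_mul]
  have : D.w * D.w = 1 := AlgEquiv.ext fun x => D.ww x
  rw [this, map_one]

theorem W_W_place (v : Place K D.S) : D.W • D.W • v = v := by
  rw [← mul_smul, D.W_mul_self, one_smul]

theorem ord_W_smul (v : Place K D.S) (z : D.S) : (D.W • v).ord z = v.ord (D.w z) := by
  have h := SemilinearAut.ord_smul D.W v (D.w z)
  rwa [D.W_smul, D.ww] at h

/-- the two expansions -/
def e : Fin 2 → (D.S →ₐ[K] LaurentSeries K) :=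
  ![D.S.val, D.S.val.comp D.w.toAlgHom]

theorem e_zero (z : D.S) : D.e 0 z = (z : LaurentSeries K) := rfl

theorem e_one (z : D.S) : D.e 1 z = (D.w z : LaurentSeries K) := rfl

theorem e_zero_w (z : D.S) : D.e 0 (D.w z) = D.e 1 z := rfl

theorem e_one_w (z : D.S) : D.e 1 (D.w z) = D.e 0 z := by
  rw [e_one, e_zero, D.ww]

/-- the two cusps -/
def cusp : Fin 2 → Place K D.S := ![D.P, D.W • D.P]

theorem cusp_zero : D.cusp 0 = D.P := rfl

theorem cusp_one : D.cusp 1 = D.W • D.P := rfl

theorem order_e (j : Fin 2) (z : D.S) : (D.e j z).order = (D.cusp j).ord z := by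
  rcases H11Q.fin2_cases j with rfl | rfl
  · rw [e_zero, cusp_zero, D.P_ord]
  · rw [e_one, cusp_one, D.ord_W_smul, D.P_ord]

theorem e_zero_ι (x : D.S₀) : D.e 0 (D.ι x) = (x : LaurentSeries K) := D.coe_ι x

theorem e_one_ι (x : D.S₀) : D.e 1 (D.ι x) = qExpand K r (x : LaurentSeries K) := D.coe_w_ι x

theorem ord_cusp_zero_ι (x : D.S₀) : (D.cusp 0).ord (D.ι x) = D.P₀.ord x := by
  rw [← order_e, e_zero_ι, D.P₀_ord]

theorem ord_cusp_one_ι (x : D.S₀) : (D.cusp 1).ord (D.ι x) = r * D.P₀.ord x := by
  rw [← order_e, e_one_ι, D.P₀_ord, order_qExpand_gen]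

theorem ord_P₀_j : D.P₀.ord D.j = -1 := by rw [D.P₀_ord, D.j_order]

theorem ord_cusp_zero_j : (D.cusp 0).ord (D.ι D.j) = -1 := by rw [ord_cusp_zero_ι, ord_P₀_j]

theorem ord_cusp_one_j : (D.cusp 1).ord (D.ι D.j) = -(r : ℤ) := by
  rw [ord_cusp_one_ι, ord_P₀_j]; ring

theorem cusp_ne (hr : r.Prime) : D.cusp 0 ≠ D.cusp 1 := by
  intro h
  have h1 := D.ord_cusp_zero_j
  rw [h, ord_cusp_one_j] at h1
  have := hr.two_le
  omega

/-- functions of level `M r` with poles only at the two cusps. -/
def Rg (z : D.S) : Prop :=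
  ∀ v : Place K D.S, v ≠ D.cusp 0 → v ≠ D.cusp 1 → z ∈ v.toValuationSubring

theorem polInf_iff {x : D.S₀} : H11Q.PolInf x ↔
    ∀ v : Place K D.S₀, v ≠ D.P₀ → x ∈ v.toValuationSubring := by
  constructor
  · intro h v hv
    apply h
    by_contra hcon
    push Not at hcon
    apply hv
    apply M5.place_ext
    intro f hf
    rw [hcon f hf, D.P₀_ord]
  · rintro h v ⟨z, hz, hz'⟩
    apply h
    rintro rfl
    exact hz' (D.P₀_ord z)

theorem rg_ι {x : D.S₀} (hx : H11Q.PolInf x) : D.Rg (D.ι x) := by
  rw [D.polInf_iff] at hx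
  intro v h0 h1
  rw [H18.mem_iff]
  have h2 := Place.ord_restrictAlong (IntermediateField.inclusion D.le) D.int v x
  have h3 : v.ord (D.ι x) = v.ord (IntermediateField.inclusion D.le x) := rfl
  rw [h3, h2]
  refine mul_nonneg (Int.natCast_nonneg _) ((H18.mem_iff _).mp (hx _ ?_))
  intro h
  rcases D.fiber v h with h4 | h4
  · exact h0 h4
  · exact h1 h4

theorem Rg.w {z : D.S} (hz : D.Rg z) : D.Rg (D.w z) := by
  intro v h0 h1
  rw [H18.mem_iff, ← ord_W_smul, ← H18.mem_iff]
  apply hz
  · intro h
    apply h1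
    rw [cusp_one, ← cusp_zero, ← h, W_W_place]
  · intro h
    apply h0
    rw [cusp_one] at h
    exact MulAction.injective _ h

section Int

variable [CharZero K]

/-- functions with poles only at the cusps are integral over the `j`-line. -/
theorem Rg.isIntegral [FunField K D.S] {z : D.S} (hz : D.Rg z) :
    IsIntegral (Algebra.adjoin K {D.ι D.j}) z := by
  apply isIntegral_of_forall_place
  intro v hv
  rw [H18.mem_iff] at hv
  apply hz
  · rintro rfl
    rw [ord_cusp_zero_j] at hv
    omega
  · rintro rfl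
    rw [ord_cusp_one_j] at hv
    have := NeZero.pos r
    omega

theorem Rg.isIntegral_e [FunField K D.S] {z : D.S} (hz : D.Rg z) {A : Subring (LaurentSeries K)}
    (hK : ∀ c : K, algebraMap K (LaurentSeries K) c ∈ A)
    (hj : (D.j : LaurentSeries K) ∈ A) (hj' : qExpand K r (D.j : LaurentSeries K) ∈ A)
    (j : Fin 2) : IsIntegral A (D.e j z) := by
  refine isIntegral_map_of_adjoin (D.e j) hK ?_ hz.isIntegral
  rcases H11Q.fin2_cases j with rfl | rfl
  · rw [e_zero_ι]; exact hj
  · rw [e_one_ι]; exact hj'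

end Int

/-! ### the embeddings -/

section Tau

/-- The `r + 1` embeddings of the level `M r` function field, agreeing on
the level `M` function field. -/
def τ (ζ : Kˣ) : Option (ZMod r) → (D.S →+* LaurentSeries K)
  | none => (qExpand K r).comp D.S.val.toRingHom
  | some b => (twist (ζ ^ b.val)).comp (D.S.val.toRingHom.comp D.w.toAlgHom.toRingHom)

theorem τ_none (ζ : Kˣ) (x : D.S) : D.τ ζ none x = qExpand K r x := rfl

theorem τ_some (ζ : Kˣ) (b : ZMod r) (x : D.S) :
    D.τ ζ (some b) x = twist (ζ ^ b.val) (D.w x) := rfl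

theorem τ_ι {ζ : Kˣ} (hζ : ζ ^ r = 1) (i : Option (ZMod r)) (x : D.S₀) :
    D.τ ζ i (D.ι x) = qExpand K r x := by
  rcases i with _ | b
  · rw [τ_none, coe_ι]
  · rw [τ_some, coe_w_ι, twist_qExpand]
    rw [← pow_mul, mul_comm, pow_mul, hζ, one_pow]

theorem coeff_j_ne : (D.j : LaurentSeries K).coeff (-1) ≠ 0 := by
  have h0 : (D.j : LaurentSeries K) ≠ 0 := by
    intro h
    have := D.j_order
    rw [h] at this
    simp at this
  rw [← D.j_order]
  exact HahnSeries.coeff_order_eq_zero.not.mpr h0

theorem τ_injective (hr : r.Prime) {ζ : Kˣ} (hζ : IsPrimitiveRoot ζ r) :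
    Function.Injective (D.τ ζ) := by
  let t : D.S := D.w (D.ι D.j)
  have ht : D.w t = D.ι D.j := D.ww _
  have h0 : ∀ b : ZMod r, D.τ ζ (some b) t = twist (ζ ^ b.val) (D.j : LaurentSeries K) := by
    intro b
    rw [τ_some, ht, coe_ι]
  have h1 : D.τ ζ none t = qExpand K r (qExpand K r (D.j : LaurentSeries K)) := by
    rw [τ_none, coe_w_ι]
  set a := (D.j : LaurentSeries K).coeff (-1) with ha
  have ha0 : a ≠ 0 := D.coeff_j_ne
  have hc : ∀ b : ZMod r, (twist (ζ ^ b.val) (D.j : LaurentSeries K)).coeff (-1) =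
      a * (((ζ ^ b.val)⁻¹ : Kˣ) : K) := by
    intro b
    rw [twist_coeff, zpow_neg_one]
  have hc' : (qExpand K r (qExpand K r (D.j : LaurentSeries K))).coeff (-1) = 0 := by
    apply qExpand_coeff_of_not_dvd
    rw [dvd_neg]
    intro h
    have : (r : ℤ) ≤ 1 := Int.le_of_dvd one_pos h
    have := hr.two_le
    omega
  intro i j hij
  have hij' := congrArg (fun f : D.S →+* LaurentSeries K => (f t).coeff (-1)) hij
  rcases i with _ | b <;> rcases j with _ | c
  · rfl
  · simp only [h1, h0, hc, hc'] at hij'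
    exact absurd hij'.symm (mul_ne_zero ha0 (Units.ne_zero _))
  · simp only [h1, h0, hc, hc'] at hij'
    exact absurd hij' (mul_ne_zero ha0 (Units.ne_zero _))
  · simp only [h0, hc] at hij'
    have h2 : ζ ^ b.val = ζ ^ c.val := inv_injective (Units.ext (mul_left_cancel₀ ha0 hij'))
    have h3 := hζ.pow_inj (ZMod.val_lt b) (ZMod.val_lt c) h2
    rw [ZMod.val_injective r h3]

/-- the coefficients of the minimal polynomial over level `M` -/
def cf (z : D.S) (n : ℕ) : D.S₀ :=
  letI := algebraAlong (IntermediateField.inclusion D.le)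
  (minpoly D.S₀ z).coeff n

/-- degree of the minimal polynomial -/
def dg (z : D.S) : ℕ :=
  letI := algebraAlong (IntermediateField.inclusion D.le)
  (minpoly D.S₀ z).natDegree

theorem sum_cf (z : D.S) :
    z ^ D.dg z + ∑ i ∈ Finset.range (D.dg z), D.ι (D.cf z i) * z ^ i = 0 := by
  letI := algebraAlong (IntermediateField.inclusion D.le)
  haveI : Module.Finite D.S₀ D.S := D.fin
  have hint : IsIntegral D.S₀ z := Algebra.IsIntegral.isIntegral z
  have h1 := minpoly.aeval D.S₀ z
  rw [Polynomial.aeval_def, Polynomial.eval₂_eq_sum_range, Finset.sum_range_succ] at h1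
  have h2 : (minpoly D.S₀ z).coeff (minpoly D.S₀ z).natDegree = 1 :=
    (minpoly.monic hint).coeff_natDegree
  rw [h2, map_one, one_mul, add_comm] at h1
  exact h1

theorem cf_mem (hr : r.Prime) [CharZero K] {ζ : Kˣ} (hζ : IsPrimitiveRoot ζ r)
    (T : Subring (LaurentSeries K)) (z : D.S) (h : ∀ i, D.τ ζ i z ∈ T) (n : ℕ) :
    qExpand K r (D.cf z n : LaurentSeries K) ∈ T := by
  letI := algebraAlong (IntermediateField.inclusion D.le)
  haveI : Module.Finite D.S₀ D.S := D.fin
  haveI : CharZero D.S₀ := charZero_of_injective_algebraMap (algebraMap K D.S₀).injective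
  have hfr : Module.finrank D.S₀ D.S = r + 1 := D.rank
  have h1 := minpoly_coeff_mem (E := D.S₀) (F := D.S) (none : Option (ZMod r)) (D.τ ζ)
    (D.τ_injective hr hζ) (fun i => RingHom.ext fun x => by
      rw [RingHom.comp_apply, RingHom.comp_apply]
      change D.τ ζ i (D.ι x) = D.τ ζ none (D.ι x)
      rw [D.τ_ι hζ.pow_eq_one, D.τ_ι hζ.pow_eq_one])
    (by rw [hfr, Fintype.card_option, ZMod.card]) T z h n
  have h2 : D.τ ζ none (algebraMap D.S₀ D.S ((minpoly D.S₀ z).coeff n)) =
      qExpand K r (D.cf z n : LaurentSeries K) := D.τ_ι hζ.pow_eq_one none _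
  rw [← h2]
  exact h1

end Tau

/-! ### poles of the coefficients -/

section Poles

/-- If `z` is regular at all the places above `v` then it is integral over the local ring. -/
theorem _root_.Fermat.Agent.Q.isIntegral_of_places_above {K E F : Type*} [Field K] [Field E]
    [Field F] [Algebra K E] [Algebra K F] [CharZero K] [FunField K F] (φ : E →ₐ[K] F)
    (v : Place K E) (z : F)
    (h : ∀ w : Place K F, (∀ x ∈ v.toValuationSubring, φ x ∈ w.toValuationSubring) →
      z ∈ w.toValuationSubring) :
    letI : Algebra v.toValuationSubring F :=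
      (φ.toRingHom.comp (algebraMap v.toValuationSubring E)).toAlgebra
    IsIntegral v.toValuationSubring z := by
  letI : Algebra v.toValuationSubring F :=
      (φ.toRingHom.comp (algebraMap v.toValuationSubring E)).toAlgebra
  have halg : ∀ x : v.toValuationSubring, algebraMap v.toValuationSubring F x = φ x := fun x => rfl
  change IsIntegral v.toValuationSubring z
  by_contra hcon
  set S : Subring F := (integralClosure v.toValuationSubring F).toSubring with hS
  have hSc : IsIntegrallyClosedIn S F := by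
    rw [Subring.isIntegrallyClosedIn_iff]
    intro y hy
    have : IsIntegral (integralClosure v.toValuationSubring F) y := hy
    exact isIntegral_trans (R := v.toValuationSubring)
      (A := integralClosure v.toValuationSubring F) y this
  have hzS : z ∉ S := hcon
  obtain ⟨W, hSW, hW⟩ := Subring.exists_le_valuationSubring_of_isIntegrallyClosedIn hzS
  have hv : ∀ x ∈ v.toValuationSubring, φ x ∈ W := fun x hx => hSW (by
    change IsIntegral v.toValuationSubring _
    have : φ x = algebraMap v.toValuationSubring F ⟨x, hx⟩ := rfl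
    rw [this]
    exact isIntegral_algebraMap)
  have hK : ∀ a : K, algebraMap K F a ∈ W := fun a => by
    have := hv _ (v.algebraMap_mem' a)
    rwa [AlgHom.commutes] at this
  have hne : W ≠ ⊤ := by
    rintro rfl
    exact hW (ValuationSubring.mem_top z)
  exact hW (h (placeOf W hK hne) hv)

theorem _root_.Fermat.Agent.Q.place_le_iff {K E : Type*} [Field K] [Field E] [Algebra K E]
    {v w : Place K E} (h : ∀ x ∈ v.toValuationSubring, x ∈ w.toValuationSubring) : v = w := by
  apply Place.ext
  apply le_antisymm h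
  intro x hx
  by_contra hxv
  have hx0 : x ≠ 0 := by
    rintro rfl
    exact hxv (zero_mem _)
  -- `v.ord x < 0 ≤ w.ord x`
  rw [H18.mem_iff] at hx hxv
  push Not at hxv
  obtain ⟨f, hf0, hf⟩ := H18.exists_ord_eq_one w
  -- `y = x^n f⁻¹` has `v.ord < 0`, for `n` large; so `y⁻¹ ∈ v ⊂ w`
  -- `w.ord y⁻¹ = 1 - n * w.ord x`
  -- if `w.ord x = 0` use `f`
  have h1 : w.ord x = 0 := by
    have h2 : x⁻¹ ∈ w.toValuationSubring := h _ (by
      rw [H18.mem_iff, v.ord_inv]; omega)
    rw [H18.mem_iff, w.ord_inv] at h2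
    omega
  obtain ⟨n, hn⟩ : ∃ n : ℕ, 0 ≤ v.ord (f⁻¹ * (x⁻¹) ^ n) := by
    refine ⟨(v.ord f).natAbs, ?_⟩
    rw [v.ord_mul (inv_ne_zero hf0) (pow_ne_zero _ (inv_ne_zero hx0)), H18.ord_pow, v.ord_inv,
      v.ord_inv]
    have h3 : (0 : ℤ) ≤ ((v.ord f).natAbs : ℤ) := Int.natCast_nonneg _
    have h4 : v.ord f ≤ ((v.ord f).natAbs : ℤ) := Int.le_natAbs
    nlinarith
  have h5 := h _ ((H18.mem_iff _).mpr hn)
  rw [H18.mem_iff, w.ord_mul (inv_ne_zero hf0) (pow_ne_zero _ (inv_ne_zero hx0)), H18.ord_pow,
    w.ord_inv, w.ord_inv, hf, h1] at h5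
  omega

variable [CharZero K]

theorem polInf_cf [FunField K D.S] {z : D.S} (hz : D.Rg z) (n : ℕ) : H11Q.PolInf (D.cf z n) := by
  rw [D.polInf_iff]
  intro v hv
  letI := algebraAlong (IntermediateField.inclusion D.le)
  haveI : Module.Finite D.S₀ D.S := D.fin
  have hint := isIntegral_of_places_above (IntermediateField.inclusion D.le) v z (by
    intro w hw
    apply hz
    · rintro rfl
      apply hv
      apply place_le_iff
      intro x hx
      have h1 := hw x hx
      rw [H18.mem_iff] at h1 ⊢
      have h2 : (D.cusp 0).ord (IntermediateField.inclusion D.le x) = D.P₀.ord x := D.ord_cusp_zero_ι x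
      rwa [h2] at h1
    · rintro rfl
      apply hv
      apply place_le_iff
      intro x hx
      have h1 := hw x hx
      rw [H18.mem_iff] at h1 ⊢
      have h2 : (D.cusp 1).ord (IntermediateField.inclusion D.le x) = r * D.P₀.ord x :=
        D.ord_cusp_one_ι x
      rw [h2] at h1
      have hr0 : (0 : ℤ) < r := by exact_mod_cast NeZero.pos r
      exact nonneg_of_mul_nonneg_right h1 hr0)
  letI : Algebra v.toValuationSubring D.S :=
      ((IntermediateField.inclusion D.le).toRingHom.comp
        (algebraMap v.toValuationSubring D.S₀)).toAlgebra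
  haveI : IsScalarTower v.toValuationSubring D.S₀ D.S := IsScalarTower.of_algebraMap_eq fun x => rfl
  have h1 := minpoly.isIntegrallyClosed_eq_field_fractions' (R := v.toValuationSubring) D.S₀ hint
  change (minpoly D.S₀ z).coeff n ∈ _
  rw [h1, Polynomial.coeff_map]
  exact ((minpoly v.toValuationSubring z).coeff n).2

end Poles

end ALData

end Fermat.Agent.Q
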