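import Fermat.Agent.Q.Conc5

/-!
# The Galois action on the toric part of `J₀(M r)`: inertia acts trivially, `φ w = -r`, `φ² = r²`
-/

set_option autoImplicit false
set_option linter.style.haveILetI false
set_option linter.unusedSectionVars false
set_option maxSynthPendingDepth 3

noncomputable section

attribute [-instance] HahnSeries.instModule HahnSeries.instSMul HahnSeries.instDistribMulAction
  HahnSeries.instSMulZeroClass

namespace Fermat.Agent.Q

open ModularCurve HahnSeries Fermat.Agent.Igusa AlgebraicCurve Fermat.Agent.FF Fermat.Agent.H11Q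

local notation "kk" => IsLocalRing.ResidueField
local notation "Qb" => AlgebraicClosure ℚ

variable {M r : ℕ} [NeZero M] [hr : Fact r.Prime]

theorem wBar_galois (hrM : Nat.Coprime r M) (σ : Qb ≃ₐ[ℚ] Qb)
    (z : modularFunctionFieldBar (M * r)) :
    wBar M r hrM (arithmeticGalois (modularFunctionFieldFull (M * r)) σ • z) =
      arithmeticGalois (modularFunctionFieldFull (M * r)) σ • wBar M r hrM z := by
  have h := galois_mul_wS (M := M) (Q := r) hrM σ
  have h1 : (arithmeticGalois (modularFunctionFieldFull (M * r)) σ * wS M r hrM) • z =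
      (wS M r hrM * arithmeticGalois (modularFunctionFieldFull (M * r)) σ) • z := by rw [h]
  rw [mul_smul, mul_smul] at h1
  exact h1.symm

/-- the Galois datum -/
def galB (hrM : Nat.Coprime r M) (σ : Qb ≃ₐ[ℚ] Qb) : (alData M r hrM).Gal where
  σ := (σ : Qb →+* Qb)
  g := arithmeticGalois (modularFunctionFieldFull (M * r)) σ
  g_coe _ := rfl
  g_w z := wBar_galois hrM σ z

variable (hrM : Nat.Coprime r M) {A : ValuationSubring Qb} (hA : A.LiesOverPrime r)
  (lp : LevelPack A (modularFunctionFieldBar M) (modularFunctionFieldFullC (kk A) M) r)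

/-- **Bridge.** -/
theorem inT_of_mem_TSub {m : ℕ} (hm : m ≠ 0) {x : JZero (M * r)} (hx : x ∈ TSub A M r m hrM)
    {f : modularFunctionFieldBar (M * r)} (hf : H05.Kum m x f) :
    InT (twoComp hrM hA lp) m f := by
  rw [mem_TSub] at hx
  obtain ⟨h0, h1⟩ := hx
  rw [mem_KInf_iff hA hrM hm hf] at h0
  rw [mem_KInf_iff hA hrM hm (hf.smul (wS M r hrM))] at h1
  refine (redHyp hrM hA).inT lp hm hf.ne_zero hf.dvd (fun j => ?_)
  rcases fin2_cases j with rfl | rfl
  · exact h0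
  · exact h1

theorem inertia_resid {σ : Qb ≃ₐ[ℚ] Qb} (hσ : σ ∈ A.inertiaSubgroupIn ℚ) (a : Qb) (ha : a ∈ A) :
    (σ : Qb →+* Qb) a ∈ A ∧ resid A ((σ : Qb →+* Qb) a) = resid A a := by
  obtain ⟨hx, h⟩ := inertia_residue hσ ⟨a, ha⟩
  refine ⟨hx, ?_⟩
  rw [resid_of_mem A ha]
  exact (resid_of_mem A hx).trans h

theorem frobenius_resid {φ : Qb ≃ₐ[ℚ] Qb} (hφ : A.IsFrobeniusAt φ r) (a : Qb) (ha : a ∈ A) :
    (φ : Qb →+* Qb) a ∈ A ∧ resid A ((φ : Qb →+* Qb) a) = (resid A a) ^ r := by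
  obtain ⟨hx, h⟩ := frobenius_residue hφ ⟨a, ha⟩
  refine ⟨hx, ?_⟩
  rw [resid_of_mem A ha]
  exact (resid_of_mem A hx).trans h

include hA lp

/-- **(T1)** Inertia at `r` acts trivially on the toric part. -/
theorem inertia_smul_of_mem_TSub {m : ℕ} (hm : ¬ r ∣ m) {x : JZero (M * r)}
    (hx : x ∈ TSub A M r m hrM) {σ : Qb ≃ₐ[ℚ] Qb} (hσ : σ ∈ A.inertiaSubgroupIn ℚ) :
    σ • x = x := by
  have hm0 : m ≠ 0 := by rintro rfl; exact hm (dvd_zero r)
  obtain ⟨f, hf⟩ := H05.exists_kum (nsmul_eq_zero_of_mem_KInf hx.1)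
  have hfT := inT_of_mem_TSub hrM hA lp hm0 hx hf
  haveI : HasPrincipalDivisors Qb (alData M r hrM).S := H05.hasPrincipalDivisors_bc Qb (M * r)
  have h := (redHyp hrM hA).smul_eq_nsmul (galB hrM σ) lp (N := 1) hm (RingHom.id _)
    (fun a ha => (inertia_resid hσ a ha).1) (fun a ha => (inertia_resid hσ a ha).2)
    (fun u hu => by rw [coeffMap_id]; exact hu) (Or.inl fun c => rfl)
    (fun c _ => by rw [pow_one]; rfl) hf hfT
  rw [galois_smul_pic0_def]
  exact h.trans (one_nsmul x)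

/-- **(T3)** `φ w = - r` on the toric part. -/
theorem frobenius_smul_w_of_mem_TSub {m : ℕ} (hm : ¬ r ∣ m) {x : JZero (M * r)}
    (hx : x ∈ TSub A M r m hrM) {φ : Qb ≃ₐ[ℚ] Qb} (hφ : A.IsFrobeniusAt φ r) :
    φ • wS M r hrM • x = -(r • x) := by
  have hm0 : m ≠ 0 := by rintro rfl; exact hm (dvd_zero r)
  obtain ⟨f, hf⟩ := H05.exists_kum (nsmul_eq_zero_of_mem_KInf hx.1)
  have hfT := inT_of_mem_TSub hrM hA lp hm0 hx hf
  haveI : HasPrincipalDivisors Qb (alData M r hrM).S := H05.hasPrincipalDivisors_bc Qb (M * r)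
  haveI := H05.charP_residueField hr.out hA
  have h := (redHyp hrM hA).swap_eq_neg (galB hrM φ) lp hm (frobenius (kk A) r)
    (fun a ha => (frobenius_resid hφ a ha).1) (fun a ha => (frobenius_resid hφ a ha).2)
    (fun u hu => coeffMap_mem_full _ M hu) (fun c => rfl) hf hfT
  rw [galois_smul_pic0_def]
  exact eq_neg_of_add_eq_zero_left h

/-- **(T2)** `φ² = r²` on the toric part. -/
theorem frobenius_sq_smul_of_mem_TSub {m : ℕ} (hm : ¬ r ∣ m) {x : JZero (M * r)}
    (hx : x ∈ TSub A M r m hrM) {φ : Qb ≃ₐ[ℚ] Qb} (hφ : A.IsFrobeniusAt φ r) :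
    φ • φ • x = (r ^ 2) • x := by
  have h1 := frobenius_smul_w_of_mem_TSub hrM hA lp hm hx hφ
  have h2 := frobenius_smul_w_of_mem_TSub hrM hA lp hm (wS_mem_TSub hrM hx) hφ
  rw [wS_wS] at h2
  rw [h2, smul_neg, galois_smul_pic0_def, smul_comm (arithmeticGalois _ φ) r,
    ← galois_smul_pic0_def, h1, smul_neg, neg_neg, smul_smul, pow_two]

end Fermat.Agent.Q
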