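import Fermat.Agent.Q.ToricFull
import Fermat.Agent.H05.Toric

/-!
# `ToricAt` for all levels
-/

set_option autoImplicit false
set_option maxSynthPendingDepth 3

noncomputable section

namespace Fermat.Agent.Q

open ModularCurve AlgebraicCurve

/-- `ToricAt` holds at every level. -/
theorem toricAt {p M q : ℕ} [NeZero M] [Fact q.Prime] (hp : p.Prime) (hqp : q ≠ p)
    (h : Nat.Coprime q M) : H05.ToricAt p M q h := by
  intro m A hA
  have hm : ¬ q ∣ p ^ m := fun hd =>
    hqp ((Nat.prime_dvd_prime_iff_eq Fact.out hp).mp ((Fact.out : q.Prime).dvd_of_dvd_pow hd))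
  exact ⟨fun τ hτ x hx => toric_T1 h hA hm hx hτ, fun φ hφ x hx => toric_T2 h hA hm hx hφ⟩

end Fermat.Agent.Q
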